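import Fermat.Agent.LanglandsTunnell.CFT.FrobeniusOver
import Fermat.Agent.ExtVanishing.Cocycle
import Fermat.Agent.ECReduction.GlobalInertia
import Mathlib.NumberTheory.PrimesCongruentOne
import Mathlib.RingTheory.ZMod.UnitsCyclic

/-!
# Auxiliary primes for the crossing argument

Primitive prime divisors of `q ^ (l ^ e) - 1` give auxiliary primes with an element of given prime
power order independent of `q` (`exists_auxiliary`); away from finitely many primes the cyclotomic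
characters are independent of a given number field (`exists_fixing_cycloChar`).
-/

set_option autoImplicit false

noncomputable section

namespace FLTAgent.LanglandsTunnell.CFT

open FLTAgent.Density ExtCitation

/-- A primitive prime divisor of `q ^ (l ^ e) - 1`. -/
theorem exists_prime_orderOf_eq_pow {l : ℕ} (hl : l.Prime) {q : ℕ} (hq : 2 ≤ q) (e B : ℕ) :
    ∃ r e' : ℕ, r.Prime ∧ B < r ∧ e ≤ e' ∧ orderOf (q : ZMod r) = l ^ e' := by
  obtain ⟨d, hd⟩ : ∃ d, d = e + B + 2 := ⟨_, rfl⟩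
  set x : ℕ := q ^ (l ^ (d + 1)) with hx
  set S : ℕ := ∑ i ∈ Finset.range l, x ^ i with hS
  have hx2 : 2 ≤ x := hq.trans (Nat.le_self_pow (pow_ne_zero _ hl.ne_zero) q)
  have hSl : l < S := by
    have h1 : ∀ i ∈ Finset.range l, 1 ≤ x ^ i := fun i _ => Nat.one_le_pow _ _ (by omega)
    have h2 : x ^ 1 ≤ x ^ 1 := le_rfl
    calc l = ∑ _i ∈ Finset.range l, 1 := by simp
      _ < S := Finset.sum_lt_sum h1 ⟨1, Finset.mem_range.2 hl.one_lt, by rw [pow_one]; omega⟩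
  -- `S` is not divisible by `l ^ 2`
  have hl2 : ¬ l ^ 2 ∣ S := by
    intro h
    have h0 : ((S : ℕ) : ZMod (l ^ 2)) = 0 := (ZMod.natCast_eq_zero_iff ..).2 h
    have hmod : (x : ZMod l) = 1 := by
      have : Fact l.Prime := ⟨hl⟩
      by_contra hne
      have h1 : ((S : ℕ) : ZMod l) = 0 :=
        (ZMod.natCast_eq_zero_iff ..).2 ((dvd_pow_self l two_ne_zero).trans h)
      rw [hS, Nat.cast_sum] at h1
      simp only [Nat.cast_pow] at h1
      have h2 := geom_sum_mul (x : ZMod l) l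
      rw [h1, zero_mul, ZMod.pow_card, eq_comm, sub_eq_zero] at h2
      exact hne h2
    rcases eq_or_ne l 2 with rfl | hl2
    · have hodd : Odd x := by
        rw [Nat.odd_iff]
        rwa [← Nat.cast_one, ZMod.natCast_eq_natCast_iff'] at hmod
      have hqodd : Odd q := (Nat.odd_pow_iff (pow_ne_zero _ two_ne_zero)).1 hodd
      obtain ⟨t, ht⟩ : ∃ t, x = t ^ 2 := ⟨q ^ (2 ^ d), by rw [hx, ← pow_mul, pow_succ]⟩
      obtain ⟨u, hu⟩ := (Nat.odd_pow_iff two_ne_zero).1 (ht ▸ hodd)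
      rw [hS, Finset.sum_range_succ, Finset.sum_range_one, pow_zero, pow_one, ht, hu] at h
      obtain ⟨c, hc⟩ := h
      ring_nf at hc
      omega
    · obtain ⟨m, hm⟩ : (l : ℕ) ∣ x - 1 := by
        rw [← Nat.modEq_iff_dvd' (by omega), ← ZMod.natCast_eq_natCast_iff, hmod, Nat.cast_one]
      have hxm : (x : ZMod (l ^ 2)) = 1 + (l : ZMod (l ^ 2)) * m := by
        rw [show x = 1 + l * m by omega]
        push_cast
        ring
      have hsq : (l : ZMod (l ^ 2)) * l = 0 := by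
        rw [← Nat.cast_mul, ← sq, ZMod.natCast_self]
      have hterm : ∀ i : ℕ, (x : ZMod (l ^ 2)) ^ i = 1 + (i : ZMod (l ^ 2)) * (l * m) := by
        intro i
        induction i with
        | zero => simp
        | succ i ih =>
          rw [pow_succ (x : ZMod (l ^ 2)), ih, hxm]
          push_cast
          linear_combination ((i : ZMod (l ^ 2)) * m * m) * hsq
      rw [hS, Nat.cast_sum] at h0
      simp only [Nat.cast_pow, hterm, Finset.sum_add_distrib, Finset.sum_const, Finset.card_range,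
        nsmul_eq_mul, mul_one, ← Finset.sum_mul] at h0
      have hdiv : l ∣ ∑ i ∈ Finset.range l, i := by
        have h2 := Finset.sum_range_id_mul_two l
        exact (hl.coprime_iff_not_dvd.2 fun hd2 => hl2
          ((Nat.prime_dvd_prime_iff_eq hl Nat.prime_two).1 hd2)).dvd_of_dvd_mul_right
          (h2 ▸ dvd_mul_right l (l - 1))
      obtain ⟨c, hc⟩ := hdiv
      rw [← Nat.cast_sum, hc, Nat.cast_mul,
        show (l : ZMod (l ^ 2)) * c * (l * m) = c * m * ((l : ZMod (l ^ 2)) * l)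
        by ring, hsq, mul_zero, add_zero, ZMod.natCast_eq_zero_iff] at h0
      exact absurd (Nat.le_of_dvd hl.pos h0) (not_le.2 (by nlinarith [hl.two_le]))
  obtain ⟨r, hr, hrS, hrl⟩ : ∃ r, r.Prime ∧ r ∣ S ∧ r ≠ l := by
    by_contra hnone
    push Not at hnone
    have hpow := Nat.eq_prime_pow_of_unique_prime_dvd (by omega : S ≠ 0)
      (fun {d} hd hdS => hnone d hd hdS)
    rcases Nat.lt_or_ge (S.primeFactorsList.length) 2 with h | h
    · interval_cases hlen : S.primeFactorsList.length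
      · rw [pow_zero] at hpow
        have := hl.one_lt
        omega
      · rw [pow_one] at hpow
        omega
    · exact hl2 (hpow ▸ pow_dvd_pow l h)
  have : Fact r.Prime := ⟨hr⟩
  have hSr : ((S : ℕ) : ZMod r) = 0 := (ZMod.natCast_eq_zero_iff ..).2 hrS
  rw [hS, Nat.cast_sum] at hSr
  simp only [Nat.cast_pow] at hSr
  have hx1 : (x : ZMod r) ≠ 1 := fun h => by
    simp only [h, one_pow, Finset.sum_const, Finset.card_range, nsmul_eq_mul, mul_one] at hSr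
    rw [ZMod.natCast_eq_zero_iff, Nat.prime_dvd_prime_iff_eq hr hl] at hSr
    exact hrl hSr
  have hxl : (x : ZMod r) ^ l = 1 := by
    have h2 := geom_sum_mul (x : ZMod r) l
    rw [hSr, zero_mul, eq_comm, sub_eq_zero] at h2
    exact h2
  have hord : orderOf (q : ZMod r) = l ^ (d + 2) := by
    have : Fact l.Prime := ⟨hl⟩
    refine orderOf_eq_prime_pow (fun h => hx1 ?_) ?_
    · rw [hx, Nat.cast_pow]; exact h
    · rw [pow_succ, pow_mul, ← Nat.cast_pow, ← hx]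
      exact hxl
  refine ⟨r, d + 2, hr, ?_, by omega, hord⟩
  have hq0 : (q : ZMod r) ≠ 0 := fun h => hx1 (absurd hxl (by
    rw [hx, Nat.cast_pow, h, zero_pow (pow_ne_zero _ hl.ne_zero), zero_pow hl.ne_zero]
    exact zero_ne_one))
  have h1 := ZMod.orderOf_dvd_card_sub_one hq0
  rw [hord] at h1
  have h2 := Nat.le_of_dvd (by have := hr.two_le; omega) h1
  have h3 : d + 2 < l ^ (d + 2) := Nat.lt_pow_self hl.one_lt
  omega

/-- Two auxiliary primes and an element of order `n = l ^ k` independent of `q`. -/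
theorem exists_auxiliary {l : ℕ} (hl : l.Prime) (k : ℕ) {q : ℕ} (hq : 2 ≤ q) (B : ℕ) :
    ∃ (r₁ r₂ : ℕ), r₁.Prime ∧ r₂.Prime ∧ r₁ ≠ r₂ ∧ B < r₁ ∧ B < r₂ ∧
      (q : ZMod r₁) ≠ 0 ∧ (q : ZMod r₂) ≠ 0 ∧
      ∃ g : (ZMod r₂)ˣ, ∀ (u₁ : (ZMod r₁)ˣ) (u₂ : (ZMod r₂)ˣ), (u₁ : ZMod r₁) = q →
        (u₂ : ZMod r₂) = q → ∀ a b : ℤ, u₁ ^ b = 1 → g ^ a * u₂ ^ b = 1 →
          ((l ^ k : ℕ) : ℤ) ∣ a ∧ ((l ^ k : ℕ) : ℤ) ∣ b := by
  obtain ⟨r₂, hr₂, hr₂B, hmod⟩ := Nat.exists_prime_gt_modEq_one (B + q) (pow_ne_zero k hl.ne_zero)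
  have : Fact r₂.Prime := ⟨hr₂⟩
  have hdvd : l ^ k ∣ r₂ - 1 := (Nat.modEq_iff_dvd' hr₂.one_le).1 hmod.symm
  have hr20 : r₂ - 1 ≠ 0 := by have := hr₂.two_le; omega
  set v := (r₂ - 1).factorization l with hv
  obtain ⟨r₁, e', hr₁, hr₁B, he', hord⟩ :=
    exists_prime_orderOf_eq_pow hl hq (k + v) (B + q + r₂)
  have : Fact r₁.Prime := ⟨hr₁⟩
  have hne : ∀ {r : ℕ}, r.Prime → q < r → (q : ZMod r) ≠ 0 := fun {r} _ h h0 => by
    rw [ZMod.natCast_eq_zero_iff] at h0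
    exact absurd (Nat.le_of_dvd (by omega) h0) (not_le.2 h)
  obtain ⟨γ, hγ⟩ := IsCyclic.exists_generator (α := (ZMod r₂)ˣ)
  have hγord : orderOf γ = r₂ - 1 := by
    rw [orderOf_eq_card_of_forall_mem_zpowers hγ, Nat.card_eq_fintype_card, ZMod.card_units]
  refine ⟨r₁, r₂, hr₁, hr₂, by omega, by omega, by omega, hne hr₁ (by omega), hne hr₂ (by omega),
    γ ^ ((r₂ - 1) / l ^ k), fun u₁ u₂ hu₁ hu₂ a b hb hab => ?_⟩
  have hgord : orderOf (γ ^ ((r₂ - 1) / l ^ k)) = l ^ k := by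
    rw [← hγord] at hdvd hr20 ⊢
    exact orderOf_pow_orderOf_div hr20 hdvd
  have hu1ord : orderOf u₁ = l ^ e' := by
    rw [← orderOf_units, hu₁, hord]
  have hlb : ((l ^ e' : ℕ) : ℤ) ∣ b := by
    rw [← hu1ord]
    exact orderOf_dvd_iff_zpow_eq_one.2 hb
  have hbk : ((l ^ k : ℕ) : ℤ) ∣ b :=
    (Int.natCast_dvd_natCast.2 (pow_dvd_pow l (le_trans (Nat.le_add_right k v) he'))).trans hlb
  refine ⟨?_, hbk⟩
  -- the prime to `l` part of `r₂ - 1`
  set w := (r₂ - 1) / l ^ v with hw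
  have hvw : l ^ v * w = r₂ - 1 := Nat.mul_div_cancel' (Nat.ordProj_dvd _ _)
  have hcop : (l ^ k).Coprime w := Nat.Coprime.pow_left _ (Nat.coprime_ordCompl hl hr20)
  have hbw : u₂ ^ (b * (w : ℤ)) = 1 := by
    obtain ⟨c, hc⟩ : ((l ^ v : ℕ) : ℤ) ∣ b :=
      (Int.natCast_dvd_natCast.2 (pow_dvd_pow l (le_trans (Nat.le_add_left v k) he'))).trans hlb
    rw [hc, mul_assoc, mul_comm c, ← mul_assoc, ← Nat.cast_mul, hvw, zpow_mul, zpow_natCast,
      ← ZMod.card_units r₂, pow_card_eq_one, one_zpow]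
  have haw : (γ ^ ((r₂ - 1) / l ^ k)) ^ (a * (w : ℤ)) = 1 := by
    rw [zpow_mul, eq_inv_of_mul_eq_one_left hab, inv_zpow, ← zpow_mul, hbw, inv_one]
  rw [← orderOf_dvd_iff_zpow_eq_one, hgord] at haw
  exact (Int.isCoprime_iff_nat_coprime.2 (by simpa using hcop)).dvd_of_dvd_mul_right haw

theorem cycloChar_eq_one_of_mem_inertia {r : ℕ} [Fact r.Prime] {q : ℕ} (hq : q.Prime)
    (hqr : q ≠ r) {A : ValuationSubring Qbar} (hA : A.LiesOverPrime q) {σ : GalQ}
    (hσ : σ ∈ A.inertiaSubgroupIn ℚ) : cycloChar r σ = 1 := by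
  have hr : r.Prime := Fact.out
  obtain ⟨hd, hc⟩ := mem_inertiaSubgroupIn_iff.1 hσ
  have hfrob : A.IsFrobeniusAt σ 1 := isFrobeniusAt_iff.2 ⟨hd, fun x hx => by
    rw [pow_one]; exact hc x hx⟩
  obtain ⟨ζ, hζ⟩ : ∃ ζ : Qbar, IsPrimitiveRoot ζ r := by
    have : NeZero r := ⟨hr.ne_zero⟩
    exact HasEnoughRootsOfUnity.exists_primitiveRoot Qbar r
  have hfix : σ ζ = ζ := by
    rw [apply_root_of_unity hfrob (natCast_notMem_nonunits hq hA fun h =>
      hqr ((Nat.prime_dvd_prime_iff_eq hq hr).1 h)) hζ.pow_eq_one, pow_one]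
  exact Units.ext ((ExtVanishing.cycChar_eq_one_iff r hζ σ).2 hfix)

theorem isOpen_ker_cycloChar (r : ℕ) [Fact r.Prime] :
    IsOpen ((cycloChar r).ker : Set GalQ) := by
  have hr : r.Prime := Fact.out
  have : NeZero r := ⟨hr.ne_zero⟩
  obtain ⟨ζ, hζ⟩ := HasEnoughRootsOfUnity.exists_primitiveRoot Qbar r
  have : ((cycloChar r).ker : Set GalQ) = (MulAction.stabilizer GalQ ζ : Set GalQ) := by
    ext σ
    rw [SetLike.mem_coe, SetLike.mem_coe, MonoidHom.mem_ker, MulAction.mem_stabilizer_iff,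
      AlgEquiv.smul_def, ← ExtVanishing.cycChar_eq_one_iff r hζ σ]
    exact ⟨fun h => by rw [ExtVanishing.cycChar, h, Units.val_one], fun h => Units.ext h⟩
  rw [this]
  exact stabilizer_isOpen_of_isIntegral (K := ℚ) ζ

theorem cycloChar_surjective_inertia (r : ℕ) [Fact r.Prime] (u : (ZMod r)ˣ) :
    u ∈ Subgroup.closure {v : (ZMod r)ˣ | ∃ (A : ValuationSubring Qbar) (σ : GalQ),
      A.LiesOverPrime r ∧ σ ∈ A.inertiaSubgroupIn ℚ ∧ cycloChar r σ = v} := by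
  set S := Subgroup.closure {v : (ZMod r)ˣ | ∃ (A : ValuationSubring Qbar) (σ : GalQ),
    A.LiesOverPrime r ∧ σ ∈ A.inertiaSubgroupIn ℚ ∧ cycloChar r σ = v}
  have htop := ECReduction.eq_top_of_inertia_le (S.comap (cycloChar r))
    (Subgroup.isOpen_mono (fun σ hσ => by
      rw [Subgroup.mem_comap, MonoidHom.mem_ker.1 hσ]; exact S.one_mem) (isOpen_ker_cycloChar r))
    fun q hq A hA σ hσ => by
      rw [Subgroup.mem_comap]
      by_cases hqr : q = r
      · exact Subgroup.subset_closure ⟨A, σ, hqr ▸ hA, hσ, rfl⟩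
      · rw [cycloChar_eq_one_of_mem_inertia hq hqr hA hσ]; exact S.one_mem
  obtain ⟨σ, hσ⟩ : ∃ σ : GalQ, cycloChar r σ = u := by
    have : NeZero r := ⟨(Fact.out : r.Prime).ne_zero⟩
    obtain ⟨ζ, hζ⟩ := HasEnoughRootsOfUnity.exists_primitiveRoot Qbar r
    have hirr := Polynomial.cyclotomic.irreducible_rat (NeZero.pos r)
    have hmin : minpoly ℚ (ζ ^ (u : ZMod r).val) = minpoly ℚ ζ := by
      have h1 := hζ.pow_of_coprime _ (ZMod.val_coe_unit_coprime u)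
      rw [← Polynomial.cyclotomic_eq_minpoly_rat h1 (NeZero.pos r),
        ← Polynomial.cyclotomic_eq_minpoly_rat hζ (NeZero.pos r)]
    obtain ⟨σ, hσ⟩ := IsConjRoot.exists_algEquiv (K := ℚ) (x := ζ ^ (u : ZMod r).val) (y := ζ)
      (isConjRoot_def.2 hmin)
    refine ⟨σ, Units.ext (ZMod.val_injective r ?_)⟩
    refine hζ.pow_inj (ZMod.val_lt _) (ZMod.val_lt _) ?_
    have e := ExtVanishing.apply_primitiveRoot r hζ σ
    rw [hσ] at e
    exact e.symm
  have : σ ∈ S.comap (cycloChar r) := htop ▸ Subgroup.mem_top σ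
  rwa [Subgroup.mem_comap, hσ] at this

/-- Away from finitely many primes the cyclotomic characters are independent of a number field. -/
theorem exists_fixing_cycloChar (L : IntermediateField ℚ Qbar) [FiniteDimensional ℚ L] :
    ∃ S : Finset ℕ, ∀ (r₁ r₂ : ℕ) [Fact r₁.Prime] [Fact r₂.Prime], r₁ ∉ S → r₂ ∉ S → r₁ ≠ r₂ →
      ∀ (u₁ : (ZMod r₁)ˣ) (u₂ : (ZMod r₂)ˣ), ∃ σ : GalQ,
        (∀ x ∈ L, σ x = x) ∧ cycloChar r₁ σ = u₁ ∧ cycloChar r₂ σ = u₂ := by
  obtain ⟨S, hS⟩ := exists_finset_forall_inertia_fixes L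
  refine ⟨S, fun r₁ r₂ _ _ h1 h2 hne u₁ u₂ => ?_⟩
  have key : ∀ (r r' : ℕ) [Fact r.Prime] [Fact r'.Prime], r ∉ S → r ≠ r' → ∀ u : (ZMod r)ˣ,
      ∃ σ : GalQ, (∀ x ∈ L, σ x = x) ∧ cycloChar r σ = u ∧ cycloChar r' σ = 1 := by
    intro r r' _ _ hr hne u
    refine Subgroup.closure_induction (p := fun u _ => ∃ σ : GalQ, (∀ x ∈ L, σ x = x) ∧
      cycloChar r σ = u ∧ cycloChar r' σ = 1) ?_ ?_ ?_ ?_ (cycloChar_surjective_inertia r u)
    · rintro v ⟨A, σ, hA, hσ, rfl⟩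
      exact ⟨σ, hS r Fact.out hr A hA σ hσ, rfl,
        cycloChar_eq_one_of_mem_inertia Fact.out hne hA hσ⟩
    · exact ⟨1, fun x _ => rfl, map_one _, map_one _⟩
    · rintro v w - - ⟨σ, hσ, rfl, hσ'⟩ ⟨τ, hτ, rfl, hτ'⟩
      exact ⟨σ * τ, fun x hx => by rw [AlgEquiv.mul_apply, hτ x hx, hσ x hx], map_mul _ _ _,
        by rw [map_mul, hσ', hτ', one_mul]⟩
    · rintro v - ⟨σ, hσ, rfl, hσ'⟩
      exact ⟨σ⁻¹, fun x hx => σ.injective (by
        rw [hσ x hx, ← AlgEquiv.mul_apply, mul_inv_cancel, AlgEquiv.one_apply]), map_inv _ _,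
        by rw [map_inv, hσ', inv_one]⟩
  obtain ⟨σ, hσ, e1, e2⟩ := key r₁ r₂ h1 hne u₁
  obtain ⟨τ, hτ, e3, e4⟩ := key r₂ r₁ h2 hne.symm u₂
  exact ⟨σ * τ, fun x hx => by rw [AlgEquiv.mul_apply, hτ x hx, hσ x hx],
    by rw [map_mul, e1, e4, mul_one], by rw [map_mul, e2, e3, one_mul]⟩

end FLTAgent.LanglandsTunnell.CFT
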