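import Fermat.Agent.LanglandsTunnell.CFT.ClassRayHom

/-!
# The Artin map and the second inequality for cyclic extensions of prime degree

The Artin map of a cyclic step (`step_artin`), its norm index (`normIndex_eq`), the vanishing of
`H¹` of idele classes (`exists_eq_smul_sub`), and reciprocity for a cyclic character of prime order
(`exists_artin_prime`).
-/

set_option autoImplicit false

noncomputable section

open NumberField IsDedekindDomain
open scoped Pointwise Classical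

namespace FLTAgent.LanglandsTunnell.CFT

open FLTAgent.Density FLTAgent.ExtVanishing FLTAgent.LanglandsTunnell
open FLTAgent.GalCoh FLTAgent.GlobalDuality FLTAgent.IdeleClassCohomology FLTAgent.LocalDuality

variable {p : ℕ} [hp : Fact p.Prime]

/-- The Artin map of a step, with the second inequality. -/
theorem step_artin (D : CyclicStep p) (hinf : D.InfSplit) {G : Type} [CommGroup G] [Finite G]
    (hG : Nat.card G = p) (χ : D.K.fixingSubgroup →* G) (hχ : Function.Surjective χ)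
    (hker : ∀ σ : D.K.fixingSubgroup, χ σ = 1 ↔ (σ : GalQ) ∈ D.top) :
    Nat.card D.NormQuot = p ∧
      ∃ (f : Ideal (𝓞 D.K)) (ψ : Ideal (𝓞 D.K) → G), IsRayHom f ψ ∧
        (∀ P : Ideal (𝓞 D.K), P.IsPrime → P ∣ f → ¬ IsUnramifiedChar χ P) ∧
        ∀ P : Ideal (𝓞 D.K), P.IsPrime → P ≠ ⊥ → P ⊔ f = ⊤ →
          IsUnramifiedChar χ P ∧ ψ P = frobVal χ P := by
  obtain ⟨hdvd, hne⟩ := D.card_normQuot hinf
  have : Finite D.NormQuot := Nat.finite_of_card_ne_zero hne
  obtain ⟨τ, hτ⟩ : ∃ τ : G, τ ≠ 1 :=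
    ⟨χ ⟨D.g, D.mem⟩, fun h => D.notMem ((hker ⟨D.g, D.mem⟩).1 h)⟩
  have hlev : ∃ L : IntermediateField ℚ Qbar, FiniteDimensional ℚ L ∧
      ∀ σ : D.K.fixingSubgroup, (∀ x ∈ L, (σ : GalQ) x = x) → χ σ = 1 :=
    ⟨D.L, D.finL, fun σ hσ => (hker σ).2 ((IntermediateField.mem_fixingSubgroup_iff _ _).2 hσ)⟩
  have hgood : ∀ x : fixedPts D.bot Idele,
      (∀ q σ, (¬ ∃ t, D.IsLocalGen q σ t) ∨
        (IsUnramifiedChar χ (placeIdeal D.K q σ).asIdeal ∧ x.1.at q σ ∈ unitsAt q) ∨
        ‖(x.1.at q σ).val - 1‖ < ‖(p : PadicAlgCl (q : ℕ))‖ ^ 2) → D.normQuot x = 0 := by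
    intro x hx
    obtain ⟨y, hy, hy'⟩ := exists_norm_of_forall_local' D x.2 fun q σ => by
      rcases hx q σ with h | ⟨h1, h2⟩ | h
      · exact Or.inl h
      · exact Or.inr (Or.inl ⟨h2, fun t ht y hy =>
          exists_norm_eq_of_unramified D hker h1 t ht y hy⟩)
      · exact Or.inr (Or.inr h)
    exact D.normQuot_eq_zero_of_norm hy hy'
  have hkill : ∀ v : HeightOneSpectrum (𝓞 D.K), IsUnramifiedChar χ v.asIdeal →
      orderOf (frobVal χ v.asIdeal) • D.normQuot (uniIdele v) = 0 := by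
    intro v hv
    have hd : orderOf (frobVal χ v.asIdeal) ∣ p :=
      (orderOf_dvd_natCard _).trans (dvd_of_eq hG)
    rcases (Nat.dvd_prime hp.out).1 hd with h | h <;> rw [h]
    · rw [one_smul]
      rw [orderOf_eq_one_iff] at h
      refine hgood _ fun q σ => ?_
      by_cases hq : placeIdeal D.K q σ = v
      · subst hq
        exact Or.inl (not_isLocalGen_of_frobVal_eq_one D hker hv h)
      · refine Or.inr (Or.inr ?_)
        rw [at_uniIdele_of_ne hq, LU.val_zero, sub_self, norm_zero]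
        exact pow_pos (norm_pos_iff.2 (Nat.cast_ne_zero.2 hp.out.ne_zero)) 2
    · exact D.nsmul_normQuot_eq_zero _
  obtain ⟨hle, hart⟩ := exists_artin_of_classes χ hχ hlev hp.out
    (τ := τ) (k := 1) (fun x => mem_zpowers_of_prime_card hG hτ)
    (by rw [pow_one]; exact orderOf_eq_prime ((congrArg (τ ^ ·) hG.symm).trans pow_card_eq_one') hτ)
    hinf.symm (m := p) hp.out.ne_zero D.normQuot D.normQuot_surjective
    (fun a ha => D.normQuot_principal ha) (fun x hx => hgood x fun q σ => Or.inr (hx q σ)) hkill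
  have hge : p ≤ Nat.card D.NormQuot := Nat.le_of_dvd (Nat.pos_of_ne_zero hne) hdvd
  exact ⟨le_antisymm (hle.trans_eq hG) hge, hart (le_trans (le_of_eq hG) hge)⟩

/-- The second inequality. -/
theorem normIndex_eq (D : CyclicStep p) (hinf : D.InfSplit) :
    (normTo IdeleClass D.top D.bot).range.index = p := by
  have := D.normal
  have hcard : Nat.card (D.bot ⧸ D.top.subgroupOf D.bot) = p := D.index
  have : IsCyclic (D.bot ⧸ D.top.subgroupOf D.bot) := isCyclic_of_prime_card hcard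
  let e := (zmodCyclicMulEquiv (inferInstance : IsCyclic (D.bot ⧸ D.top.subgroupOf D.bot))).symm
  have : Finite (Multiplicative (ZMod (Nat.card (D.bot ⧸ D.top.subgroupOf D.bot)))) :=
    Finite.of_equiv _ e.toEquiv
  refine (step_artin D hinf (G := Multiplicative (ZMod (Nat.card (D.bot ⧸ D.top.subgroupOf D.bot))))
    ((Nat.card_congr e.toEquiv).symm.trans hcard)
    (e.toMonoidHom.comp (QuotientGroup.mk' _))
    (e.surjective.comp (QuotientGroup.mk'_surjective _)) fun σ => ?_).1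
  rw [MonoidHom.comp_apply, MulEquiv.coe_toMonoidHom, map_eq_one_iff _ e.injective,
    QuotientGroup.mk'_apply, QuotientGroup.eq_one_iff, Subgroup.mem_subgroupOf]

/-- `H¹` of the idele classes of a cyclic step vanishes. -/
theorem exists_eq_smul_sub (D : CyclicStep p) (hinf : D.InfSplit) {c : IdeleClass}
    (hc : c ∈ fixedPts D.top IdeleClass) (hN : ∑ i ∈ Finset.range p, D.g ^ i • c = 0) :
    ∃ d ∈ fixedPts D.top IdeleClass, c = D.g • d - d :=
  D.exists_eq_smul_sub_of_le hinf (normIndex_eq D hinf).le hc hN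

variable {K : IntermediateField ℚ Qbar} [FiniteDimensional ℚ K]

/-- The step cut out by a character. -/
theorem exists_step_of_char {G : Type} [CommGroup G] [Finite G] (hG : Nat.card G = p)
    (χ : K.fixingSubgroup →* G) (hχ : Function.Surjective χ)
    (hlev : ∃ L : IntermediateField ℚ Qbar, FiniteDimensional ℚ L ∧
      ∀ σ : K.fixingSubgroup, (∀ x ∈ L, (σ : GalQ) x = x) → χ σ = 1) :
    ∃ D : CyclicStep p, D.K = K ∧ D.top = χ.ker.map K.fixingSubgroup.subtype := by
  -- the step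
  obtain ⟨τ, hτ1⟩ : ∃ τ : G, τ ≠ 1 := by
    have : Nontrivial G := Finite.one_lt_card_iff_nontrivial.1 (hG ▸ hp.out.one_lt)
    exact exists_ne 1
  obtain ⟨⟨g, hgK⟩, hg⟩ := hχ τ
  set N' : Subgroup GalQ := χ.ker.map K.fixingSubgroup.subtype with hN'
  have hsub : N'.subgroupOf K.fixingSubgroup = χ.ker :=
    Subgroup.comap_map_eq_self_of_injective Subtype.val_injective _
  obtain ⟨L₀, hL₀, hL₀χ⟩ := hlev
  have := hL₀
  obtain ⟨M, hM⟩ := Layer.exists_ge (L₀ ⊔ K)
  have hMN : M.sub ≤ N' := fun s hs => by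
    have hs' : ∀ y ∈ L₀ ⊔ K, s y = y := fun y hy =>
      (IntermediateField.mem_fixingSubgroup_iff _ _).1 hs y (hM hy)
    have hsK : s ∈ K.fixingSubgroup := (IntermediateField.mem_fixingSubgroup_iff _ _).2
      fun y hy => hs' y ((_root_.le_sup_right : K ≤ L₀ ⊔ K) hy)
    exact ⟨⟨s, hsK⟩, hL₀χ ⟨s, hsK⟩ fun y hy => hs' y ((_root_.le_sup_left : L₀ ≤ L₀ ⊔ K) hy), rfl⟩
  have hgN' : g ∉ N' := fun h => by
    obtain ⟨s, hs, hsg⟩ := h
    obtain rfl : s = ⟨g, hgK⟩ := Subtype.ext hsg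
    exact hτ1 (hg ▸ hs)
  obtain ⟨D, hDtop, hDbot, -⟩ := exists_cyclicStep (p := p) hMN (Subgroup.map_subtype_le _)
    (by rw [Subgroup.relIndex, hsub, Subgroup.index_ker, MonoidHom.range_eq_top.2 hχ,
      Subgroup.card_top, hG])
    (hsub ▸ χ.normal_ker) hgK hgN'
  refine ⟨D, ?_, hDtop⟩
  rw [← InfiniteGalois.fixedField_fixingSubgroup D.K, ← InfiniteGalois.fixedField_fixingSubgroup K]
  exact congrArg IntermediateField.fixedField hDbot

/-- **Artin reciprocity** for a cyclic character of prime order. -/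
theorem exists_artin_prime {G : Type} [CommGroup G] [Finite G] (hG : Nat.card G = p)
    (hinf : IsTotallyComplex K ∨ p ≠ 2) (χ : K.fixingSubgroup →* G) (hχ : Function.Surjective χ)
    (hlev : ∃ L : IntermediateField ℚ Qbar, FiniteDimensional ℚ L ∧
      ∀ σ : K.fixingSubgroup, (∀ x ∈ L, (σ : GalQ) x = x) → χ σ = 1) :
    ∃ (f : Ideal (𝓞 K)) (ψ : Ideal (𝓞 K) → G), IsRayHom f ψ ∧
      (∀ P : Ideal (𝓞 K), P.IsPrime → P ∣ f → ¬ IsUnramifiedChar χ P) ∧
      ∀ P : Ideal (𝓞 K), P.IsPrime → P ≠ ⊥ → P ⊔ f = ⊤ →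
        IsUnramifiedChar χ P ∧ ψ P = frobVal χ P := by
  obtain ⟨D, hDK, hDtop⟩ := exists_step_of_char hG χ hχ hlev
  subst hDK
  refine (step_artin D hinf.symm hG χ hχ fun σ => ?_).2
  rw [hDtop]
  refine ⟨fun h => ⟨σ, h, rfl⟩, ?_⟩
  rintro ⟨s, hs, e⟩
  obtain rfl : s = σ := Subtype.ext e
  exact hs

end FLTAgent.LanglandsTunnell.CFT
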