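import Fermat.Agent.LanglandsTunnell.CFT.ArtinPrime

/-!
# The Artin map of a cyclic character of order four

Two quadratic steps: the classes of `K` modulo the composed norms have four elements.
-/

set_option autoImplicit false

noncomputable section

open NumberField IsDedekindDomain
open scoped Pointwise Classical

namespace FLTAgent.LanglandsTunnell.CFT

open FLTAgent.Density FLTAgent.ExtVanishing FLTAgent.LanglandsTunnell
open FLTAgent.GalCoh FLTAgent.GlobalDuality FLTAgent.IdeleClassCohomology FLTAgent.LocalDuality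

theorem IsNearRoot.norm_sub_one_eq {q : Nat.Primes} {p : ℕ} (hp : p.Prime) {x y : LU q}
    (h : IsNearRoot p x y) : ‖x.val - 1‖ = ‖(p : PadicAlgCl (q : ℕ))‖ * ‖y.val - 1‖ := by
  set e := y.val - 1 with he
  have hx : x.val = (e + 1) ^ p := by rw [he, sub_add_cancel, ← val_nsmul, h.1]
  rcases eq_or_ne e 0 with he0 | he0
  · rw [hx, he0, zero_add, one_pow, sub_self, norm_zero, mul_zero]
  have hlt : ‖e‖ < 1 := h.norm_sub_one_lt hp
  have hsum : x.val - 1 = ∑ k ∈ Finset.range p,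
      e ^ (k + 1) * ((p.choose (k + 1) : ℕ) : PadicAlgCl (q : ℕ)) := by
    rw [hx, add_pow, Finset.sum_range_succ']
    simp
  have hna : IsNonarchimedean fun x : PadicAlgCl (q : ℕ) => ‖x‖ := fun a b =>
    IsUltrametricDist.norm_add_le_max a b
  have hpn : (p : PadicAlgCl (q : ℕ)) ≠ 0 := Nat.cast_ne_zero.2 hp.ne_zero
  rw [hsum, hna.apply_sum_eq_of_lt (f := fun x : PadicAlgCl (q : ℕ) => ‖x‖)
    (fun a => (norm_neg a).symm) (s := Finset.range p)
    (l := fun k => e ^ (k + 1) * ((p.choose (k + 1) : ℕ) : PadicAlgCl (q : ℕ)))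
    (Finset.mem_range.2 hp.pos) fun k hk hk0 => ?_]
  · simp [mul_comm]
  · simp only [zero_add, pow_one, Nat.choose_one_right, norm_mul, norm_pow]
    rcases eq_or_lt_of_le (Nat.succ_le_of_lt (Finset.mem_range.1 hk)) with he' | he'
    · rw [show k + 1 = p from he', Nat.choose_self, Nat.cast_one, norm_one, mul_one,
        show p = p - 1 + 1 by have := hp.pos; omega, pow_succ, mul_comm,
        show p - 1 + 1 = p by have := hp.pos; omega]
      exact mul_lt_mul_of_pos_left h.2 (norm_pos_iff.2 he0)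
    · obtain ⟨c, hc⟩ := hp.dvd_choose_self (Nat.succ_ne_zero k) he'
      rw [hc, Nat.cast_mul, norm_mul, pow_succ']
      calc ‖e‖ * ‖e‖ ^ k * (‖(p : PadicAlgCl (q : ℕ))‖ * ‖(c : PadicAlgCl (q : ℕ))‖)
          ≤ ‖e‖ * ‖e‖ ^ k * ‖(p : PadicAlgCl (q : ℕ))‖ := mul_le_mul_of_nonneg_left
            (mul_le_of_le_one_right (norm_nonneg _) (norm_natCast_le_one q c)) (by positivity)
        _ < ‖e‖ * ‖(p : PadicAlgCl (q : ℕ))‖ := mul_lt_mul_of_pos_right
            (mul_lt_of_lt_one_right (norm_pos_iff.2 he0) (pow_lt_one₀ (norm_nonneg _) hlt hk0))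
            (norm_pos_iff.2 hpn)

/-- Two successive square roots of an idele close to one on a set. -/
theorem exists_quarter {N : Subgroup GalQ} {x : Idele} (hx : x ∈ fixedPts N Idele) :
    ∃ z ∈ fixedPts N Idele, ∀ q σ,
      ‖(x.at q σ).val - 1‖ < ‖((4 : ℕ) : PadicAlgCl (q : ℕ))‖ ^ 2 → 4 • z.at q σ = x.at q σ := by
  obtain ⟨y, hy, -, hy2⟩ := exists_rootIdele Nat.prime_two hx
  obtain ⟨z, hz, -, hz2⟩ := exists_rootIdele Nat.prime_two hy
  refine ⟨z, hz, fun q σ h => ?_⟩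
  have hc : ‖((4 : ℕ) : PadicAlgCl (q : ℕ))‖ = ‖((2 : ℕ) : PadicAlgCl (q : ℕ))‖ ^ 2 := by
    rw [← norm_pow]; norm_num
  have h2 := norm_natCast_le_one q 2
  have hpos : 0 < ‖((2 : ℕ) : PadicAlgCl (q : ℕ))‖ :=
    norm_pos_iff.2 (Nat.cast_ne_zero.2 two_ne_zero)
  rw [hc, ← pow_mul] at h
  have hr : IsNearRoot 2 (x.at q σ) (y.at q σ) :=
    hy2 q σ (h.trans_le (pow_le_pow_of_le_one hpos.le h2 (by norm_num)))
  rw [IsNearRoot.norm_sub_one_eq Nat.prime_two hr, pow_succ'] at h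
  have hy' : ‖(y.at q σ).val - 1‖ < ‖((2 : ℕ) : PadicAlgCl (q : ℕ))‖ ^ 2 :=
    (lt_of_mul_lt_mul_left h hpos.le).trans_le (pow_le_pow_of_le_one hpos.le h2 (by norm_num))
  rw [show (4 : ℕ) = 2 * 2 by norm_num, mul_nsmul, (hz2 q σ hy').1, hr.1]

/-- The cut of a norm. -/
theorem sum_smul_cut {p : ℕ} [Fact p.Prime] (D : CyclicStep p) {M : Layer} (hM : M.sub ≤ D.bot)
    {W : Set (Nat.Primes × GalQ)} (hW : IsStableSet D.bot W) (y : Idele) :
    ∑ i ∈ Finset.range p, D.g ^ i • cut hM hW y =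
      cut hM hW (∑ i ∈ Finset.range p, D.g ^ i • y) := by
  rw [map_sum]
  exact Finset.sum_congr rfl fun i _ => (cut_smul hM hW (D.bot.pow_mem D.mem i) y).symm

/-- Units on an unramified stable set are norms of units on that set. -/
theorem exists_unit_norm {p : ℕ} [hp : Fact p.Prime] (D : CyclicStep p)
    {U : Set (Nat.Primes × GalQ)} (hU : IsStableSet D.bot U) {x : Idele}
    (hx : x ∈ fixedPts D.bot Idele) (hxu : ∀ q σ, x.at q σ ∈ unitsAt q)
    (hx0 : ∀ q σ, (q, σ) ∉ U → x.at q σ = 0)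
    (hunr : ∀ q σ, (q, σ) ∈ U → ∀ t, D.IsLocalGen q σ t → ∀ y ∈ CyclicStep.localTop D q σ,
      ∃ e ∈ locField D.K q σ, e ≠ 0 ∧ ‖e‖ = ‖(y : LU q).val‖) :
    ∃ y ∈ fixedPts D.top Idele, (∀ q σ, y.at q σ ∈ unitsAt q) ∧
      (∀ q σ, (q, σ) ∉ U → y.at q σ = 0) ∧ ∑ i ∈ Finset.range p, D.g ^ i • y = x := by
  classical
  have key : ∀ W, ∃ y ∈ fixedPts D.top Idele, (∀ q γ, y.at q γ ∈ unitsAt q) ∧
      ∀ q σ, cosetSet D.K q σ = W → ((q, σ) ∉ U → y = 0) ∧ ∀ r γ, (r, γ) ∈ W →
        (∑ i ∈ Finset.range p, D.g ^ i • y).at r γ = x.at r γ := by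
    intro W
    have hsame : ∀ {q σ r γ}, cosetSet D.K q σ = cosetSet D.K r γ → (q, σ) ∈ U → (r, γ) ∈ U := by
      intro q σ r γ e h
      have hm : (r, γ) ∈ cosetSet D.K q σ := e ▸ mem_cosetSet_self r γ
      obtain ⟨rfl, τ, n, hn, rfl⟩ := mem_cosetSet_iff.1 hm
      exact hU r σ τ n hn h
    by_cases hW : ∃ q σ, (q, σ) ∈ U ∧ cosetSet D.K q σ = W
    · obtain ⟨q, σ, hqU, rfl⟩ := hW
      obtain ⟨y, hy, hy0, hy'⟩ := D.exists_norm_coset_unit hx (hxu q σ) (hunr q σ hqU)
      exact ⟨y, hy, hy0, fun r γ e => ⟨fun h => absurd (hsame e.symm hqU) h, hy'⟩⟩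
    · refine ⟨0, zero_mem _, fun q γ => (unitsAt q).zero_mem, fun q σ e => ⟨fun _ => rfl,
        fun r γ hγ => ?_⟩⟩
      subst e
      rw [show (∑ i ∈ Finset.range p, D.g ^ i • (0 : Idele)) = 0 by simp, Idele.at_zero]
      refine (hx0 r γ fun h => hW ⟨r, γ, h, cosetSet_eq_of_mem hγ⟩).symm
  choose P hP hP0 hP' using key
  obtain ⟨M, hM⟩ := exists_layer_sub_le D.L
  obtain ⟨y, hy, hy'⟩ := exists_assemble_outside (K := D.K) ∅ P D.top_le hM hP
    fun W q _ σ => hP0 W q σ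
  refine ⟨y, hy, fun q σ => by rw [hy']; exact hP0 _ q σ, fun q σ h => ?_, Idele.ext fun r γ => ?_⟩
  · rw [hy', (hP' _ q σ rfl).1 h]
    rfl
  · rw [← (hP' (cosetSet D.K r γ) r γ rfl).2 r γ (mem_cosetSet_self r γ)]
    show (Idele.atHom r γ) _ = (Idele.atHom r γ) _
    rw [map_sum, map_sum]
    refine Finset.sum_congr rfl fun i _ => ?_
    show (D.g ^ i • y).at r γ = (D.g ^ i • P _).at r γ
    rw [Idele.at_smul, Idele.at_smul, hy',
      cosetSet_eq_of_mem ((cosetSet_smul_iff (D.bot.pow_mem D.mem i)).2 (mem_cosetSet_self r γ))]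

/-- An idele supported where the step splits is a norm. -/
theorem exists_split_norm {p : ℕ} [hp : Fact p.Prime] (D : CyclicStep p)
    {U : Set (Nat.Primes × GalQ)} (hU : IsStableSet D.bot U) {x : Idele}
    (hx : x ∈ fixedPts D.bot Idele) (hx0 : ∀ q σ, (q, σ) ∉ U → x.at q σ = 0)
    (hsplit : ∀ q σ, (q, σ) ∈ U → ¬ ∃ t, D.IsLocalGen q σ t) :
    ∃ y ∈ fixedPts D.top Idele, (∀ q σ, (q, σ) ∉ U → y.at q σ = 0) ∧
      ∑ i ∈ Finset.range p, D.g ^ i • y = x := by
  obtain ⟨y, hy, hy'⟩ := exists_norm_of_forall_local' D hx fun q σ => by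
    by_cases h : (q, σ) ∈ U
    · exact Or.inl (hsplit q σ h)
    · refine Or.inr (Or.inr ?_)
      rw [hx0 q σ h, LU.val_zero, sub_self, norm_zero]
      exact pow_pos (norm_pos_iff.2 (Nat.cast_ne_zero.2 hp.out.ne_zero)) 2
  obtain ⟨M, hM⟩ := exists_layer_sub_le D.K
  refine ⟨cut hM hU y, cut_mem_fixedPts hM _ D.top_le hy,
    fun q σ h => at_cut_of_notMem hM hU y h, ?_⟩
  rw [sum_smul_cut D hM hU, hy']
  refine Idele.ext fun q σ => ?_
  by_cases h : (q, σ) ∈ U
  · exact at_cut_of_mem hM hU x h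
  · rw [at_cut_of_notMem hM hU x h, hx0 q σ h]

theorem isStableSet_placePred {K : IntermediateField ℚ Qbar} [FiniteDimensional ℚ K]
    (P : HeightOneSpectrum (𝓞 K) → Prop) :
    IsStableSet K.fixingSubgroup {i : Nat.Primes × GalQ | P (placeIdeal K i.1 i.2)} := by
  intro q γ τ n hn h
  show P (placeIdeal K q (loc q τ * γ * n))
  rw [placeIdeal_loc_mul τ hn]
  exact h

theorem IsStableSet.anti {N N' : Subgroup GalQ} {W : Set (Nat.Primes × GalQ)}
    (hW : IsStableSet N W) (h : N' ≤ N) : IsStableSet N' W :=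
  fun q γ τ n hn hγ => hW q γ τ n (h hn) hγ

section TwoSteps

variable (D1 D2 : CyclicStep 2) [Fact (Nat.Prime 2)]

/-- The classes of norms of the upper step. -/
private def normClasses : AddSubgroup IdeleClass :=
  (normTo IdeleClass D2.top D2.bot).range.map (fixedPts D2.bot IdeleClass).subtype

/-- The classes of norms of norms. -/
private def composedNorms : AddSubgroup (fixedPts D1.bot IdeleClass) :=
  ((normClasses D2).comap (fixedPts D1.top IdeleClass).subtype).map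
    (normTo IdeleClass D1.top D1.bot)

/-- The ideles modulo the composed norms. -/
private def classQuot : fixedPts D1.bot Idele →+ fixedPts D1.bot IdeleClass ⧸ composedNorms D1 D2 :=
  (QuotientAddGroup.mk' (composedNorms D1 D2)).comp (fixedMap classMap classMap_smul D1.bot)

variable {D1 D2}

/-- The generator of the lower step preserves the classes of norms of the upper one. -/
private theorem smul_mem_normClasses {G : Type} [CommGroup G] (hK : D2.bot = D1.top)
    (hg : D2.g * D1.g = D1.g * D2.g) (χ : D1.K.fixingSubgroup →* G)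
    (hker2 : ∀ σ : D1.K.fixingSubgroup, χ σ = 1 ↔ (σ : GalQ) ∈ D2.top) {c : IdeleClass}
    (hc : c ∈ normClasses D2) : D1.g • c ∈ normClasses D2 := by
  have hle2 : D2.bot ≤ D1.bot := hK.le.trans D1.top_le
  obtain ⟨c, ⟨y, rfl⟩, rfl⟩ := hc
  have hgy : D1.g • (y : IdeleClass) ∈ fixedPts D2.top IdeleClass := by
    intro m hm
    have hm1 : m ∈ D1.bot := hle2 (D2.top_le hm)
    have hc : D1.g⁻¹ * m * D1.g ∈ D2.top := by
      let a : D1.K.fixingSubgroup := ⟨D1.g, D1.mem⟩
      let b : D1.K.fixingSubgroup := ⟨m, hm1⟩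
      refine (hker2 (a⁻¹ * b * a)).1 ?_
      rw [map_mul, map_mul, map_inv, mul_right_comm, inv_mul_cancel, one_mul]
      exact (hker2 b).2 hm
    rw [smul_smul, show m * D1.g = D1.g * (D1.g⁻¹ * m * D1.g) by group, mul_smul, y.2 _ hc]
  refine ⟨_, ⟨⟨_, hgy⟩, rfl⟩, ?_⟩
  show (normTo IdeleClass D2.top D2.bot ⟨_, hgy⟩ : IdeleClass) =
    D1.g • (normTo IdeleClass D2.top D2.bot y : IdeleClass)
  rw [D2.coe_normTo, D2.coe_normTo, Finset.smul_sum]
  refine Finset.sum_congr rfl fun i _ => ?_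
  rw [smul_smul, smul_smul, (Commute.pow_left hg i).eq]

/-- The composed norms have index four. -/
private theorem index_composedNorms (hK : D2.bot = D1.top) (hi1 : D1.InfSplit) (hi2 : D2.InfSplit)
    (hg1T : ∀ c ∈ normClasses D2, D1.g • c ∈ normClasses D2) :
    (composedNorms D1 D2).index = 4 := by
  let T := normClasses D2
  let H : AddSubgroup (fixedPts D1.top IdeleClass) := T.comap (fixedPts D1.top IdeleClass).subtype
  have hHidx : H.index = 2 := by
    have e : fixedPts D2.bot IdeleClass = fixedPts D1.top IdeleClass := by rw [hK]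
    have h := normIndex_eq D2 hi2
    have key : ∀ (C C' : AddSubgroup IdeleClass) (_ : C = C') (S : AddSubgroup C),
        ((S.map C.subtype).comap C'.subtype).index = S.index := by
      rintro C C' rfl S
      rw [AddSubgroup.comap_map_eq_self_of_injective C.subtype_injective]
    exact (key _ _ e _).trans h
  have hker : (normTo IdeleClass D1.top D1.bot).ker ≤ H := by
    intro c hc
    have hN : ∑ i ∈ Finset.range 2, D1.g ^ i • (c : IdeleClass) = 0 := by
      rw [← D1.coe_normTo]; exact congrArg Subtype.val hc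
    obtain ⟨d, hd, hcd⟩ := exists_eq_smul_sub D1 hi1 c.2 hN
    let gd : fixedPts D1.top IdeleClass := ⟨D1.g • d, D1.smul_mem_top hd⟩
    have h2 : c = gd - ⟨d, hd⟩ := Subtype.ext hcd
    by_cases hdH : (⟨d, hd⟩ : fixedPts D1.top IdeleClass) ∈ H
    · rw [h2]
      exact sub_mem (hg1T d hdH) hdH
    · have hgd : gd ∉ H := fun h => hdH (by
        have hfix : D1.g • (D1.g • d) = d := by
          rw [← mul_smul, ← pow_two]; exact hd _ D1.pow_mem
        have h' := hg1T _ h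
        show d ∈ T
        exact hfix ▸ h')
      rw [h2, sub_eq_add_neg]
      exact (AddSubgroup.add_mem_iff_of_index_two hHidx).2
        (by rw [neg_mem_iff]; exact iff_of_false hgd hdH)
  show (H.map (normTo IdeleClass D1.top D1.bot)).index = 4
  rw [AddSubgroup.index_map, sup_eq_left.2 hker, hHidx, normIndex_eq D1 hi1]

/-- Every class comes from an idele. -/
private theorem classQuot_surjective : Function.Surjective (classQuot D1 D2) := fun z => by
  obtain ⟨c, rfl⟩ := QuotientAddGroup.mk'_surjective _ z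
  obtain ⟨x, hx, hx'⟩ := exists_idele_lift D1.bot c.2
  exact ⟨⟨x, hx⟩, congrArg (QuotientAddGroup.mk' _) (Subtype.ext hx')⟩

/-- Principal ideles are killed. -/
private theorem classQuot_principal (a : GU) (ha : a ∈ fixedPts D1.bot GU) :
    classQuot D1 D2 ⟨principal a, principal_mem_fixedPts_iff.2 ha⟩ = 0 := by
  show QuotientAddGroup.mk' _ _ = 0
  rw [show fixedMap classMap classMap_smul D1.bot ⟨principal a, principal_mem_fixedPts_iff.2 ha⟩
    = 0 from Subtype.ext ((classMap_eq_zero_iff _).2 ⟨a, rfl⟩), map_zero]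

/-- Norms of norms are killed. -/
private theorem classQuot_eq_zero_of_norms (x : fixedPts D1.bot Idele) {y z : Idele}
    (hy : y ∈ fixedPts D1.top Idele) (hz : z ∈ fixedPts D2.top Idele)
    (hzy : ∑ i ∈ Finset.range 2, D2.g ^ i • z = y)
    (hyx : ∑ i ∈ Finset.range 2, D1.g ^ i • y = x.1) : classQuot D1 D2 x = 0 := by
  refine (QuotientAddGroup.eq_zero_iff _).2 ⟨fixedMap classMap classMap_smul D1.top ⟨y, hy⟩,
    ⟨_, ⟨fixedMap classMap classMap_smul D2.top ⟨z, hz⟩, rfl⟩, ?_⟩, ?_⟩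
  · show (normTo IdeleClass D2.top D2.bot _ : IdeleClass) = classMap y
    rw [D2.coe_normTo, ← hzy, map_sum]
    exact Finset.sum_congr rfl fun i _ => (classMap_smul _ _).symm
  · refine Subtype.ext ?_
    rw [D1.coe_normTo]
    show _ = classMap x.1
    rw [← hyx, map_sum]
    exact Finset.sum_congr rfl fun i _ => (classMap_smul _ _).symm

/-- Multiples of four are killed. -/
private theorem classQuot_four_nsmul (hK : D2.bot = D1.top) (x : fixedPts D1.bot Idele) :
    classQuot D1 D2 (4 • x) = 0 := by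
  have hle2 : D2.bot ≤ D1.bot := hK.le.trans D1.top_le
  have hx1 : x.1 ∈ fixedPts D1.top Idele := fixedPts_antitone D1.top_le x.2
  refine classQuot_eq_zero_of_norms _ (y := 2 • x.1) (z := x.1) (nsmul_mem hx1 2)
    (fixedPts_antitone (D2.top_le.trans hle2) x.2) ?_ ?_
  · rw [Finset.sum_congr rfl fun i _ => x.2 _ (hle2 (D2.bot.pow_mem D2.mem i)), Finset.sum_const,
      Finset.card_range]
  · rw [Finset.sum_congr rfl fun i _ =>
        (nsmul_mem x.2 2 : 2 • x.1 ∈ fixedPts D1.bot Idele) _ (D1.bot.pow_mem D1.mem i),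
      Finset.sum_const, Finset.card_range, ← mul_nsmul]
    rfl

variable {G : Type} [CommGroup G] {χ : D1.K.fixingSubgroup →* G}

omit [Fact (Nat.Prime 2)] in
/-- Where the character is unramified, so is its square. -/
private theorem isUnramifiedChar_sq {q : Nat.Primes} {σ : GalQ}
    (h : IsUnramifiedChar χ (placeIdeal D1.K q σ).asIdeal) :
    IsUnramifiedChar ((powMonoidHom 2).comp χ) (placeIdeal D1.K q σ).asIdeal := fun A hA s hs => by
  show χ s ^ 2 = 1
  rw [h A hA s hs, one_pow]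

omit [Fact (Nat.Prime 2)] in
/-- The field of the upper step contains that of the lower one. -/
private theorem field_le (hle2 : D2.bot ≤ D1.bot) : D1.K ≤ D2.K := by
  rw [← InfiniteGalois.fixedField_fixingSubgroup D1.K,
    ← InfiniteGalois.fixedField_fixingSubgroup D2.K]
  exact IntermediateField.fixedField_antitone hle2

omit [Fact (Nat.Prime 2)] in
/-- Where the character is unramified, so is its restriction to the upper step. -/
private theorem isUnramifiedChar_restrict (hle2 : D2.bot ≤ D1.bot) {q : Nat.Primes} {σ : GalQ}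
    (h : IsUnramifiedChar χ (placeIdeal D1.K q σ).asIdeal) :
    IsUnramifiedChar (χ.comp (Subgroup.inclusion hle2)) (placeIdeal D2.K q σ).asIdeal := by
  let : Algebra D1.K D2.K := (IntermediateField.inclusion (field_le hle2)).toRingHom.toAlgebra
  have hval : ∀ x : D1.K, ((algebraMap D1.K D2.K x : D2.K) : Qbar) = (x : Qbar) := fun _ => rfl
  refine fun A hA s hs => h A ?_ _ hs
  have h' := PlaceOver.under hval hA
  rwa [show (placeIdeal D2.K q σ).asIdeal.under (𝓞 D1.K) = (placeIdeal D1.K q σ).asIdeal from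
    Ideal.ext fun x => by rw [Ideal.mem_comap, mem_placeIdeal, mem_placeIdeal]; rfl] at h'

/-- Ideles which are units at unramified places and close to one elsewhere are killed. -/
private theorem classQuot_eq_zero_of_good (hK : D2.bot = D1.top)
    (hker1 : ∀ σ : D1.K.fixingSubgroup, χ σ ^ 2 = 1 ↔ (σ : GalQ) ∈ D1.top)
    (hker2 : ∀ σ : D1.K.fixingSubgroup, χ σ = 1 ↔ (σ : GalQ) ∈ D2.top)
    (x : fixedPts D1.bot Idele)
    (hx : ∀ q σ, (IsUnramifiedChar χ (placeIdeal D1.K q σ).asIdeal ∧ x.1.at q σ ∈ unitsAt q) ∨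
      ‖(x.1.at q σ).val - 1‖ < ‖((4 : ℕ) : PadicAlgCl (q : ℕ))‖ ^ 2) :
    classQuot D1 D2 x = 0 := by
  obtain ⟨M, hM⟩ := exists_layer_sub_le D1.K
  have hle2 : D2.bot ≤ D1.bot := hK.le.trans D1.top_le
  set U : Set (Nat.Primes × GalQ) :=
    {i | (fun v : HeightOneSpectrum (𝓞 D1.K) => IsUnramifiedChar χ v.asIdeal)
      (placeIdeal D1.K i.1 i.2) ∧
      x.1.at i.1 i.2 ∈ unitsAt i.1}
  have hU : IsStableSet D1.bot U := fun q γ t n hn h => by
    refine ⟨isStableSet_placePred (fun v : HeightOneSpectrum (𝓞 D1.K) =>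
      IsUnramifiedChar χ v.asIdeal) q γ t n hn h.1, ?_⟩
    show x.1.at q (loc q t * γ * n) ∈ unitsAt q
    rw [Idele.mem_fixedPts_iff.1 x.2 q _ n hn, Idele.at_loc_mul]
    exact smul_mem_unitsAt t h.2
  set xu := cut hM hU x.1
  have hxu : xu ∈ fixedPts D1.bot Idele := cut_mem_fixedPts hM _ le_rfl x.2
  obtain ⟨z, hz, hz4⟩ := exists_quarter x.2
  set z' := z - cut hM hU z
  have hz' : z' ∈ fixedPts D1.bot Idele := sub_mem hz (cut_mem_fixedPts hM _ le_rfl hz)
  have hsplit : x.1 = xu + 4 • z' := Idele.ext fun q σ => by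
    rw [Idele.at_add, show (4 • z').at q σ = 4 • z'.at q σ from map_nsmul (Idele.atHom q σ) 4 z',
      show z'.at q σ = z.at q σ - (cut hM hU z).at q σ from Idele.at_sub _ _ _ _]
    by_cases h : (q, σ) ∈ U
    · rw [at_cut_of_mem hM hU _ h, at_cut_of_mem hM hU _ h, sub_self, nsmul_zero, add_zero]
    · rw [at_cut_of_notMem hM hU _ h, at_cut_of_notMem hM hU _ h, sub_zero, zero_add,
        hz4 q σ ((hx q σ).resolve_left h)]
  have hxu0 : classQuot D1 D2 ⟨xu, hxu⟩ = 0 := by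
    obtain ⟨y, hy, hyu, hy0, hyN⟩ := exists_unit_norm D1 hU hxu (fun q σ => by
      by_cases h : (q, σ) ∈ U
      · rw [at_cut_of_mem hM hU _ h]; exact h.2
      · rw [at_cut_of_notMem hM hU _ h]; exact (unitsAt q).zero_mem)
      (fun q σ h => at_cut_of_notMem hM hU _ h)
      fun q σ h t ht w hw =>
        exists_norm_eq_of_unramified D1 (χ := (powMonoidHom 2).comp χ) hker1
          (isUnramifiedChar_sq h.1) t ht w hw
    obtain ⟨w, hw, -, -, hwN⟩ := exists_unit_norm D2 (IsStableSet.anti hU hle2)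
      (by rw [hK]; exact hy) hyu hy0 fun q σ h t ht w hw =>
        exists_norm_eq_of_unramified D2 (fun _ => hker2 _)
          (isUnramifiedChar_restrict hle2 h.1) t ht w hw
    exact classQuot_eq_zero_of_norms _ hy hw hwN hyN
  rw [show x = ⟨xu, hxu⟩ + 4 • ⟨z', hz'⟩ from Subtype.ext hsplit, map_add, hxu0,
    classQuot_four_nsmul hK, add_zero]

/-- A uniformiser idele is killed by the order of Frobenius. -/
private theorem orderOf_frobVal_smul_classQuot (hK : D2.bot = D1.top) (hG : Nat.card G = 4)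
    (hker1 : ∀ σ : D1.K.fixingSubgroup, χ σ ^ 2 = 1 ↔ (σ : GalQ) ∈ D1.top)
    (hker2 : ∀ σ : D1.K.fixingSubgroup, χ σ = 1 ↔ (σ : GalQ) ∈ D2.top)
    (v : HeightOneSpectrum (𝓞 D1.K)) (hv : IsUnramifiedChar χ v.asIdeal) :
    orderOf (frobVal χ v.asIdeal) • classQuot D1 D2 (uniIdele v) = 0 := by
  have hle2 : D2.bot ≤ D1.bot := hK.le.trans D1.top_le
  let : Algebra D1.K D2.K := (IntermediateField.inclusion (field_le hle2)).toRingHom.toAlgebra
  have : IsScalarTower ℚ D1.K D2.K := IsScalarTower.of_algebraMap_eq fun _ => rfl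
  have hval : ∀ x : D1.K, ((algebraMap D1.K D2.K x : D2.K) : Qbar) = (x : Qbar) := fun _ => rfl
  have := v.isPrime
  have hd : orderOf (frobVal χ v.asIdeal) ∣ 4 := (orderOf_dvd_natCard _).trans (dvd_of_eq hG)
  by_cases h4 : orderOf (frobVal χ v.asIdeal) = 4
  · rw [h4, ← map_nsmul]
    exact classQuot_four_nsmul hK _
  have hsq : frobVal χ v.asIdeal ^ 2 = 1 := orderOf_dvd_iff_pow_eq_one.1 (by
    have hle := Nat.le_of_dvd (by norm_num) hd
    interval_cases orderOf (frobVal χ v.asIdeal) <;> first | decide | omega)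
  set W := placeSet v
  have hW : IsStableSet D1.bot W := isStableSet_placeSet v
  obtain ⟨y, hy, hy0, hyN⟩ := exists_split_norm D1 hW (uniIdele v).2
    (fun q σ h => at_uniIdele_of_ne h) fun q σ h => by
      obtain rfl : placeIdeal D1.K q σ = v := h
      refine not_isLocalGen_of_frobVal_eq_one D1
        (χ := (powMonoidHom 2).comp χ) hker1 (isUnramifiedChar_sq hv) ?_
      obtain ⟨g, hg⟩ := exists_isFrobOver (placeIdeal D1.K q σ).ne_bot
      rw [frobVal_eq (placeIdeal D1.K q σ).ne_bot (isUnramifiedChar_sq hv) hg]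
      show χ ⟨g, hg.1⟩ ^ 2 = 1
      rw [← frobVal_eq (placeIdeal D1.K q σ).ne_bot hv hg]
      exact hsq
  by_cases h1 : orderOf (frobVal χ v.asIdeal) = 1
  · rw [h1, one_smul]
    rw [orderOf_eq_one_iff] at h1
    obtain ⟨w, hw, -, hwN⟩ := exists_split_norm D2 (IsStableSet.anti hW hle2)
      (by rw [hK]; exact hy) hy0
      fun q σ h => by
        obtain rfl : placeIdeal D1.K q σ = v := h
        set P2 := placeIdeal D2.K q σ
        have := P2.isPrime
        refine not_isLocalGen_of_frobVal_eq_one D2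
          (χ := χ.comp (Subgroup.inclusion hle2)) (fun _ => hker2 _)
          (isUnramifiedChar_restrict hle2 hv) ?_
        obtain ⟨g, hg⟩ := exists_isFrobOver P2.ne_bot
        have : P2.asIdeal.LiesOver (placeIdeal D1.K q σ).asIdeal := ⟨Ideal.ext fun x => by
          rw [Ideal.mem_comap, mem_placeIdeal, mem_placeIdeal]; rfl⟩
        obtain ⟨j, -, -, hj⟩ := exists_pow_of_liesOver (G := G) hval
          (placeIdeal D1.K q σ).ne_bot (Q := P2.asIdeal)
        rw [frobVal_eq P2.ne_bot (isUnramifiedChar_restrict hle2 hv) hg]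
        show χ ⟨g, hle2 hg.1⟩ = 1
        rw [hj hv hg (hle2 hg.1), h1, one_pow]
    exact classQuot_eq_zero_of_norms _ hy hw hwN hyN
  · have h2 : orderOf (frobVal χ v.asIdeal) = 2 := ((Nat.dvd_prime Nat.prime_two).1
      (orderOf_dvd_of_pow_eq_one hsq)).resolve_left h1
    rw [h2, ← map_nsmul]
    refine classQuot_eq_zero_of_norms _ (y := 2 • y) (z := y) (nsmul_mem hy 2)
      (fixedPts_antitone (D2.top_le.trans hK.le) hy) ?_ ?_
    · rw [Finset.sum_congr rfl fun i _ => hy _ (hK.le (D2.bot.pow_mem D2.mem i)),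
        Finset.sum_const, Finset.card_range]
    · simp only [smul_comm (D1.g ^ _) (2 : ℕ), ← Finset.smul_sum, hyN]
      rfl

end TwoSteps

/-- The two steps. -/
theorem artin_two_steps (D1 D2 : CyclicStep 2) [Fact (Nat.Prime 2)] (hK : D2.bot = D1.top)
    (hg : D2.g * D1.g = D1.g * D2.g) (hTC : IsTotallyComplex D1.K)
    {G : Type} [CommGroup G] [Finite G] (hG : Nat.card G = 4) {τ : G}
    (hτ : ∀ x, x ∈ Subgroup.zpowers τ) (χ : D1.K.fixingSubgroup →* G) (hχ : Function.Surjective χ)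
    (hker1 : ∀ σ : D1.K.fixingSubgroup, χ σ ^ 2 = 1 ↔ (σ : GalQ) ∈ D1.top)
    (hker2 : ∀ σ : D1.K.fixingSubgroup, χ σ = 1 ↔ (σ : GalQ) ∈ D2.top) :
    ∃ (f : Ideal (𝓞 D1.K)) (ψ : Ideal (𝓞 D1.K) → G), IsRayHom f ψ ∧
      (∀ P : Ideal (𝓞 D1.K), P.IsPrime → P ∣ f → ¬ IsUnramifiedChar χ P) ∧
      ∀ P : Ideal (𝓞 D1.K), P.IsPrime → P ≠ ⊥ → P ⊔ f = ⊤ →
        IsUnramifiedChar χ P ∧ ψ P = frobVal χ P := by
  have hle2 : D2.bot ≤ D1.bot := hK.le.trans D1.top_le
  let : Algebra D1.K D2.K := (IntermediateField.inclusion (field_le hle2)).toRingHom.toAlgebra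
  have : IsScalarTower ℚ D1.K D2.K := IsScalarTower.of_algebraMap_eq fun _ => rfl
  have := hTC
  have : IsTotallyComplex D2.K := NumberField.isTotallyComplex_of_algebra D1.K D2.K
  -- the classes modulo the composed norms
  have hScard : Nat.card (fixedPts D1.bot IdeleClass ⧸ composedNorms D1 D2) = 4 :=
    index_composedNorms hK (Or.inr hTC) (Or.inr inferInstance)
      fun _ hc => smul_mem_normClasses hK hg χ hker2 hc
  have : Finite (fixedPts D1.bot IdeleClass ⧸ composedNorms D1 D2) :=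
    Nat.finite_of_card_ne_zero (by rw [hScard]; norm_num)
  have hn : orderOf τ = 2 ^ 2 := by
    rw [orderOf_eq_card_of_forall_mem_zpowers hτ, hG]; norm_num
  obtain ⟨-, hart⟩ := exists_artin_of_classes χ hχ
    ⟨D2.L, D2.finL, fun σ hσ =>
      (hker2 σ).2 ((IntermediateField.mem_fixingSubgroup_iff _ _).2 hσ)⟩
    Nat.prime_two hτ hn (Or.inl hTC) (m := 4) (by norm_num)
    (classQuot D1 D2) classQuot_surjective classQuot_principal
    (classQuot_eq_zero_of_good hK hker1 hker2) (orderOf_frobVal_smul_classQuot hK hG hker1 hker2)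
  exact hart (le_of_eq (hG.trans hScard.symm))

/-- **Artin reciprocity** for a cyclic character of order four. -/
theorem exists_artin_four {K : IntermediateField ℚ Qbar} [FiniteDimensional ℚ K]
    [IsTotallyComplex K] {G : Type} [CommGroup G] [Finite G] (hG : Nat.card G = 4) {τ : G}
    (hτ : ∀ x, x ∈ Subgroup.zpowers τ) (χ : K.fixingSubgroup →* G) (hχ : Function.Surjective χ)
    (hlev : ∃ L : IntermediateField ℚ Qbar, FiniteDimensional ℚ L ∧
      ∀ σ : K.fixingSubgroup, (∀ x ∈ L, (σ : GalQ) x = x) → χ σ = 1) :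
    ∃ (f : Ideal (𝓞 K)) (ψ : Ideal (𝓞 K) → G), IsRayHom f ψ ∧
      (∀ P : Ideal (𝓞 K), P.IsPrime → P ∣ f → ¬ IsUnramifiedChar χ P) ∧
      ∀ P : Ideal (𝓞 K), P.IsPrime → P ≠ ⊥ → P ⊔ f = ⊤ →
        IsUnramifiedChar χ P ∧ ψ P = frobVal χ P := by
  have : Fact (Nat.Prime 2) := ⟨Nat.prime_two⟩
  have hord : orderOf τ = 4 := (orderOf_eq_card_of_forall_mem_zpowers hτ).trans hG
  obtain ⟨⟨g, hgK⟩, hg⟩ := hχ τ
  let χ1 : K.fixingSubgroup →* G := (powMonoidHom 2).comp χ
  set N1 : Subgroup GalQ := χ1.ker.map K.fixingSubgroup.subtype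
  set N2 : Subgroup GalQ := χ.ker.map K.fixingSubgroup.subtype
  have hsub : ∀ (ψ : K.fixingSubgroup →* G),
      (ψ.ker.map K.fixingSubgroup.subtype).subgroupOf K.fixingSubgroup = ψ.ker := fun ψ =>
    Subgroup.comap_map_eq_self_of_injective Subtype.val_injective _
  have h21 : N2 ≤ N1 := Subgroup.map_mono fun s hs => by
    show χ s ^ 2 = 1
    rw [show χ s = 1 from hs, one_pow]
  obtain ⟨L₀, hL₀, hL₀χ⟩ := hlev
  have := hL₀
  obtain ⟨M, hM⟩ := Layer.exists_ge (L₀ ⊔ K)
  have hMN : M.sub ≤ N2 := fun s hs => by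
    have hs' : ∀ y ∈ L₀ ⊔ K, s y = y := fun y hy =>
      (IntermediateField.mem_fixingSubgroup_iff _ _).1 hs y (hM hy)
    have hsK : s ∈ K.fixingSubgroup := (IntermediateField.mem_fixingSubgroup_iff _ _).2
      fun y hy => hs' y ((_root_.le_sup_right : K ≤ L₀ ⊔ K) hy)
    exact ⟨⟨s, hsK⟩, hL₀χ ⟨s, hsK⟩ fun y hy => hs' y ((_root_.le_sup_left : L₀ ≤ L₀ ⊔ K) hy), rfl⟩
  have hτ2 : τ ^ 2 ≠ 1 := fun h => by
    have := Nat.le_of_dvd two_pos (orderOf_dvd_of_pow_eq_one h)
    omega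
  have hi1 : N1.relIndex K.fixingSubgroup = 2 := by
    rw [Subgroup.relIndex, hsub, Subgroup.index_ker,
      show χ1.range = Subgroup.zpowers (τ ^ 2) from ?_, Nat.card_zpowers, orderOf_pow, hord]
    · norm_num
    refine le_antisymm ?_ (Subgroup.zpowers_le.2 ⟨⟨g, hgK⟩, by show χ _ ^ 2 = τ ^ 2; rw [hg]⟩)
    rintro _ ⟨s, rfl⟩
    obtain ⟨i, hi⟩ := hτ (χ s)
    refine ⟨i, ?_⟩
    show (τ ^ 2) ^ i = χ s ^ 2
    rw [← hi, ← zpow_natCast, ← zpow_mul, mul_comm, zpow_mul, zpow_natCast]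
  have hi2 : N2.relIndex K.fixingSubgroup = 4 := by
    rw [Subgroup.relIndex, hsub, Subgroup.index_ker, MonoidHom.range_eq_top.2 hχ,
      Subgroup.card_top, hG]
  have hi12 : N2.relIndex N1 = 2 := by
    have h := Subgroup.relIndex_mul_relIndex N2 N1 K.fixingSubgroup h21 (Subgroup.map_subtype_le _)
    rw [hi1, hi2] at h
    omega
  have hg1 : g ∉ N1 := by
    rintro ⟨s, hs, e⟩
    obtain rfl : s = ⟨g, hgK⟩ := Subtype.ext e
    exact hτ2 (hg ▸ hs)
  have hgg1 : g * g ∈ N1 := ⟨⟨g * g, mul_mem hgK hgK⟩, by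
    show χ (⟨g, hgK⟩ * ⟨g, hgK⟩) ^ 2 = 1
    rw [map_mul, hg, ← pow_two, ← pow_mul]
    exact (congrArg (τ ^ ·) hord.symm).trans (pow_orderOf_eq_one τ), rfl⟩
  have hgg2 : g * g ∉ N2 := by
    rintro ⟨s, hs, e⟩
    obtain rfl : s = ⟨g, hgK⟩ * ⟨g, hgK⟩ := Subtype.ext e
    refine hτ2 ?_
    rw [pow_two, ← hg, ← map_mul]
    exact hs
  have hn2 : (N2.subgroupOf N1).Normal := ⟨fun m hm n => by
    obtain ⟨s, hs, e⟩ := hm
    obtain ⟨a, ha, ea⟩ := n.2
    refine ⟨a * s * a⁻¹, ?_, ?_⟩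
    · show χ (a * s * a⁻¹) = 1
      rw [map_mul, map_mul, map_inv, show χ s = 1 from hs, mul_one, mul_inv_cancel]
    · simp only [map_mul, map_inv, e, ea]
      rfl⟩
  obtain ⟨D1, h1top, h1bot, h1g⟩ := exists_cyclicStep (p := 2) (hMN.trans h21)
    (Subgroup.map_subtype_le _) hi1 (hsub χ1 ▸ χ1.normal_ker) hgK hg1
  obtain ⟨D2, h2top, h2bot, h2g⟩ := exists_cyclicStep (p := 2) hMN h21 hi12 hn2 hgg1 hgg2
  obtain rfl : D1.K = K := by
    rw [← InfiniteGalois.fixedField_fixingSubgroup D1.K,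
      ← InfiniteGalois.fixedField_fixingSubgroup K]
    exact congrArg IntermediateField.fixedField h1bot
  have hmem : ∀ (ψ : D1.K.fixingSubgroup →* G) (σ : D1.K.fixingSubgroup),
      ψ σ = 1 ↔ (σ : GalQ) ∈ ψ.ker.map D1.K.fixingSubgroup.subtype := fun ψ σ => by
    rw [← MonoidHom.mem_ker]
    conv_lhs => rw [← hsub ψ]
    exact Subgroup.mem_subgroupOf
  exact artin_two_steps D1 D2 (h2bot.trans h1top.symm) (by rw [h1g, h2g, mul_assoc]) inferInstance
    hG hτ χ hχ (fun σ => (hmem χ1 σ).trans (by rw [h1top]))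
    (fun σ => (hmem χ σ).trans (by rw [h2top]))

end FLTAgent.LanglandsTunnell.CFT
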