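import Fermat.Agent.LanglandsTunnell.CFT.LocalInput

/-!
# Ideals to idele classes

A homomorphism on the fixed ideles which kills principal ideles and ideles that are units outside
`R` and close to one at `R` gives a homomorphism on ideals, trivial on a ray supported at `R`.
-/

set_option autoImplicit false

noncomputable section

open NumberField IsDedekindDomain UniqueFactorizationMonoid WithZero
open scoped Pointwise Classical

namespace FLTAgent.LanglandsTunnell.CFT

open FLTAgent.Density FLTAgent.ExtVanishing FLTAgent.LanglandsTunnell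
open FLTAgent.GalCoh FLTAgent.GlobalDuality FLTAgent.IdeleClassCohomology FLTAgent.LocalDuality

variable {K : IntermediateField ℚ Qbar} [FiniteDimensional ℚ K]

theorem placeOrd_algebraMap {q : Nat.Primes} {σ : GalQ} {a : 𝓞 K} (ha : a ≠ 0) :
    placeOrd K q σ (algebraMap (𝓞 K) K a) =
      ((normalizedFactors (Ideal.span {a})).count (placeIdeal K q σ).asIdeal : ℤ) := by
  have hsa : Ideal.span {a} ≠ (0 : Ideal (𝓞 K)) := fun h => ha (Ideal.span_singleton_eq_bot.1 h)
  rw [placeOrd, HeightOneSpectrum.valuation_of_algebraMap,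
    (placeIdeal K q σ).intValuation_if_neg ha,
    log_exp, neg_neg, Ideal.count_associates_factors_eq hsa (placeIdeal K q σ).isPrime
      (placeIdeal K q σ).ne_bot]

/-- High powers of a prime are small at its places. -/
theorem exists_pow_norm_lt (q : Nat.Primes) (σ : GalQ) {ε : ℝ} (hε : 0 < ε) :
    ∃ N : ℕ, ∀ M, N ≤ M → ∀ a ∈ (placeIdeal K q σ).asIdeal ^ M,
      ‖placeEmb K q σ (algebraMap (𝓞 K) K a)‖ < ε := by
  obtain ⟨c, hc, hc1, hf⟩ := exists_norm_eq_zpow K q σ
  obtain ⟨N, hN⟩ := exists_pow_lt_of_lt_one hε hc1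
  refine ⟨N, fun M hM a ha => ?_⟩
  rcases eq_or_ne a 0 with rfl | ha0
  · simpa using hε
  have haK : algebraMap (𝓞 K) K a ≠ 0 :=
    fun h => ha0 (FaithfulSMul.algebraMap_injective (𝓞 K) K (h.trans (map_zero _).symm))
  have hval := ((placeIdeal K q σ).intValuation_le_pow_iff_mem a M).2 ha
  have hord : (M : ℤ) ≤ placeOrd K q σ (algebraMap (𝓞 K) K a) := by
    rw [placeOrd, HeightOneSpectrum.valuation_of_algebraMap, le_neg]
    have h := log_le_log ((placeIdeal K q σ).intValuation_ne_zero a ha0) exp_ne_zero |>.2 hval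
    rwa [log_exp] at h
  rw [hf _ haK]
  calc c ^ placeOrd K q σ (algebraMap (𝓞 K) K a) ≤ c ^ ((N : ℕ) : ℤ) :=
        zpow_le_zpow_right_of_le_one₀ hc hc1.le (le_trans (by exact_mod_cast hM) hord)
    _ < ε := by rw [zpow_natCast]; exact hN

/-! ### Uniformiser ideles -/

theorem val_zsmul {q : Nat.Primes} (a : LU q) (n : ℤ) : (n • a).val = a.val ^ n :=
  Units.val_zpow_eq_zpow_val a.toMul n

theorem exists_uniformizerIdele (v : HeightOneSpectrum (𝓞 K)) :
    ∃ x ∈ fixedPts K.fixingSubgroup Idele,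
      (∀ q σ, placeIdeal K q σ ≠ v → x.at q σ = 0) ∧
      ∀ q σ, placeIdeal K q σ = v → ∀ a : K, a ≠ 0 → placeOrd K q σ a = 1 →
        ‖(x.at q σ).val‖ = ‖placeEmb K q σ a‖ := by
  obtain ⟨π, hπ⟩ := v.valuation_exists_uniformizer' K
  have hπ0 : (π : K) ≠ 0 := by
    intro h
    have h' := (congrArg (v.valuation K) h).symm.trans hπ
    rw [map_zero] at h'
    exact exp_ne_zero h'.symm
  obtain ⟨M, hM⟩ := exists_layer_sub_le K
  refine ⟨cut hM (isStableSet_placeSet v) (principal (fixedUnit K hπ0).1),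
    cut_mem_fixedPts hM _ le_rfl (principal_mem_fixedPts_iff.2 (fixedUnit K hπ0).2),
    fun q σ h => at_cut_of_notMem hM _ _ h, fun q σ h a ha ha1 => ?_⟩
  rw [at_cut_of_mem hM (isStableSet_placeSet v) _ (show (q, σ) ∈ placeSet v from h),
    norm_at_principal_fixedUnit]
  obtain ⟨c, -, -, hf⟩ := exists_norm_eq_zpow K q σ
  have hord : placeOrd K q σ (π : K) = 1 := by
    subst h
    show -log ((placeIdeal K q σ).valuation K (algebraMap (𝓞 K) K π)) = 1
    rw [hπ, log_exp, neg_neg]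
  rw [hf _ hπ0, hf _ ha, hord, ha1]

/-- A uniformiser idele at a prime. -/
def uniIdele (v : HeightOneSpectrum (𝓞 K)) : fixedPts K.fixingSubgroup Idele :=
  ⟨(exists_uniformizerIdele v).choose, (exists_uniformizerIdele v).choose_spec.1⟩

theorem at_uniIdele_of_ne {v : HeightOneSpectrum (𝓞 K)} {q : Nat.Primes} {σ : GalQ}
    (h : placeIdeal K q σ ≠ v) : (uniIdele v).1.at q σ = 0 :=
  (exists_uniformizerIdele v).choose_spec.2.1 q σ h

theorem norm_at_uniIdele {v : HeightOneSpectrum (𝓞 K)} {q : Nat.Primes} {σ : GalQ}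
    (h : placeIdeal K q σ = v) {c : ℝ}
    (hc : ∀ x : K, x ≠ 0 → ‖placeEmb K q σ x‖ = c ^ placeOrd K q σ x) :
    ‖((uniIdele v).1.at q σ).val‖ = c := by
  obtain ⟨π, hπ⟩ := (placeIdeal K q σ).valuation_exists_uniformizer' K
  have hπ0 : algebraMap (𝓞 K) K π ≠ 0 := by
    intro h'
    have h'' := (congrArg ((placeIdeal K q σ).valuation K) h').symm.trans hπ
    rw [map_zero] at h''
    exact exp_ne_zero h''.symm
  have hord : placeOrd K q σ (algebraMap (𝓞 K) K π) = 1 := by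
    rw [placeOrd, hπ, log_exp, neg_neg]
  have := (exists_uniformizerIdele v).choose_spec.2.2 q σ h _ hπ0 hord
  rw [show ((uniIdele v).1.at q σ) = (exists_uniformizerIdele v).choose.at q σ from rfl, this,
    hc _ hπ0, hord, zpow_one]

variable (K) in
/-- The idele of a prime ideal. -/
def primeIdele (P : Ideal (𝓞 K)) : fixedPts K.fixingSubgroup Idele :=
  if h : P.IsPrime ∧ P ≠ ⊥ then uniIdele ⟨P, h.1, h.2⟩ else 0

theorem primeIdele_asIdeal (v : HeightOneSpectrum (𝓞 K)) :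
    primeIdele K v.asIdeal = uniIdele v := dif_pos ⟨v.isPrime, v.ne_bot⟩

theorem at_primeIdele_of_ne {P : Ideal (𝓞 K)} {q : Nat.Primes} {σ : GalQ}
    (h : (placeIdeal K q σ).asIdeal ≠ P) : (primeIdele K P).1.at q σ = 0 := by
  unfold primeIdele
  split_ifs with hP
  · exact at_uniIdele_of_ne fun e => h (congrArg HeightOneSpectrum.asIdeal e)
  · rfl

theorem at_sum_eq_zero {q : Nat.Primes} {σ : GalQ} (s : Multiset (Ideal (𝓞 K)))
    (h : (placeIdeal K q σ).asIdeal ∉ s) : ((s.map (primeIdele K)).sum).1.at q σ = 0 := by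
  induction s using Multiset.induction_on with
  | empty => rfl
  | cons P s ih =>
    rw [Multiset.mem_cons, not_or] at h
    rw [Multiset.map_cons, Multiset.sum_cons, AddSubgroup.coe_add, Idele.at_add,
      at_primeIdele_of_ne h.1, ih h.2, add_zero]

theorem norm_at_sum {q : Nat.Primes} {σ : GalQ} {c : ℝ}
    (hc : ∀ x : K, x ≠ 0 → ‖placeEmb K q σ x‖ = c ^ placeOrd K q σ x)
    (s : Multiset (Ideal (𝓞 K))) :
    ‖(((s.map (primeIdele K)).sum).1.at q σ).val‖ = c ^ s.count (placeIdeal K q σ).asIdeal := by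
  induction s using Multiset.induction_on with
  | empty => simp [Idele.at_zero, LU.val_zero]
  | cons P s ih =>
    rw [Multiset.map_cons, Multiset.sum_cons, AddSubgroup.coe_add, Idele.at_add, LU.val_add,
      norm_mul, ih, Multiset.count_cons]
    by_cases h : (placeIdeal K q σ).asIdeal = P
    · rw [if_pos h, ← h, primeIdele_asIdeal, norm_at_uniIdele rfl hc, pow_succ']
    · rw [if_neg h, at_primeIdele_of_ne h, LU.val_zero, norm_one, one_mul, add_zero]

/-! ### Approximation -/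

omit [FiniteDimensional ℚ K] in
theorem norm_val_sub {q : Nat.Primes} {σ : GalQ} (x : Idele) {b : K} (hb : b ≠ 0) :
    ((x - principal (fixedUnit K hb).1).at q σ).val = (x.at q σ).val / placeEmb K q σ b := by
  rw [Idele.at_sub]
  show ((x.at q σ).toMul / ((principal (fixedUnit K hb).1).at q σ).toMul :
    (PadicAlgCl (q : ℕ))ˣ).val = _
  rw [Units.val_div_eq_div_val]
  rfl

theorem exists_principal_approx (p : ℕ) (hp : p ≠ 0) (R : Finset (HeightOneSpectrum (𝓞 K)))
    {x : Idele} (hx : x ∈ fixedPts K.fixingSubgroup Idele) :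
    ∃ (b : K) (hb : b ≠ 0), ∀ q σ, placeIdeal K q σ ∈ R →
      ‖((x - principal (fixedUnit K hb).1).at q σ).val - 1‖ <
        ‖(p : PadicAlgCl (q : ℕ))‖ ^ 2 := by
  choose qq ss hqs using fun v : HeightOneSpectrum (𝓞 K) => exists_placeIdeal_eq v
  let xv : ∀ v, PadicAlgCl (qq v : ℕ) := fun v => (x.at (qq v) (ss v)).val
  let ε : HeightOneSpectrum (𝓞 K) → ℝ := fun v =>
    ‖xv v‖ * ‖(p : PadicAlgCl (qq v : ℕ))‖ ^ 2
  have hε : ∀ v, 0 < ε v := fun v => mul_pos (norm_pos_iff.2 (Units.ne_zero _))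
    (pow_pos (norm_pos_iff.2 (Nat.cast_ne_zero.2 hp)) 2)
  have happ : ∀ v, ∃ y : K, ‖xv v - placeEmb K (qq v) (ss v) y‖ < ε v := fun v =>
    exists_norm_sub_lt (at_mem_locField hx) (hε v)
  choose y hy using happ
  have hN : ∀ w v : HeightOneSpectrum (𝓞 K), ∃ N : ℕ, ∀ M, N ≤ M → ∀ a ∈ w.asIdeal ^ M,
      ‖placeEmb K (qq w) (ss w) (algebraMap (𝓞 K) K a)‖ *
        ‖placeEmb K (qq w) (ss w) (y v)‖ < ε w := by
    intro w v
    obtain ⟨N, hN⟩ := exists_pow_norm_lt (K := K) (qq w) (ss w)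
      (div_pos (hε w) (add_pos_of_nonneg_of_pos (norm_nonneg (placeEmb K (qq w) (ss w) (y v)))
        one_pos))
    refine ⟨N, fun M hM a ha => ?_⟩
    rw [hqs w] at hN
    have h1 := hN M hM a ha
    rw [lt_div_iff₀ (add_pos_of_nonneg_of_pos (norm_nonneg _) one_pos)] at h1
    refine lt_of_le_of_lt ?_ h1
    exact mul_le_mul_of_nonneg_left (le_add_of_nonneg_right zero_le_one) (norm_nonneg _)
  choose N hN using hN
  set M := R.sup fun w => R.sup fun v => N w v
  have hcrt : ∀ v, ∃ e : 𝓞 K, ∀ w ∈ R, e - (if w = v then 1 else 0) ∈ w.asIdeal ^ M := by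
    intro v
    obtain ⟨e, he⟩ := IsDedekindDomain.exists_forall_sub_mem_ideal (s := R)
      (fun w : HeightOneSpectrum (𝓞 K) => w.asIdeal) (fun _ => M) (fun w _ => w.prime)
      (fun w _ w' _ hne e => hne (HeightOneSpectrum.ext e))
      (fun w => if (w : HeightOneSpectrum (𝓞 K)) = v then 1 else 0)
    exact ⟨e, fun w hw => he w hw⟩
  choose e he using hcrt
  let b : K := ∑ v ∈ R, algebraMap (𝓞 K) K (e v) * y v
  have hb : ∀ w ∈ R, ‖xv w - placeEmb K (qq w) (ss w) b‖ < ε w := by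
    intro w hw
    let E := placeEmb K (qq w) (ss w)
    have hclosed : ∀ a a' : PadicAlgCl (qq w : ℕ), ‖a‖ < ε w → ‖a'‖ < ε w → ‖a + a'‖ < ε w :=
      fun a a' h h' => lt_of_le_of_lt (IsUltrametricDist.norm_add_le_max _ _) (max_lt h h')
    have hdec : xv w - E b = (xv w - E (y w)) +
        ∑ v ∈ R, (-(E (algebraMap (𝓞 K) K (e v - if w = v then 1 else 0))) * E (y v)) := by
      have h1 : E (y w) = ∑ v ∈ R, E (algebraMap (𝓞 K) K (if w = v then 1 else 0)) * E (y v) := by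
        rw [Finset.sum_eq_single w (fun v _ hvw => by rw [if_neg (Ne.symm hvw)]; simp)
          (fun h => absurd hw h), if_pos rfl]
        simp
      simp only [map_sub, neg_mul, sub_mul, Finset.sum_neg_distrib, Finset.sum_sub_distrib]
      rw [← h1]
      simp only [b, map_sum, map_mul, E]
      ring
    rw [hdec]
    refine hclosed _ _ (hy w) (Finset.sum_induction _ (fun a => ‖a‖ < ε w) hclosed
      (by rw [norm_zero]; exact hε w) fun v hv => ?_)
    rw [norm_mul, norm_neg]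
    exact hN w v M (le_trans (Finset.le_sup (f := fun v => N w v) hv)
      (Finset.le_sup (f := fun w => R.sup fun v => N w v) hw)) _ (he v w hw)
  by_cases hb0 : b = 0
  · refine ⟨1, one_ne_zero, fun q σ hR => ?_⟩
    have h1 := hb _ hR
    rw [hb0, map_zero, sub_zero] at h1
    have h2 : ε (placeIdeal K q σ) ≤ ‖xv (placeIdeal K q σ)‖ :=
      mul_le_of_le_one_right (norm_nonneg _)
        (pow_le_one₀ (norm_nonneg _) (norm_natCast_le_one _ _))
    exact absurd h1 (not_lt.2 h2)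
  refine ⟨b, hb0, fun q σ hR => ?_⟩
  obtain ⟨w, hqw⟩ : ∃ w, placeIdeal K q σ = w := ⟨_, rfl⟩
  rw [hqw] at hR
  obtain rfl : q = qq w := eq_prime_of_placeIdeal_eq (K := K) (hqw.trans (hqs w).symm)
  obtain ⟨τ, hτ⟩ := exists_loc_mul_eq (K := K) (q := qq w) (σ := ss w) (σ' := σ)
    (fun z => norm_eq_of_placeIdeal_eq (hqw.trans (hqs w).symm) z)
  set X := x - principal (fixedUnit K hb0).1
  have hX : X ∈ fixedPts K.fixingSubgroup Idele :=
    sub_mem hx (principal_mem_fixedPts_iff.2 (fixedUnit K hb0).2)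
  rw [show σ = loc (qq w) τ * ss w * ((loc (qq w) τ * ss w)⁻¹ * σ) by group,
    Idele.mem_fixedPts_iff.1 hX _ _ _ hτ, Idele.at_loc_mul, LU.val_smul, ← map_one τ, ← map_sub]
  refine lt_of_eq_of_lt (congrArg NNReal.toReal (nnnorm_padicAlgCl_algEquiv (qq w : ℕ) τ _)) ?_
  show ‖(X.at (qq w) (ss w)).val - 1‖ < _
  have hw := hb w hR
  have hnb : ‖placeEmb K (qq w) (ss w) b‖ = ‖xv w‖ := by
    have hlt : ‖xv w - placeEmb K (qq w) (ss w) b‖ < ‖xv w‖ := hw.trans_le
      (mul_le_of_le_one_right (norm_nonneg _)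
        (pow_le_one₀ (norm_nonneg _) (norm_natCast_le_one _ _)))
    rw [show placeEmb K (qq w) (ss w) b = xv w + -(xv w - placeEmb K (qq w) (ss w) b) by ring,
      IsUltrametricDist.norm_add_eq_max_of_norm_ne_norm (by rw [norm_neg]; exact hlt.ne'),
      norm_neg, max_eq_left hlt.le]
  rw [norm_val_sub x hb0, div_sub_one ((map_ne_zero _).2 hb0), norm_div, hnb,
    div_lt_iff₀ (norm_pos_iff.2 (Units.ne_zero _)), mul_comm]
  exact hw

/-! ### The Artin map -/

theorem finite_ramified {G : Type} [CommGroup G] (χ : K.fixingSubgroup →* G)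
    (hlev : ∃ L : IntermediateField ℚ Qbar, FiniteDimensional ℚ L ∧
      ∀ σ : K.fixingSubgroup, (∀ x ∈ L, (σ : GalQ) x = x) → χ σ = 1) :
    {v : HeightOneSpectrum (𝓞 K) | ¬ IsUnramifiedChar χ v.asIdeal}.Finite := by
  obtain ⟨L, hL, hχ⟩ := hlev
  have := hL
  obtain ⟨S, hS⟩ := exists_finset_forall_inertia_fixes L
  refine Set.Finite.subset ((Set.Finite.preimage Nat.Primes.coe_nat_injective.injOn
    S.finite_toSet).biUnion fun q _ => finite_setOf_placeIdeal K q) fun v hv => ?_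
  obtain ⟨q, σ, hqσ⟩ := exists_placeIdeal_eq v
  refine Set.mem_biUnion (x := q) ?_ ⟨σ, hqσ⟩
  by_contra hqS
  refine hv fun A hA τ hτ => hχ τ (hS q q.2 hqS A ?_ τ hτ)
  refine hA.liesOverPrime ?_
  rw [← hqσ, mem_placeIdeal]
  simpa [norm_natCast_self] using inv_prime_lt_one q

theorem exists_classRayHom {m : ℕ} (hm : m ≠ 0) (R : Finset (HeightOneSpectrum (𝓞 K)))
    {B : Type} [AddCommGroup B] [Finite B] (qh : fixedPts K.fixingSubgroup Idele →+ B)
    (hqh : Function.Surjective qh)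
    (hprinc : ∀ (a : GU) (ha : a ∈ fixedPts K.fixingSubgroup GU),
      qh ⟨principal a, principal_mem_fixedPts_iff.2 ha⟩ = 0)
    (hgood : ∀ x : fixedPts K.fixingSubgroup Idele,
      (∀ q σ, (placeIdeal K q σ ∉ R ∧ x.1.at q σ ∈ unitsAt q) ∨
        ‖(x.1.at q σ).val - 1‖ < ‖(m : PadicAlgCl (q : ℕ))‖ ^ 2) → qh x = 0) :
    ∃ (f : Ideal (𝓞 K)) (π : Ideal (𝓞 K) → Multiplicative B), IsRayHom f π ∧
      (∀ P : Ideal (𝓞 K), P.IsPrime → P ∣ f → ∃ v ∈ R, v.asIdeal = P) ∧
      (∀ v : HeightOneSpectrum (𝓞 K), v.asIdeal ⊔ f = ⊤ ↔ v ∉ R) ∧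
      (∀ v : HeightOneSpectrum (𝓞 K), π v.asIdeal = Multiplicative.ofAdd (qh (uniIdele v))) ∧
      ∀ b : Multiplicative B, ∃ I : Ideal (𝓞 K), I ≠ ⊥ ∧ I ⊔ f = ⊤ ∧ π I = b := by
  have hE : ∀ v : HeightOneSpectrum (𝓞 K), ∃ n : ℕ, ∀ (q : Nat.Primes) (σ : GalQ),
      placeIdeal K q σ = v → ∀ a ∈ v.asIdeal ^ (n + 1),
        ‖placeEmb K q σ (algebraMap (𝓞 K) K a)‖ < ‖(m : PadicAlgCl (q : ℕ))‖ ^ 2 := by
    intro v
    obtain ⟨q, σ, rfl⟩ := exists_placeIdeal_eq v
    obtain ⟨n, hn⟩ := exists_pow_norm_lt (K := K) q σ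
      (pow_pos (norm_pos_iff.2 (Nat.cast_ne_zero.2 hm : (m : PadicAlgCl (q : ℕ)) ≠ 0)) 2)
    refine ⟨n, fun q' σ' h a ha => ?_⟩
    obtain rfl := eq_prime_of_placeIdeal_eq h
    rw [norm_eq_of_placeIdeal_eq h]
    exact hn _ (Nat.le_succ n) a ha
  choose E hE using hE
  set f : Ideal (𝓞 K) := ∏ v ∈ R, v.asIdeal ^ (E v + 1) with hf
  have hf0 : f ≠ ⊥ := Finset.prod_ne_zero_iff.2 fun v _ => pow_ne_zero _ v.ne_bot
  have hfR : ∀ v ∈ R, f ≤ v.asIdeal ^ (E v + 1) := fun v hv =>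
    Ideal.le_of_dvd (Finset.dvd_prod_of_mem (fun v : HeightOneSpectrum (𝓞 K) =>
      v.asIdeal ^ (E v + 1)) hv)
  have hPf : ∀ P : Ideal (𝓞 K), P.IsPrime → P ∣ f → ∃ v ∈ R, v.asIdeal = P := by
    intro P hP hdvd
    obtain ⟨v, hv, hle⟩ := (hP.prod_le).1 (Ideal.le_of_dvd hdvd)
    have := v.isPrime
    exact ⟨v, hv, (v.isPrime.isMaximal v.ne_bot).eq_of_le hP.ne_top (hP.le_of_pow_le hle)⟩
  have hcoprime : ∀ v : HeightOneSpectrum (𝓞 K), v.asIdeal ⊔ f = ⊤ ↔ v ∉ R := by
    intro v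
    refine ⟨fun h hmem => v.isPrime.ne_top (eq_top_iff.2 (h ▸ sup_le le_rfl
      ((hfR _ hmem).trans (Ideal.pow_le_self (Nat.succ_ne_zero _))))), fun hv => ?_⟩
    by_contra hne'
    have := v.isPrime
    have hle : f ≤ v.asIdeal := le_sup_right.trans
      ((v.isPrime.isMaximal v.ne_bot).eq_of_le hne' le_sup_left).symm.le
    obtain ⟨w, hw, hwv⟩ := hPf v.asIdeal v.isPrime (Ideal.dvd_iff_le.2 hle)
    exact hv (HeightOneSpectrum.ext hwv ▸ hw)
  have hcop : ∀ v : HeightOneSpectrum (𝓞 K), v ∈ R →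
      ∀ I : Ideal (𝓞 K), I ⊔ f = ⊤ → v.asIdeal ∉ normalizedFactors I := fun v hv I hI h =>
    v.isPrime.ne_top (eq_top_iff.2 (hI ▸ sup_le (Ideal.le_of_dvd (dvd_of_mem_normalizedFactors h))
      ((hfR v hv).trans (Ideal.pow_le_self (Nat.succ_ne_zero _)))))
  let π : Ideal (𝓞 K) → Multiplicative B := fun I =>
    Multiplicative.ofAdd (qh ((normalizedFactors I).map (primeIdele K)).sum)
  have hπprime : ∀ v : HeightOneSpectrum (𝓞 K),
      π v.asIdeal = Multiplicative.ofAdd (qh (uniIdele v)) := fun v => by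
    simp only [π]
    rw [normalizedFactors_irreducible v.irreducible, normalize_eq, Multiset.map_singleton,
      Multiset.sum_singleton, primeIdele_asIdeal]
  have hray : IsRayHom f π := by
    refine ⟨hf0, fun I J hI hJ _ _ => ?_, fun a ha0 ha => ?_⟩
    · simp only [π]
      rw [normalizedFactors_mul hI hJ, Multiset.map_add, Multiset.sum_add, map_add]
      rfl
    · have haK : algebraMap (𝓞 K) K a ≠ 0 :=
        fun h => ha0 (FaithfulSMul.algebraMap_injective (𝓞 K) K (h.trans (map_zero _).symm))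
      set S := ((normalizedFactors (Ideal.span {a})).map (primeIdele K)).sum
      set u : fixedPts K.fixingSubgroup Idele := ⟨principal (fixedUnit K haK).1,
        principal_mem_fixedPts_iff.2 (fixedUnit K haK).2⟩
      have h0 : qh (u - S) = 0 := hgood _ fun q σ => by
        by_cases hv : placeIdeal K q σ ∈ R
        · right
          have hS0 : S.1.at q σ = 0 := at_sum_eq_zero _ (hcop _ hv _ (by
            rw [Ideal.eq_top_iff_one, show (1 : 𝓞 K) = a - (a - 1) by ring]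
            exact Ideal.sub_mem _ (Ideal.mem_sup_left (Ideal.mem_span_singleton_self a))
              (Ideal.mem_sup_right ha)))
          rw [AddSubgroup.coe_sub, Idele.at_sub, hS0, sub_zero]
          show ‖placeEmb K q σ (algebraMap (𝓞 K) K a) - 1‖ < _
          rw [← map_one (placeEmb K q σ), ← map_sub, ← map_one (algebraMap (𝓞 K) K),
            ← map_sub]
          exact hE _ q σ rfl _ (hfR _ hv ha)
        · left
          refine ⟨hv, ?_⟩
          obtain ⟨c, hc, -, hcf⟩ := exists_norm_eq_zpow K q σ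
          rw [mem_unitsAt_iff, AddSubgroup.coe_sub, Idele.at_sub]
          show ‖((u.1.at q σ).toMul / (S.1.at q σ).toMul : (PadicAlgCl (q : ℕ))ˣ).val‖ = 1
          rw [Units.val_div_eq_div_val, norm_div]
          show ‖placeEmb K q σ (algebraMap (𝓞 K) K a)‖ / ‖(S.1.at q σ).val‖ = 1
          rw [norm_at_sum hcf, hcf _ haK, placeOrd_algebraMap ha0, zpow_natCast,
            div_self (pow_ne_zero _ hc.ne')]
      rw [map_sub, show qh u = 0 from hprinc _ (fixedUnit K haK).2, zero_sub,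
        neg_eq_zero] at h0
      simp only [π]
      rw [h0, ofAdd_zero]
  -- surjectivity
  have hgen : ∀ a : Multiplicative B, ∃ I : Ideal (𝓞 K), I ≠ ⊥ ∧ I ⊔ f = ⊤ ∧ π I = a := by
    let Sub : Submonoid (Multiplicative B) :=
      { carrier := {a | ∃ I : Ideal (𝓞 K), I ≠ ⊥ ∧ I ⊔ f = ⊤ ∧ π I = a}
        one_mem' := ⟨1, one_ne_bot, one_sup_eq_top, hray.map_one⟩
        mul_mem' := by
          rintro a b ⟨I, hI, hI', rfl⟩ ⟨J, hJ, hJ', rfl⟩
          exact ⟨I * J, mul_ne_zero hI hJ, mul_sup_eq_top_iff.2 ⟨hI', hJ'⟩,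
            hray.map_mul I J hI hJ hI' hJ'⟩ }
    let SubG : Subgroup (Multiplicative B) :=
      { Sub with
        inv_mem' := fun {a} ha => by
          rw [show a⁻¹ = a ^ (orderOf a - 1) from inv_eq_of_mul_eq_one_left (by
            rw [← pow_succ, Nat.sub_add_cancel (orderOf_pos a), pow_orderOf_eq_one])]
          exact Sub.pow_mem ha _ }
    intro a
    show a ∈ SubG
    obtain ⟨x, hx⟩ := hqh a.toAdd
    obtain ⟨b, hb, hbR⟩ := exists_principal_approx m hm R x.2
    set x' : fixedPts K.fixingSubgroup Idele :=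
      x - ⟨principal (fixedUnit K hb).1, principal_mem_fixedPts_iff.2 (fixedUnit K hb).2⟩
    set T := ((Filter.eventually_cofinite.1 (eventually_ideleDiv_eq_zero K x')).toFinset).filter
      fun v => v ∉ R
    set y : fixedPts K.fixingSubgroup Idele := ∑ v ∈ T, ideleDiv K x' v • uniIdele v with hy
    have hyat : ∀ q σ, y.1.at q σ =
        ∑ v ∈ T, ideleDiv K x' v • (uniIdele v).1.at q σ := fun q σ => by
      rw [hy, AddSubgroup.val_finsetSum]
      exact (map_sum (Idele.atHom q σ) _ _).trans (Finset.sum_congr rfl fun v _ =>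
        map_zsmul (Idele.atHom q σ) _ _)
    have hxy : qh (x' - y) = 0 := hgood _ fun q σ => by
      by_cases hv : placeIdeal K q σ ∈ R
      · right
        rw [AddSubgroup.coe_sub, Idele.at_sub, hyat, Finset.sum_eq_zero fun v hvT => by
          rw [at_uniIdele_of_ne fun e => (Finset.mem_filter.1 hvT).2 (by rw [← e]; exact hv),
            zsmul_zero],
          sub_zero]
        exact hbR q σ hv
      · left
        refine ⟨hv, ?_⟩
        obtain ⟨c, hc, -, hcf⟩ := exists_norm_eq_zpow K q σ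
        obtain ⟨e, he, he'⟩ := exists_norm_at_eq (q := q) (σ := σ) x'.2
        have hx'n : ‖(x'.1.at q σ).val‖ = c ^ ideleDiv K x' (placeIdeal K q σ) := by
          rw [← he', hcf e he, ideleDiv_placeIdeal, ideleOrdAt_eq K x' he he']
        have hyn : ‖(y.1.at q σ).val‖ = c ^ ideleDiv K x' (placeIdeal K q σ) := by
          rw [hyat, Finset.sum_eq_single (placeIdeal K q σ)
            (fun v _ hne => by rw [at_uniIdele_of_ne (Ne.symm hne), zsmul_zero]) fun hT => ?_]
          · rw [val_zsmul, norm_zpow]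
            exact congrArg (· ^ _) (norm_at_uniIdele rfl hcf)
          · rw [Finset.mem_filter, Set.Finite.mem_toFinset, not_and] at hT
            have h0 : ideleDiv K x' (placeIdeal K q σ) = 0 := by
              by_contra h
              exact hT h hv
            rw [h0, zero_zsmul]
        rw [mem_unitsAt_iff, AddSubgroup.coe_sub, Idele.at_sub]
        show ‖((x'.1.at q σ).toMul / (y.1.at q σ).toMul : (PadicAlgCl (q : ℕ))ˣ).val‖ = 1
        rw [Units.val_div_eq_div_val, norm_div]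
        show ‖(x'.1.at q σ).val‖ / ‖(y.1.at q σ).val‖ = 1
        rw [hx'n, hyn, div_self (zpow_ne_zero _ hc.ne')]
    have hz : a = Multiplicative.ofAdd (qh y) := by
      rw [map_sub, sub_eq_zero, map_sub, hprinc _ (fixedUnit K hb).2, sub_zero,
        hx] at hxy
      rw [← hxy]
      rfl
    rw [hz, hy, map_sum, ofAdd_sum]
    refine SubG.prod_mem fun v hv => ?_
    rw [map_zsmul, ofAdd_zsmul]
    refine SubG.zpow_mem ?_ _
    have hvR := (Finset.mem_filter.1 hv).2
    exact ⟨v.asIdeal, v.ne_bot, (hcoprime v).2 hvR, hπprime v⟩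
  exact ⟨f, π, hray, hPf, hcoprime, hπprime, hgen⟩

/-- Crossing, for the classes. -/
theorem exists_artin_of_classes {G : Type} [CommGroup G] [Finite G] (χ : K.fixingSubgroup →* G)
    (hχ : Function.Surjective χ)
    (hlev : ∃ L : IntermediateField ℚ Qbar, FiniteDimensional ℚ L ∧
      ∀ σ : K.fixingSubgroup, (∀ x ∈ L, (σ : GalQ) x = x) → χ σ = 1)
    {l k : ℕ} (hl : l.Prime) {τ : G} (hτ : ∀ x, x ∈ Subgroup.zpowers τ)
    (hn : orderOf τ = l ^ k) (hinf : IsTotallyComplex K ∨ l ≠ 2)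
    {m : ℕ} (hm : m ≠ 0) {B : Type} [AddCommGroup B] [Finite B]
    (qh : fixedPts K.fixingSubgroup Idele →+ B) (hqh : Function.Surjective qh)
    (hprinc : ∀ (a : GU) (ha : a ∈ fixedPts K.fixingSubgroup GU),
      qh ⟨principal a, principal_mem_fixedPts_iff.2 ha⟩ = 0)
    (hgood : ∀ x : fixedPts K.fixingSubgroup Idele,
      (∀ q σ, (IsUnramifiedChar χ (placeIdeal K q σ).asIdeal ∧ x.1.at q σ ∈ unitsAt q) ∨
        ‖(x.1.at q σ).val - 1‖ < ‖(m : PadicAlgCl (q : ℕ))‖ ^ 2) → qh x = 0)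
    (hkill : ∀ v : HeightOneSpectrum (𝓞 K), IsUnramifiedChar χ v.asIdeal →
      orderOf (frobVal χ v.asIdeal) • qh (uniIdele v) = 0) :
    Nat.card B ≤ Nat.card G ∧ (Nat.card G ≤ Nat.card B →
      ∃ (f : Ideal (𝓞 K)) (ψ : Ideal (𝓞 K) → G), IsRayHom f ψ ∧
        (∀ P : Ideal (𝓞 K), P.IsPrime → P ∣ f → ¬ IsUnramifiedChar χ P) ∧
        ∀ P : Ideal (𝓞 K), P.IsPrime → P ≠ ⊥ → P ⊔ f = ⊤ →
          IsUnramifiedChar χ P ∧ ψ P = frobVal χ P) := by
  have hR := finite_ramified χ hlev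
  have hRmem : ∀ v, v ∈ hR.toFinset ↔ ¬ IsUnramifiedChar χ v.asIdeal := fun v => hR.mem_toFinset
  obtain ⟨f, π, hray, hPf, hcop, hπ, hgen⟩ := exists_classRayHom hm hR.toFinset qh hqh hprinc
    fun x hx => hgood x fun q σ => (hx q σ).imp_left fun h =>
      ⟨not_not.1 fun h' => h.1 ((hRmem _).2 h'), h.2⟩
  have hunr : ∀ P : Ideal (𝓞 K), P.IsPrime → P ≠ ⊥ → P ⊔ f = ⊤ → IsUnramifiedChar χ P :=
    fun P hP hP0 h => not_not.1 fun h' => (hcop ⟨P, hP, hP0⟩).1 h ((hRmem ⟨P, hP, hP0⟩).2 h')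
  let C : CrossingInput K G (Multiplicative B) :=
    { χ := χ, f := f, π := π, l := l, k := k, hl := hl, τ := τ, hτ := hτ, hn := hn, hχ := hχ
      level := hlev
      ray := hray
      unramified := hunr
      inf := hinf
      killed := fun P hP hP0 h => by
        show π P ^ orderOf (frobVal χ P) = 1
        rw [hπ ⟨P, hP, hP0⟩, ← ofAdd_nsmul, hkill ⟨P, hP, hP0⟩ (hunr P hP hP0 h), ofAdd_zero] }
  refine ⟨C.natCard_le hgen, fun hcard => ?_⟩
  obtain ⟨ψ, hψ, hψP⟩ := C.exists_rayHom_frobVal hgen hcard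
  refine ⟨f, ψ, hψ, fun P hP hdvd => ?_, fun P hP hP0 h => ⟨hunr P hP hP0 h, hψP P hP hP0 h⟩⟩
  obtain ⟨v, hv, rfl⟩ := hPf P hP hdvd
  exact (hRmem v).1 hv

end FLTAgent.LanglandsTunnell.CFT
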