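import Fermat.Agent.LanglandsTunnell.CFT.CrossingTools

/-!
# The crossing argument

A homomorphism on the ideals prime to `f` whose values at primes are killed by the order of the
Frobenius of a cyclic character is the Artin map of that character, up to an isomorphism.
-/

set_option autoImplicit false

noncomputable section

open NumberField Module UniqueFactorizationMonoid
open scoped Pointwise Classical

namespace FLTAgent.LanglandsTunnell.CFT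

open FLTAgent.Density FLTAgent.ExtVanishing FLTAgent.LanglandsTunnell ExtCitation

/-- Every number field inside `Qbar` lies in one that is Galois over `ℚ`. -/
theorem exists_galois_level (L : IntermediateField ℚ Qbar) [FiniteDimensional ℚ L] :
    ∃ L' : IntermediateField ℚ Qbar, FiniteDimensional ℚ L' ∧ IsGalois ℚ L' ∧ L ≤ L' :=
  ⟨IntermediateField.normalClosure ℚ L Qbar, inferInstance, IsGalois.normalClosure ℚ L Qbar,
    IntermediateField.le_normalClosure L⟩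

/-- A cyclotomic character is trivial on the elements fixing some number field. -/
theorem exists_level_cycloChar (r : ℕ) [Fact r.Prime] :
    ∃ L : IntermediateField ℚ Qbar, FiniteDimensional ℚ L ∧
      ∀ σ : GalQ, (∀ x ∈ L, σ x = x) → cycloChar r σ = 1 := by
  have : NeZero r := ⟨(Fact.out : r.Prime).ne_zero⟩
  obtain ⟨ζ, hζ⟩ := HasEnoughRootsOfUnity.exists_primitiveRoot Qbar r
  exact ⟨IntermediateField.adjoin ℚ {ζ},
    IntermediateField.adjoin.finiteDimensional (Algebra.IsIntegral.isIntegral ζ),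
    fun σ hσ => Units.ext ((ExtVanishing.cycChar_eq_one_iff r hζ σ).2
      (hσ ζ (IntermediateField.mem_adjoin_simple_self ℚ ζ)))⟩

/-- A nonzero prime not containing an element of `f` is prime to `f`. -/
theorem sup_eq_top_of_notMem {F : IntermediateField ℚ Qbar} [NumberField F] {Q f : Ideal (𝓞 F)}
    [Q.IsPrime] (hQ : Q ≠ ⊥) {c : 𝓞 F} (hc : c ∈ f) (hcQ : c ∉ Q) : Q ⊔ f = ⊤ :=
  ((inferInstance : Q.IsPrime).isMaximal hQ).out.2 _
    (lt_of_le_of_ne le_sup_left fun e => hcQ (e.symm ▸ Ideal.mem_sup_right hc))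

/-- A prime prime to `(z)` does not contain `z`. -/
theorem notMem_of_sup_span_eq_top {F : IntermediateField ℚ Qbar} [NumberField F]
    {Q : Ideal (𝓞 F)} [Q.IsPrime] {z : 𝓞 F} (h : Q ⊔ Ideal.span {z} = ⊤) : z ∉ Q := fun hz =>
  Ideal.IsPrime.ne_top inferInstance
    (eq_top_iff.2 (h ▸ sup_le le_rfl ((Ideal.span_singleton_le_iff_mem _).2 hz)))

/-- A prime modulo which `y ^ N = y` for all `y` has norm at most `N`. -/
theorem absNorm_le_of_pow_sub_mem {F : IntermediateField ℚ Qbar} [NumberField F]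
    {Q : Ideal (𝓞 F)} [Q.IsPrime] (hQ : Q ≠ ⊥) {N : ℕ} (hN : 1 < N)
    (h : ∀ y : 𝓞 F, y ^ N - y ∈ Q) : Ideal.absNorm Q ≤ N := by
  have : Q.IsMaximal := (inferInstance : Q.IsPrime).isMaximal hQ
  let : Field (𝓞 F ⧸ Q) := Ideal.Quotient.field Q
  have : Finite (𝓞 F ⧸ Q) := Ideal.finiteQuotientOfFreeOfNeBot Q hQ
  have : Fintype (𝓞 F ⧸ Q) := Fintype.ofFinite _
  rw [Ideal.absNorm_apply, Submodule.cardQuot_apply, Nat.card_eq_fintype_card]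
  have hX : (Polynomial.X ^ N - Polynomial.X : Polynomial (𝓞 F ⧸ Q)) ≠ 0 :=
    FiniteField.X_pow_card_sub_X_ne_zero _ hN
  refine le_trans ?_ ((Polynomial.card_roots' _).trans_eq
    (FiniteField.X_pow_card_sub_X_natDegree_eq (𝓞 F ⧸ Q) hN))
  rw [← Finset.card_univ]
  refine le_trans (Finset.card_le_card (t := (Polynomial.roots
    (Polynomial.X ^ N - Polynomial.X : Polynomial (𝓞 F ⧸ Q))).toFinset) fun z _ => ?_)
    (Multiset.toFinset_card_le _)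
  obtain ⟨y, rfl⟩ := Ideal.Quotient.mk_surjective z
  rw [Multiset.mem_toFinset, Polynomial.mem_roots hX, Polynomial.IsRoot, Polynomial.eval_sub,
    Polynomial.eval_pow, Polynomial.eval_X, ← map_pow, ← map_sub,
    Ideal.Quotient.eq_zero_iff_mem]
  exact h y

section Over

variable {K : IntermediateField ℚ Qbar} [NumberField K] {F : IntermediateField ℚ Qbar}
  [NumberField F] [Algebra K F] [IsScalarTower ℚ K F]

omit [NumberField K] [IsScalarTower ℚ K F] [NumberField F] in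
/-- A place over a prime of `F` lies over the prime of `K` below it. -/
theorem PlaceOver.under (hval : ∀ x : K, ((algebraMap K F x : F) : Qbar) = (x : Qbar))
    {A : ValuationSubring Qbar} {Q : Ideal (𝓞 F)} (h : PlaceOver A Q) :
    PlaceOver A (Q.under (𝓞 K)) := fun x => by
  rw [Ideal.mem_comap, h]
  exact Iff.of_eq (congrArg (· ∈ A.nonunits) (hval (x : K)))

omit [IsScalarTower ℚ K F] in
/-- A Frobenius element fixing `F` gives a prime of `F` with the same norm. -/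
theorem exists_prime_over_frobenius (hval : ∀ x : K, ((algebraMap K F x : F) : Qbar) = (x : Qbar))
    {P : Ideal (𝓞 K)} [P.IsPrime] (hP : P ≠ ⊥) {g : GalQ} (hg : IsFrobOver K P g)
    (hgF : g ∈ F.fixingSubgroup) :
    ∃ Q : Ideal (𝓞 F), Q.IsPrime ∧ Q ≠ ⊥ ∧ Q.under (𝓞 K) = P ∧ IsFrobOver F Q g ∧
      Ideal.absNorm Q = Ideal.absNorm P := by
  obtain ⟨-, A, hA, hAg⟩ := hg
  set Q : Ideal (𝓞 F) := (primeBelow A).comap (intEmb F) with hQ
  have : Q.IsPrime := Ideal.comap_isPrime _ _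
  have hQA : PlaceOver A Q := placeOver_iff.2 rfl
  have hQP : Q.under (𝓞 K) = P := by
    have h1 := placeOver_iff.1 (hQA.under hval)
    rw [placeOver_iff.1 hA] at h1
    exact h1.symm
  have hQ0 : Q ≠ ⊥ := fun e => hP (by
    rw [← hQP, e]
    exact Ideal.under_bot (𝓞 K) (𝓞 F))
  have h2 : 1 < Ideal.absNorm P := by
    have h0 : Ideal.absNorm P ≠ 0 := fun e => hP (Ideal.absNorm_eq_zero_iff.1 e)
    have h1 : Ideal.absNorm P ≠ 1 := fun e =>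
      Ideal.IsPrime.ne_top inferInstance (Ideal.absNorm_eq_one_iff.1 e)
    omega
  have hle : Ideal.absNorm Q ≤ Ideal.absNorm P := absNorm_le_of_pow_sub_mem hQ0 h2 fun y => by
    rw [hQA]
    have hyA : ((y : F) : Qbar) ∈ A :=
      mem_of_isIntegral A ((y.isIntegral_coe).map (F.val.restrictScalars ℤ))
    have := (isFrobeniusAt_iff.1 hAg).2 ((y : F) : Qbar) hyA
    rw [show g ((y : F) : Qbar) = ((y : F) : Qbar) from hgF (y : F)] at this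
    have h' : ((y : F) : Qbar) ^ Ideal.absNorm P - ((y : F) : Qbar) ∈ A.nonunits := by
      rw [← neg_sub, ValuationSubring.mem_nonunits_iff, Valuation.map_neg]
      exact A.mem_nonunits_iff.1 this
    simpa using h'
  have hge : Ideal.absNorm P ≤ Ideal.absNorm Q := by
    have : Finite (𝓞 F ⧸ Q) := Ideal.finiteQuotientOfFreeOfNeBot Q hQ0
    subst hQP
    rw [Ideal.absNorm_apply, Ideal.absNorm_apply, Submodule.cardQuot_apply,
      Submodule.cardQuot_apply]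
    exact Nat.card_le_card_of_injective
      (Ideal.quotientMap Q (algebraMap (𝓞 K) (𝓞 F)) le_rfl) Ideal.quotientMap_injective
  exact ⟨Q, inferInstance, hQ0, hQP, ⟨hgF, A, hQA, le_antisymm hle hge ▸ hAg⟩,
    le_antisymm hle hge⟩

end Over

/-- Ideals prime to a proper modulus are nonzero. -/
theorem ne_bot_of_sup_eq_top {F : IntermediateField ℚ Qbar} [NumberField F] {f : Ideal (𝓞 F)}
    (hf : f ≠ ⊤) {I : Ideal (𝓞 F)} (hI : I ⊔ f = ⊤) : I ≠ ⊥ := fun e => hf (by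
  rwa [e, bot_sup_eq] at hI)

/-- A ray homomorphism restricts to a surjective one onto the subgroup generated by its values. -/
theorem IsRayHom.exists_corestrict {F : IntermediateField ℚ Qbar} [NumberField F]
    {f : Ideal (𝓞 F)} {A : Type} [CommGroup A] [Finite A] {π : Ideal (𝓞 F) → A}
    (h : IsRayHom f π) (hf : f ≠ ⊤) :
    ∃ (H : Subgroup A) (π' : Ideal (𝓞 F) → H), (∀ I, I ⊔ f = ⊤ → (π' I : A) = π I) ∧
      IsRayHom f π' ∧ ∀ x : H, ∃ I, I ≠ ⊥ ∧ I ⊔ f = ⊤ ∧ π' I = x := by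
  let H : Subgroup A := Subgroup.closure (π '' {I | I ⊔ f = ⊤})
  let π' : Ideal (𝓞 F) → H := fun I =>
    if hI : I ⊔ f = ⊤ then ⟨π I, Subgroup.subset_closure ⟨I, hI, rfl⟩⟩ else 1
  have hval : ∀ I, I ⊔ f = ⊤ → (π' I : A) = π I := fun I hI => by
    show ((dite _ _ _ : H) : A) = _
    rw [dif_pos hI]
  have hπ' : IsRayHom f π' := by
    refine ⟨h.ne_bot, fun I J hI0 hJ0 hI hJ => Subtype.ext ?_, fun a ha0 ha => Subtype.ext ?_⟩
    · rw [Subgroup.coe_mul, hval _ hI, hval _ hJ, hval _ (mul_sup_eq_top_iff.2 ⟨hI, hJ⟩)]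
      exact h.map_mul I J hI0 hJ0 hI hJ
    · rw [hval, h.map_span a ha0 ha, Subgroup.coe_one]
      rw [Ideal.eq_top_iff_one, show (1 : 𝓞 F) = a - (a - 1) by ring]
      exact Ideal.sub_mem _ (Ideal.mem_sup_left (Ideal.mem_span_singleton_self a))
        (Ideal.mem_sup_right ha)
  have hI0 : ∀ I : Ideal (𝓞 F), I ⊔ f = ⊤ → I ≠ ⊥ := fun I => ne_bot_of_sup_eq_top hf
  refine ⟨H, π', hval, hπ', ?_⟩
  rintro ⟨x, hx⟩
  induction hx using Subgroup.closure_induction with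
  | mem y hy =>
    obtain ⟨I, hI, rfl⟩ := hy
    exact ⟨I, hI0 I hI, hI, Subtype.ext (hval I hI)⟩
  | one => exact ⟨1, hI0 1 one_sup_eq_top, one_sup_eq_top, hπ'.map_one⟩
  | mul a b _ _ ha hb =>
    obtain ⟨I, -, hI, eI⟩ := ha
    obtain ⟨J, -, hJ, eJ⟩ := hb
    exact ⟨I * J, hI0 _ (mul_sup_eq_top_iff.2 ⟨hI, hJ⟩), mul_sup_eq_top_iff.2 ⟨hI, hJ⟩,
      by rw [hπ'.map_mul I J (hI0 I hI) (hI0 J hJ) hI hJ, eI, eJ]; rfl⟩
  | inv a ha' ha =>
    obtain ⟨I, -, hI, eI⟩ := ha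
    have hpow : ∀ m : ℕ, I ^ m ⊔ f = ⊤ ∧ π' (I ^ m) = π' I ^ m := by
      intro m
      induction m with
      | zero => exact ⟨by rw [pow_zero]; exact one_sup_eq_top,
          by rw [pow_zero, pow_zero, hπ'.map_one]⟩
      | succ m ih =>
        exact ⟨by rw [pow_succ]; exact mul_sup_eq_top_iff.2 ⟨ih.1, hI⟩,
          by rw [pow_succ, pow_succ, hπ'.map_mul _ _ (hI0 _ ih.1) (hI0 _ hI) ih.1 hI, ih.2]⟩
    obtain ⟨hm1, hm2⟩ := hpow (orderOf (π' I) - 1)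
    refine ⟨_, hI0 _ hm1, hm1, ?_⟩
    have h1 : π' I ^ (orderOf (π' I) - 1) = (π' I)⁻¹ := eq_inv_of_mul_eq_one_left (by
      rw [← pow_succ, Nat.sub_add_cancel (orderOf_pos _), pow_orderOf_eq_one])
    rw [hm2, h1, eI]
    rfl

/-- A natural number lying in a prime ideal of the residue characteristic `p` is divisible
by `p`. -/
theorem dvd_of_natCast_mem {R : Type*} [CommRing R] {P : Ideal R} [P.IsPrime] {p r : ℕ}
    (hp : p.Prime) (hpP : (p : R) ∈ P) (hrP : (r : R) ∈ P) : p ∣ r := by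
  by_contra h
  have hco : IsCoprime (p : ℤ) (r : ℤ) :=
    Int.isCoprime_iff_nat_coprime.2 (by simpa using hp.coprime_iff_not_dvd.2 h)
  obtain ⟨u, v, e⟩ := hco
  have h2 := congrArg (fun n : ℤ => (n : R)) e
  push_cast at h2
  exact Ideal.IsPrime.ne_top (inferInstance : P.IsPrime) ((Ideal.eq_top_iff_one _).2
    (h2 ▸ Ideal.add_mem _ (Ideal.mul_mem_left _ _ hpP) (Ideal.mul_mem_left _ _ hrP)))

/-- The data entering the crossing argument. -/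
structure CrossingInput (K : IntermediateField ℚ Qbar) [NumberField K] (G : Type) [CommGroup G]
    (A : Type) [CommGroup A] where
  χ : K.fixingSubgroup →* G
  f : Ideal (𝓞 K)
  π : Ideal (𝓞 K) → A
  l : ℕ
  k : ℕ
  hl : l.Prime
  τ : G
  hτ : ∀ x, x ∈ Subgroup.zpowers τ
  hn : orderOf τ = l ^ k
  hχ : Function.Surjective χ
  level : ∃ L : IntermediateField ℚ Qbar, FiniteDimensional ℚ L ∧
    ∀ σ : K.fixingSubgroup, (∀ x ∈ L, (σ : GalQ) x = x) → χ σ = 1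
  ray : IsRayHom f π
  unramified : ∀ P : Ideal (𝓞 K), P.IsPrime → P ≠ ⊥ → P ⊔ f = ⊤ → IsUnramifiedChar χ P
  inf : IsTotallyComplex K ∨ l ≠ 2
  killed : ∀ P : Ideal (𝓞 K), P.IsPrime → P ≠ ⊥ → P ⊔ f = ⊤ →
    π P ^ orderOf (frobVal χ P) = 1

namespace CrossingInput

variable {K : IntermediateField ℚ Qbar} [NumberField K] {G : Type}
  [CommGroup G] [Finite G] {A : Type} [CommGroup A] [Finite A] (D : CrossingInput K G A)

omit [Finite G] [Finite A] in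
/-- The group `G` has order `l ^ k`. -/
theorem natCard_eq : Nat.card G = D.l ^ D.k := by
  rw [← orderOf_eq_card_of_forall_mem_zpowers D.hτ, D.hn]

omit [Finite G] [Finite A] in
/-- Exponents divisible by `l ^ k` kill `G`. -/
theorem pow_dvd_eq_one {x : ℤ} (h : ((D.l ^ D.k : ℕ) : ℤ) ∣ x) (a : G) : a ^ x = 1 := by
  obtain ⟨i, rfl⟩ := D.hτ a
  obtain ⟨c, rfl⟩ := h
  show (D.τ ^ i) ^ (((D.l ^ D.k : ℕ) : ℤ) * c) = 1
  rw [← zpow_mul, mul_comm, zpow_mul, zpow_mul, zpow_natCast, ← D.hn, pow_orderOf_eq_one, one_zpow,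
    one_zpow]

section Auxiliary

variable (r₁ r₂ : ℕ) [Fact r₁.Prime] [Fact r₂.Prime]

/-- The character of the crossed extension: `χ` together with two cyclotomic characters. -/
def crossChar : K.fixingSubgroup →* G × ((ZMod r₁)ˣ × (ZMod r₂)ˣ) :=
  D.χ.prod (((cycloChar r₁).prod (cycloChar r₂)).comp K.fixingSubgroup.subtype)

omit [Finite G] [Finite A] in
/-- The subgroup generated by `(τ, (1, g))` and `(φ, (u₁, u₂))` meets `G × 1` trivially. -/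
theorem fst_eq_one_of_mem_closure_pair {g : (ZMod r₂)ˣ} {φ : G} {u₁ : (ZMod r₁)ˣ}
    {u₂ : (ZMod r₂)ˣ} (hg : ∀ a b : ℤ, u₁ ^ b = 1 → g ^ a * u₂ ^ b = 1 →
      ((D.l ^ D.k : ℕ) : ℤ) ∣ a ∧ ((D.l ^ D.k : ℕ) : ℤ) ∣ b)
    (d : G × ((ZMod r₁)ˣ × (ZMod r₂)ˣ))
    (hd : d ∈ Subgroup.closure {(D.τ, (1, g)), (φ, (u₁, u₂))}) (h2 : d.2 = 1) : d.1 = 1 := by
  obtain ⟨a, b, rfl⟩ := Subgroup.mem_closure_pair.1 hd
  simp only [Prod.snd_mul, Prod.pow_snd, Prod.ext_iff, Prod.fst_mul, Prod.pow_fst,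
    Prod.fst_one, Prod.snd_one, one_zpow, one_mul] at h2
  obtain ⟨h3, h4⟩ := hg a b h2.1 h2.2
  rw [Prod.fst_mul, Prod.pow_fst, Prod.pow_fst, D.pow_dvd_eq_one h3, D.pow_dvd_eq_one h4,
    one_mul]

omit [Finite G] [Finite A] in
/-- The field of the crossing: its group consists of the elements with crossed value in `Dg`; it
realises every value of `χ` compatibly with any given `L` whose cyclotomic characters are free. -/
theorem exists_crossing_field (L L₀ : IntermediateField ℚ Qbar) [FiniteDimensional ℚ L]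
    [FiniteDimensional ℚ L₀]
    (hχ0 : ∀ σ : K.fixingSubgroup, (∀ x ∈ L₀, (σ : GalQ) x = x) → D.χ σ = 1)
    (hindep : ∀ (u₁ : (ZMod r₁)ˣ) (u₂ : (ZMod r₂)ˣ), ∃ σ : GalQ,
      (∀ x ∈ L ⊔ L₀ ⊔ K, σ x = x) ∧ cycloChar r₁ σ = u₁ ∧ cycloChar r₂ σ = u₂)
    (g : (ZMod r₂)ˣ) (Dg : Subgroup (G × ((ZMod r₁)ˣ × (ZMod r₂)ˣ)))
    (hDg : (D.τ, (1, g)) ∈ Dg) :
    ∃ L₁ F : IntermediateField ℚ Qbar, FiniteDimensional ℚ L₁ ∧ IsGalois ℚ L₁ ∧
      FiniteDimensional ℚ F ∧ K ≤ F ∧ F ≤ L₁ ∧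
      (∀ σ (hσ : σ ∈ K.fixingSubgroup), (∀ x ∈ L₁, σ x = x) → D.crossChar r₁ r₂ ⟨σ, hσ⟩ = 1) ∧
      (∀ σ, σ ∈ F.fixingSubgroup ↔
        ∃ hσ : σ ∈ K.fixingSubgroup, D.crossChar r₁ r₂ ⟨σ, hσ⟩ ∈ Dg) ∧
      ∀ σ₀ (hσ₀ : σ₀ ∈ K.fixingSubgroup), ∃ σ ∈ F.fixingSubgroup, (∀ x ∈ L, σ x = σ₀ x) ∧
        ∀ hσ : σ ∈ K.fixingSubgroup, D.χ ⟨σ, hσ⟩ = D.χ ⟨σ₀, hσ₀⟩ := by
  have : FiniteDimensional ℚ K := inferInstance
  set L' : IntermediateField ℚ Qbar := L ⊔ L₀ ⊔ K with hL'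
  let Δ : Subgroup GalQ := (Dg.comap (D.crossChar r₁ r₂)).map K.fixingSubgroup.subtype
  have hΔmem : ∀ σ, σ ∈ Δ ↔ ∃ hσ : σ ∈ K.fixingSubgroup, D.crossChar r₁ r₂ ⟨σ, hσ⟩ ∈ Dg := by
    refine fun σ => ⟨?_, fun ⟨hσ, h⟩ => ⟨⟨σ, hσ⟩, h, rfl⟩⟩
    rintro ⟨σ', h, rfl⟩
    exact ⟨σ'.2, h⟩
  obtain ⟨C₁, hC₁, hC₁'⟩ := exists_level_cycloChar r₁
  obtain ⟨C₂, hC₂, hC₂'⟩ := exists_level_cycloChar r₂
  have := hC₁
  have := hC₂
  obtain ⟨L₁, hL₁, hL₁g, hLL₁⟩ := exists_galois_level (L' ⊔ C₁ ⊔ C₂)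
  have := hL₁
  have hKL₁ : K ≤ L₁ := le_trans (le_trans (le_trans le_sup_right le_sup_left) le_sup_left) hLL₁
  have hL₁Φ : ∀ σ (hσ : σ ∈ K.fixingSubgroup), (∀ x ∈ L₁, σ x = x) →
      D.crossChar r₁ r₂ ⟨σ, hσ⟩ = 1 := by
    intro σ hσ h
    have h' : ∀ x ∈ L' ⊔ C₁ ⊔ C₂, σ x = x := fun x hx => h x (hLL₁ hx)
    exact Prod.ext (hχ0 ⟨σ, hσ⟩ fun x hx => h' x
      ((le_trans (le_trans le_sup_right le_sup_left) (le_trans le_sup_left le_sup_left) :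
        L₀ ≤ L' ⊔ C₁ ⊔ C₂) hx))
      (Prod.ext (hC₁' σ fun x hx => h' x ((le_trans le_sup_right le_sup_left :
        C₁ ≤ L' ⊔ C₁ ⊔ C₂) hx)) (hC₂' σ fun x hx => h' x ((le_sup_right :
        C₂ ≤ L' ⊔ C₁ ⊔ C₂) hx)))
  have hL₁Δ : L₁.fixingSubgroup ≤ Δ := fun σ hσ => by
    have hσK : σ ∈ K.fixingSubgroup := IntermediateField.fixingSubgroup_le hKL₁ hσ
    exact (hΔmem σ).2 ⟨hσK, (hL₁Φ σ hσK fun x hx => hσ ⟨x, hx⟩).symm ▸ Dg.one_mem⟩
  obtain ⟨F, hF, hFfix, hFL₁⟩ := exists_fixingSubgroup_eq hL₁Δ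
  have hKF : K ≤ F := by
    rw [← InfiniteGalois.fixedField_fixingSubgroup K, ← InfiniteGalois.fixedField_fixingSubgroup F,
      hFfix]
    exact fun x hx ⟨σ, hσ⟩ => hx ⟨σ, Subgroup.map_subtype_le _ hσ⟩
  refine ⟨L₁, F, hL₁, hL₁g, hF, hKF, hFL₁, hL₁Φ, fun σ => by rw [hFfix, hΔmem],
    fun σ₀ hσ₀ => ?_⟩
  obtain ⟨a, ha⟩ := D.hτ (D.χ ⟨σ₀, hσ₀⟩)
  let ε : GalQ →* (ZMod r₁)ˣ × (ZMod r₂)ˣ := (cycloChar r₁).prod (cycloChar r₂)
  obtain ⟨σ₁, h1, h2, h3⟩ := hindep ((ε σ₀)⁻¹ * (1, g ^ a)).1 ((ε σ₀)⁻¹ * (1, g ^ a)).2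
  have hσ₁K : σ₁ ∈ K.fixingSubgroup := fun x => h1 _ ((le_sup_right : K ≤ L') x.2)
  have hχ : D.χ ⟨σ₀ * σ₁, mul_mem hσ₀ hσ₁K⟩ = D.χ ⟨σ₀, hσ₀⟩ := by
    rw [show (⟨σ₀ * σ₁, mul_mem hσ₀ hσ₁K⟩ : K.fixingSubgroup) = ⟨σ₀, hσ₀⟩ * ⟨σ₁, hσ₁K⟩ from rfl,
      map_mul, hχ0 ⟨σ₁, hσ₁K⟩ fun x hx => h1 x
        ((le_trans le_sup_right le_sup_left : L₀ ≤ L') hx), mul_one]
  have e : D.crossChar r₁ r₂ ⟨σ₀ * σ₁, mul_mem hσ₀ hσ₁K⟩ = (D.τ, (1, g)) ^ a := by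
    refine Prod.ext (by rw [Prod.pow_fst]; exact hχ.trans ha.symm) ?_
    show ε (σ₀ * σ₁) = _
    rw [map_mul, show ε σ₁ = (ε σ₀)⁻¹ * (1, g ^ a) from Prod.ext h2 h3, mul_inv_cancel_left,
      Prod.pow_snd]
    exact Prod.ext (one_zpow a).symm rfl
  refine ⟨σ₀ * σ₁, hFfix ▸ (hΔmem _).2 ⟨mul_mem hσ₀ hσ₁K, e ▸ Dg.zpow_mem hDg a⟩,
    fun x hx => ?_, fun _ => hχ⟩
  rw [AlgEquiv.mul_apply, h1 x ((le_trans le_sup_left le_sup_left : L ≤ L') hx)]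

end Auxiliary

section Over

-- the scalar action of `K` on `F` is searched at every use of the variables
attribute [local instance high] Algebra.toSMul

variable {r₁ r₂ : ℕ} [Fact r₁.Prime] [Fact r₂.Prime] {c : 𝓞 K}
  {Dg : Subgroup (G × ((ZMod r₁)ˣ × (ZMod r₂)ˣ))}
  {F : IntermediateField ℚ Qbar} [NumberField F] [Algebra K F]
  {hFK : F.fixingSubgroup ≤ K.fixingSubgroup}

variable (r₁ r₂) in
/-- The crossed character on the group of `F`. -/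
def crossCharOn (hFK : F.fixingSubgroup ≤ K.fixingSubgroup) :
    F.fixingSubgroup →* G × ((ZMod r₁)ˣ × (ZMod r₂)ˣ) :=
  (D.crossChar r₁ r₂).comp (Subgroup.inclusion hFK)

variable (F r₁ r₂ c) in
/-- The modulus of the crossed extension. -/
def crossModulus : Ideal (𝓞 F) :=
  Ideal.span {algebraMap (𝓞 K) (𝓞 F) c * ((r₁ : 𝓞 F) * r₂)}

variable (r₁ r₂) in
/-- Frobenius values extended multiplicatively to ideals. -/
def crossIdealChar (hFK : F.fixingSubgroup ≤ K.fixingSubgroup) (I : Ideal (𝓞 F)) :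
    G × ((ZMod r₁)ˣ × (ZMod r₂)ˣ) :=
  ((normalizedFactors I).map (frobVal (D.crossCharOn r₁ r₂ hFK))).prod

variable (r₁ r₂) in
/-- The transfer: the value of `π` at the norm, paired with the `G`-part of the crossed value. -/
def transfer (hFK : F.fixingSubgroup ≤ K.fixingSubgroup) (I : Ideal (𝓞 F)) : A × G :=
  (D.π (Ideal.relNorm (𝓞 K) I), (D.crossIdealChar r₁ r₂ hFK I).1)

omit [NumberField K] [NumberField F] in
/-- The modulus is nonzero. -/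
theorem crossModulus_ne_bot (hc0 : c ≠ 0) : crossModulus r₁ r₂ c F ≠ ⊥ := fun e =>
  mul_ne_zero ((map_ne_zero_iff _ (FaithfulSMul.algebraMap_injective _ _)).2 hc0)
    (mul_ne_zero (Nat.cast_ne_zero.2 (Fact.out : r₁.Prime).ne_zero)
      (Nat.cast_ne_zero.2 (Fact.out : r₂.Prime).ne_zero))
    (Ideal.span_singleton_eq_bot.1 e)

omit [NumberField K] [Fact r₁.Prime] in
/-- The modulus is proper. -/
theorem crossModulus_ne_top : crossModulus r₁ r₂ c F ≠ ⊤ := fun e => by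
  have h1 := congrArg Ideal.absNorm e
  rw [crossModulus, ← mul_assoc, Ideal.absNorm_span_singleton, map_mul, Int.natAbs_mul,
    Ideal.absNorm_top, mul_eq_one, show (r₂ : 𝓞 F) = algebraMap ℤ (𝓞 F) (r₂ : ℤ) by simp,
    Algebra.norm_algebraMap, Int.natAbs_pow, Int.natAbs_natCast, pow_eq_one_iff_left
      Module.finrank_pos.ne'] at h1
  exact (Fact.out : r₂.Prime).ne_one h1.2

omit [NumberField K] [Fact r₁.Prime] [Fact r₂.Prime] in
/-- A prime not dividing `c r₁ r₂` is prime to the modulus. -/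
theorem sup_crossModulus_eq_top {Q : Ideal (𝓞 F)} (hQ : Q.IsPrime) (hQ0 : Q ≠ ⊥)
    (h : algebraMap (𝓞 K) (𝓞 F) c * ((r₁ : 𝓞 F) * r₂) ∉ Q) : Q ⊔ crossModulus r₁ r₂ c F = ⊤ :=
  sup_eq_top_of_notMem hQ0 (Ideal.mem_span_singleton_self _) h

omit [NumberField K] [Fact r₁.Prime] in
/-- A prime prime to the modulus avoids `c`, `r₁` and `r₂`, and is nonzero. -/
theorem notMem_of_sup_crossModulus {Q : Ideal (𝓞 F)} (hQ : Q.IsPrime)
    (hQf : Q ⊔ crossModulus r₁ r₂ c F = ⊤) :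
    algebraMap (𝓞 K) (𝓞 F) c ∉ Q ∧ (r₁ : 𝓞 F) ∉ Q ∧ (r₂ : 𝓞 F) ∉ Q ∧ Q ≠ ⊥ := by
  have hzQ := notMem_of_sup_span_eq_top (show Q ⊔ Ideal.span {_} = ⊤ from hQf)
  exact ⟨fun h => hzQ (Ideal.mul_mem_right _ _ h),
    fun h => hzQ (Ideal.mul_mem_left _ _ (Ideal.mul_mem_right _ _ h)),
    fun h => hzQ (Ideal.mul_mem_left _ _ (Ideal.mul_mem_left _ _ h)),
    ne_bot_of_sup_eq_top crossModulus_ne_top hQf⟩

variable (hcf : c ∈ D.f)
  (hval : ∀ x : K, ((algebraMap K F x : F) : Qbar) = (x : Qbar))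

omit [Finite G] [Finite A] [Fact r₁.Prime] in
include hcf in
/-- Below a prime prime to the modulus lies a prime prime to `f`. -/
theorem under_sup_eq_top {Q : Ideal (𝓞 F)} (hQ : Q.IsPrime)
    (hQf : Q ⊔ crossModulus r₁ r₂ c F = ⊤) :
    Q.under (𝓞 K) ≠ ⊥ ∧ Q.under (𝓞 K) ⊔ D.f = ⊤ := by
  obtain ⟨hcQ, -, -, hQ0⟩ := notMem_of_sup_crossModulus hQ hQf
  have h0 : Q.under (𝓞 K) ≠ ⊥ := fun e => hQ0 (Ideal.eq_bot_of_comap_eq_bot e)
  exact ⟨h0, sup_eq_top_of_notMem h0 hcf fun h => hcQ (Ideal.mem_comap.1 h)⟩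

omit [Finite G] [Finite A] in
include hcf hval in
/-- The crossed character is unramified away from the modulus. -/
theorem isUnramifiedChar_crossCharOn {Q : Ideal (𝓞 F)} (hQ : Q.IsPrime)
    (hQf : Q ⊔ crossModulus r₁ r₂ c F = ⊤) :
    IsUnramifiedChar (D.crossCharOn r₁ r₂ hFK) Q := by
  intro B hB σ hσ
  obtain ⟨h1, h2⟩ := D.under_sup_eq_top hcf hQ hQf
  obtain ⟨-, hr₁Q, hr₂Q, hQ0⟩ := notMem_of_sup_crossModulus hQ hQf
  obtain ⟨q, hq, hqQ, -, -, -, hlies⟩ := PlaceOver.absNorm_eq_pow (A := B) hQ0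
  refine Prod.ext (D.unramified _ inferInstance h1 h2 B (PlaceOver.under hval hB) _ hσ)
    (Prod.ext ?_ ?_)
  · exact cycloChar_eq_one_of_mem_inertia hq (fun e => hr₁Q (by rw [← e]; exact hqQ)) (hlies hB) hσ
  · exact cycloChar_eq_one_of_mem_inertia hq (fun e => hr₂Q (by rw [← e]; exact hqQ)) (hlies hB) hσ

variable (hΦD : ∀ σ, D.crossCharOn r₁ r₂ hFK σ ∈ Dg)

omit [Finite G] [Finite A] in
include hcf hval hΦD in
/-- At a prime off the modulus the crossed Frobenius lies in `Dg` and has the norm as its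
cyclotomic values. -/
theorem frobVal_crossCharOn_spec {Q : Ideal (𝓞 F)} (hQ : Q.IsPrime)
    (hQf : Q ⊔ crossModulus r₁ r₂ c F = ⊤) :
    frobVal (D.crossCharOn r₁ r₂ hFK) Q ∈ Dg ∧
      ((frobVal (D.crossCharOn r₁ r₂ hFK) Q).2.1 : ZMod r₁) = (Ideal.absNorm Q : ZMod r₁) ∧
      ((frobVal (D.crossCharOn r₁ r₂ hFK) Q).2.2 : ZMod r₂) = (Ideal.absNorm Q : ZMod r₂) := by
  obtain ⟨-, hr₁Q, hr₂Q, hQ0⟩ := notMem_of_sup_crossModulus hQ hQf
  obtain ⟨t, ht⟩ := exists_isFrobOver hQ0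
  rw [frobVal_eq hQ0 (D.isUnramifiedChar_crossCharOn hcf hval hQ hQf) ht]
  obtain ⟨-, B, hB, hBt⟩ := id ht
  exact ⟨hΦD _, cycloChar_eq_natCast hBt fun h => hr₁Q ((hB _).2 (by simpa using h)),
    cycloChar_eq_natCast hBt fun h => hr₂Q ((hB _).2 (by simpa using h))⟩

omit [Finite G] [Finite A] in
include hcf hval hΦD in
/-- The crossed value of an ideal prime to the modulus lies in `Dg` and has the norm as its
cyclotomic values. -/
theorem crossIdealChar_spec {I : Ideal (𝓞 F)} (hI : I ⊔ crossModulus r₁ r₂ c F = ⊤) :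
    D.crossIdealChar r₁ r₂ hFK I ∈ Dg ∧
      ((D.crossIdealChar r₁ r₂ hFK I).2.1 : ZMod r₁) = (Ideal.absNorm I : ZMod r₁) ∧
      ((D.crossIdealChar r₁ r₂ hFK I).2.2 : ZMod r₂) = (Ideal.absNorm I : ZMod r₂) := by
  have hmem : ∀ Q ∈ normalizedFactors I, Q.IsPrime ∧ Q ⊔ crossModulus r₁ r₂ c F = ⊤ :=
    fun Q hQ => ⟨Ideal.isPrime_of_prime (prime_of_normalized_factor Q hQ), eq_top_iff.2 (hI ▸
      sup_le_sup_right (Ideal.le_of_dvd (dvd_of_mem_normalizedFactors hQ)) _)⟩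
  have key : ∀ s : Multiset (Ideal (𝓞 F)),
      (∀ Q ∈ s, Q.IsPrime ∧ Q ⊔ crossModulus r₁ r₂ c F = ⊤) →
      (s.map (frobVal (D.crossCharOn r₁ r₂ hFK))).prod ∈ Dg ∧
      ((s.map (frobVal (D.crossCharOn r₁ r₂ hFK))).prod.2.1 : ZMod r₁) =
        (Ideal.absNorm s.prod : ZMod r₁) ∧
      ((s.map (frobVal (D.crossCharOn r₁ r₂ hFK))).prod.2.2 : ZMod r₂) =
        (Ideal.absNorm s.prod : ZMod r₂) := by
    intro s hs
    induction s using Multiset.induction_on with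
    | empty => simp [Dg.one_mem]
    | cons Q s ih =>
      obtain ⟨h1, h2, h3⟩ := ih fun x hx => hs x (Multiset.mem_cons_of_mem hx)
      obtain ⟨e1, e2, e3⟩ := D.frobVal_crossCharOn_spec hcf hval hΦD
        (hs Q (Multiset.mem_cons_self _ _)).1 (hs Q (Multiset.mem_cons_self _ _)).2
      simp only [Multiset.map_cons, Multiset.prod_cons, map_mul, Nat.cast_mul]
      exact ⟨Dg.mul_mem e1 h1, by rw [Prod.snd_mul, Prod.fst_mul, Units.val_mul, e2, h2],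
        by rw [Prod.snd_mul, Prod.snd_mul, Units.val_mul, e3, h3]⟩
  have := key _ hmem
  rwa [Ideal.prod_normalizedFactors_eq_self (ne_bot_of_sup_eq_top crossModulus_ne_top hI)] at this

variable (hkey : ∀ d ∈ Dg, d.2 = 1 → d.1 = 1)

include hcf hval hΦD hkey in
omit [Finite G] [Finite A] in
/-- The `G`-part of the crossed value kills the ray; for odd `l` signs do not matter. -/
theorem crossIdealChar_span_fst {a : 𝓞 F} (ha : a - 1 ∈ crossModulus r₁ r₂ c F) :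
    (D.crossIdealChar r₁ r₂ hFK (Ideal.span {a})).1 = 1 := by
  have hspan : Ideal.span {a} ⊔ crossModulus r₁ r₂ c F = ⊤ := by
    rw [Ideal.eq_top_iff_one, show (1 : 𝓞 F) = a - (a - 1) by ring]
    exact Ideal.sub_mem _ (Ideal.mem_sup_left (Ideal.mem_span_singleton_self a))
      (Ideal.mem_sup_right ha)
  obtain ⟨h1, h2, h3⟩ := D.crossIdealChar_spec hcf hval hΦD hspan
  have hr₁a : a - 1 ∈ Ideal.span {(r₁ : 𝓞 F)} := Ideal.span_singleton_le_span_singleton.2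
    (Dvd.intro_left _ (by rw [mul_left_comm, mul_comm])) ha
  have hr₂a : a - 1 ∈ Ideal.span {(r₂ : 𝓞 F)} := Ideal.span_singleton_le_span_singleton.2
    (Dvd.intro_left _ (by rw [← mul_assoc])) ha
  rcases D.inf with hC | hl2
  · have := hC
    have : IsTotallyComplex F := NumberField.isTotallyComplex_of_algebra K F
    refine hkey _ h1 (Prod.ext (Units.ext ?_) (Units.ext ?_))
    · rw [h2]; exact absNorm_span_eq_one hr₁a
    · rw [h3]; exact absNorm_span_eq_one hr₂a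
  · have hsq := hkey _ (Dg.pow_mem h1 2) (by
      rw [Prod.pow_snd]
      refine Prod.ext (Units.ext ?_) (Units.ext ?_)
      · rw [Prod.pow_fst, Units.val_pow_eq_pow_val, h2]; exact absNorm_span_sq_eq_one hr₁a
      · rw [Prod.pow_snd, Units.val_pow_eq_pow_val, h3]; exact absNorm_span_sq_eq_one hr₂a)
    rw [Prod.pow_fst] at hsq
    have hd := Nat.dvd_gcd (orderOf_dvd_of_pow_eq_one hsq)
      (orderOf_dvd_natCard (D.crossIdealChar r₁ r₂ hFK (Ideal.span {a})).1)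
    have hg1 : Nat.gcd 2 (Nat.card G) = 1 := by
      rw [D.natCard_eq]
      exact Nat.Coprime.pow_right _ ((Nat.coprime_primes Nat.prime_two D.hl).2 (Ne.symm hl2))
    rw [hg1, Nat.dvd_one, orderOf_eq_one_iff] at hd
    exact hd

variable [IsScalarTower ℚ K F]

include hcf hval hΦD hkey in
omit [Finite G] [Finite A] in
/-- The transfer is a ray homomorphism for the modulus of the crossed extension. -/
theorem isRayHom_transfer (hc0 : c ≠ 0) :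
    IsRayHom (crossModulus r₁ r₂ c F) (D.transfer r₁ r₂ hFK) := by
  have hcz : crossModulus r₁ r₂ c F ≤ Ideal.span {algebraMap (𝓞 K) (𝓞 F) c} :=
    Ideal.span_singleton_le_span_singleton.2 (dvd_mul_right _ _)
  have hrel : ∀ I : Ideal (𝓞 F), I ⊔ crossModulus r₁ r₂ c F = ⊤ →
      Ideal.relNorm (𝓞 K) I ⊔ D.f = ⊤ := fun I hI =>
    relNorm_sup_eq_top hcf (eq_top_iff.2 (hI ▸ sup_le_sup_left hcz I))
  refine ⟨crossModulus_ne_bot hc0, fun I J hI0 hJ0 hI hJ => Prod.ext ?_ ?_,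
    fun a ha0 ha => Prod.ext ?_ (D.crossIdealChar_span_fst hcf hval hΦD hkey ha)⟩
  · show D.π (Ideal.relNorm (𝓞 K) (I * J)) = _
    rw [map_mul]
    exact D.ray.map_mul _ _ (Ideal.relNorm_eq_bot_iff.not.2 hI0)
      (Ideal.relNorm_eq_bot_iff.not.2 hJ0) (hrel I hI) (hrel J hJ)
  · show (D.crossIdealChar r₁ r₂ hFK (I * J)).1 =
      (D.crossIdealChar r₁ r₂ hFK I).1 * (D.crossIdealChar r₁ r₂ hFK J).1
    simp only [crossIdealChar]
    rw [normalizedFactors_mul hI0 hJ0, Multiset.map_add, Multiset.prod_add, Prod.fst_mul]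
  · show D.π (Ideal.relNorm (𝓞 K) (Ideal.span {a})) = 1
    rw [Ideal.relNorm_singleton]
    exact D.ray.map_span _ (Algebra.intNorm_ne_zero.2 ha0)
      ((Ideal.span_singleton_le_iff_mem _).2 hcf (intNorm_sub_one_mem (hcz ha)))

omit [Finite G] [Finite A] in
include hcf hval in
omit [IsScalarTower ℚ K F] in
/-- The transfer at a prime of degree one over `K`. -/
theorem transfer_eq_of_absNorm_eq {Q : Ideal (𝓞 F)} {t : GalQ} (hQ : Q.IsPrime)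
    (hQf : Q ⊔ crossModulus r₁ r₂ c F = ⊤) (ht : IsFrobOver F Q t)
    (hN : Ideal.absNorm Q = Ideal.absNorm (Q.under (𝓞 K))) :
    D.transfer r₁ r₂ hFK Q = (D.π (Q.under (𝓞 K)), D.χ ⟨t, hFK ht.1⟩) ∧
      ∃ h : IsFrobOver K (Q.under (𝓞 K)) t, frobVal D.χ (Q.under (𝓞 K)) = D.χ ⟨t, h.1⟩ := by
  obtain ⟨h1, h2⟩ := D.under_sup_eq_top hcf hQ hQf
  obtain ⟨-, -, -, hQ0⟩ := notMem_of_sup_crossModulus hQ hQf
  have : Q.LiesOver (Q.under (𝓞 K)) := ⟨rfl⟩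
  obtain ⟨htF, B, hB, hBt⟩ := id ht
  have hK : IsFrobOver K (Q.under (𝓞 K)) t := ⟨hFK htF, B, PlaceOver.under hval hB, hN ▸ hBt⟩
  refine ⟨Prod.ext ?_ ?_, hK, frobVal_eq h1 (D.unramified _ inferInstance h1 h2) hK⟩
  · show D.π (Ideal.relNorm (𝓞 K) Q) = _
    rw [relNorm_eq_of_absNorm_eq h1 hN]
  · show (D.crossIdealChar r₁ r₂ hFK Q).1 = _
    simp only [crossIdealChar]
    rw [normalizedFactors_irreducible (Ideal.prime_of_isPrime hQ0 hQ).irreducible,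
      normalize_eq, Multiset.map_singleton, Multiset.prod_singleton,
      frobVal_eq hQ0 (D.isUnramifiedChar_crossCharOn hcf hval hQ hQf) ht]
    rfl

variable {L₁ : IntermediateField ℚ Qbar} [FiniteDimensional ℚ L₁] (hFL₁ : F ≤ L₁)
  (hL₁Φ : ∀ σ (hσ : σ ∈ K.fixingSubgroup), (∀ x ∈ L₁, σ x = x) →
    D.crossChar r₁ r₂ ⟨σ, hσ⟩ = 1)

include hcf hval hFK hFL₁ hL₁Φ in
omit [IsScalarTower ℚ K F] in
/-- **The second inequality for the transfer**: its image has at most `#G` elements. -/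
theorem natCard_le_of_transfer {H : Subgroup (A × G)} {π' : Ideal (𝓞 F) → H}
    (hπ'val : ∀ I, I ⊔ crossModulus r₁ r₂ c F = ⊤ → (π' I : A × G) = D.transfer r₁ r₂ hFK I)
    (hπ' : IsRayHom (crossModulus r₁ r₂ c F) π')
    (hsurj : ∀ x : H, ∃ I, I ≠ ⊥ ∧ I ⊔ crossModulus r₁ r₂ c F = ⊤ ∧ π' I = x) :
    Nat.card H ≤ Nat.card G := by
  let χF : F.fixingSubgroup →* G := D.χ.comp (Subgroup.inclusion hFK)
  let Δ₀ : Subgroup GalQ := χF.ker.map F.fixingSubgroup.subtype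
  have hL₁Δ₀ : L₁.fixingSubgroup ≤ Δ₀ := fun σ hσ => by
    have hσF : σ ∈ F.fixingSubgroup := IntermediateField.fixingSubgroup_le hFL₁ hσ
    exact ⟨⟨σ, hσF⟩, (congrArg Prod.fst (hL₁Φ σ (hFK hσF) fun x hx => hσ ⟨x, hx⟩) :), rfl⟩
  obtain ⟨M, hM, hMfix, -⟩ := exists_fixingSubgroup_eq hL₁Δ₀
  have := hM
  have : NumberField M := { }
  have hFM : F ≤ M := by
    rw [← InfiniteGalois.fixedField_fixingSubgroup F, ← InfiniteGalois.fixedField_fixingSubgroup M,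
      hMfix]
    exact fun x hx ⟨σ, hσ⟩ => hx ⟨σ, Subgroup.map_subtype_le _ hσ⟩
  let : Algebra F M := (IntermediateField.inclusion hFM).toRingHom.toAlgebra
  have : IsScalarTower ℚ F M := IsScalarTower.of_algebraMap_eq fun _ => rfl
  have hvalM : ∀ x : F, ((algebraMap F M x : M) : Qbar) = (x : Qbar) := fun _ => rfl
  refine le_trans (card_le_finrank_of_split (M := M) hπ' hsurj one_ne_zero ?_)
    (finrank_le_natCard hvalM χF fun σ hσ => hMfix.symm ▸ ⟨σ, hσ, rfl⟩)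
  intro p R Q hp _ hR hRQ hNR hNQ hQf
  have hR0 : R ≠ ⊥ := fun e => by
    rw [e, Ideal.absNorm_bot] at hNR
    exact hp.ne_zero hNR.symm
  obtain ⟨t, ht⟩ := exists_isFrobOver hR0
  obtain ⟨htM, B, hB, hBt⟩ := ht
  have htF : IsFrobOver F Q.1 t := ⟨IntermediateField.fixingSubgroup_le hFM htM, B,
    hRQ ▸ PlaceOver.under hvalM hB, by rw [hNQ, ← hNR]; exact hBt⟩
  obtain ⟨σ, hσ, hσt⟩ := (hMfix ▸ htM : t ∈ Δ₀)
  have hχt : D.χ ⟨t, hFK htF.1⟩ = 1 := by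
    have : σ = (⟨t, htF.1⟩ : F.fixingSubgroup) := Subtype.ext hσt
    subst this
    exact hσ
  have := Q.2.1
  obtain ⟨h1, h2⟩ := D.under_sup_eq_top hcf Q.2.1 hQf
  obtain ⟨e, hK, efr⟩ := D.transfer_eq_of_absNorm_eq (hFK := hFK) hcf hval Q.2.1 hQf htF
    (by rw [hNQ, absNorm_under_eq hp Q.2.2 hNQ])
  refine Subtype.ext ?_
  rw [hπ'val _ hQf, e, hχt, Subgroup.coe_one]
  refine Prod.ext ?_ rfl
  have hk := D.killed _ inferInstance h1 h2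
  rw [efr, show D.χ ⟨t, hK.1⟩ = 1 from hχt, orderOf_one, pow_one] at hk
  exact hk

include hcf hval hΦD hkey hFL₁ hL₁Φ in
/-- The `A`-part of the transfer is a function of its `G`-part, given by a homomorphism. -/
theorem exists_transfer_factor [IsGalois ℚ L₁] (hc0 : c ≠ 0)
    (hreal : ∀ x : G, ∃ σ, ∃ h : σ ∈ F.fixingSubgroup, D.χ ⟨σ, hFK h⟩ = x) :
    ∃ μ : G →* A, ∀ I, I ⊔ crossModulus r₁ r₂ c F = ⊤ →
      (D.transfer r₁ r₂ hFK I).1 = μ (D.transfer r₁ r₂ hFK I).2 := by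
  obtain ⟨H, π', hπ'val, hπ', hsurj⟩ :=
    (D.isRayHom_transfer hcf hval hΦD hkey hc0).exists_corestrict crossModulus_ne_top
  let pr : H →* G := (MonoidHom.snd A G).comp H.subtype
  have hprs : Function.Surjective pr := by
    intro x
    obtain ⟨σ, hσ, rfl⟩ := hreal x
    obtain ⟨p, Q, t, hp, hpB, hQ, hQ0, hNQ, ht, htσ⟩ := exists_degreeOne_frobenius (F := F) L₁
      hFL₁ σ hσ (B := Ideal.absNorm (crossModulus r₁ r₂ c F))
      (fun e => crossModulus_ne_bot hc0 (Ideal.absNorm_eq_zero_iff.1 e))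
    have hQf : Q ⊔ crossModulus r₁ r₂ c F = ⊤ := sup_crossModulus_eq_top hQ hQ0 fun h => hpB (by
      rw [← hNQ]
      exact Ideal.absNorm_dvd_absNorm_of_le ((Ideal.span_singleton_le_iff_mem _).2 h))
    obtain ⟨e, -⟩ := D.transfer_eq_of_absNorm_eq (hFK := hFK) hcf hval hQ hQf ht
      (by rw [hNQ, absNorm_under_eq hp hQ0 hNQ])
    refine ⟨π' Q, ?_⟩
    show ((π' Q : H) : A × G).2 = _
    rw [hπ'val _ hQf, e]
    show D.χ _ = D.χ _
    rw [← inv_mul_eq_one, ← map_inv, ← map_mul]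
    refine (congrArg Prod.fst (hL₁Φ (t⁻¹ * σ) (mul_mem (inv_mem (hFK ht.1)) (hFK hσ))
      fun y hy => ?_) :)
    rw [AlgEquiv.mul_apply, ← htσ y hy]
    exact t.symm_apply_apply y
  have hprb : Function.Bijective pr :=
    (Nat.bijective_iff_surjective_and_card pr).2
      ⟨hprs, le_antisymm (D.natCard_le_of_transfer hcf hval hFL₁ hL₁Φ hπ'val hπ' hsurj)
        (Nat.card_le_card_of_surjective pr hprs)⟩
  let e' := MulEquiv.ofBijective pr hprb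
  refine ⟨((MonoidHom.fst A G).comp H.subtype).comp e'.symm.toMonoidHom, fun I hI => ?_⟩
  have h1 : pr (π' I) = (D.transfer r₁ r₂ hFK I).2 := congrArg Prod.snd (hπ'val I hI)
  show _ = (((e'.symm (D.transfer r₁ r₂ hFK I).2) : H) : A × G).1
  rw [← h1, show e'.symm (pr (π' I)) = π' I from e'.symm_apply_apply _, hπ'val I hI]

end Over

attribute [local instance high] Algebra.toSMul in
/-- A prime of `K` of norm prime to `c r₁ r₂` with a Frobenius element over `F` lifts to a prime of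
the same norm prime to the modulus. -/
theorem exists_prime_over_of_frobenius {r₁ r₂ : ℕ} [Fact r₁.Prime] [Fact r₂.Prime] {c : 𝓞 K}
    {F : IntermediateField ℚ Qbar} [NumberField F] [Algebra K F] [IsScalarTower ℚ K F]
    (hval : ∀ x : K, ((algebraMap K F x : F) : Qbar) = (x : Qbar)) {P : Ideal (𝓞 K)} [P.IsPrime]
    (hP : P ≠ ⊥) (hcP : c ∉ P) (h₁ : (r₁ : 𝓞 K) ∉ P) (h₂ : (r₂ : 𝓞 K) ∉ P) {t : GalQ}
    (ht : IsFrobOver K P t) (htF : t ∈ F.fixingSubgroup) :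
    ∃ Q : Ideal (𝓞 F), Q.IsPrime ∧ Q.under (𝓞 K) = P ∧ IsFrobOver F Q t ∧
      Ideal.absNorm Q = Ideal.absNorm P ∧ Q ⊔ crossModulus r₁ r₂ c F = ⊤ := by
  obtain ⟨Q, hQ, hQ0, hQP, hQt, hNQ⟩ := exists_prime_over_frobenius hval hP ht htF
  refine ⟨Q, hQ, hQP, hQt, hNQ, sup_crossModulus_eq_top hQ hQ0 fun h => ?_⟩
  have hmem : ∀ y : 𝓞 K, algebraMap (𝓞 K) (𝓞 F) y ∈ Q → y ∈ P := fun y hy =>
    hQP ▸ Ideal.mem_comap.2 hy
  rcases hQ.mem_or_mem h with h' | h'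
  · exact hcP (hmem _ h')
  · rcases hQ.mem_or_mem h' with h'' | h''
    · exact h₁ (hmem _ (by rwa [map_natCast]))
    · exact h₂ (hmem _ (by rwa [map_natCast]))

/-- The crossing with auxiliary cyclotomic fields at one prime. -/
theorem exists_local_iso (P₀ : Ideal (𝓞 K)) [P₀.IsPrime] (hP₀ : P₀ ≠ ⊥) (hP₀f : P₀ ⊔ D.f = ⊤)
    (L : IntermediateField ℚ Qbar) [FiniteDimensional ℚ L] :
    ∃ (Γ : Subgroup GalQ) (L₁ : IntermediateField ℚ Qbar) (μ : G →* A) (B : ℕ),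
      FiniteDimensional ℚ L₁ ∧ L₁.fixingSubgroup ≤ Γ ∧ Γ ≤ K.fixingSubgroup ∧ B ≠ 0 ∧
      D.π P₀ = μ (frobVal D.χ P₀) ∧
      (∀ (P : Ideal (𝓞 K)) (q : ℕ) (g : GalQ) (hg : IsFrobOver K P g), P.IsPrime → P ≠ ⊥ →
        q.Prime → Ideal.absNorm P = q → ¬ q ∣ B → g ∈ Γ → D.π P = μ (D.χ ⟨g, hg.1⟩)) ∧
      ∀ σ₀ ∈ K.fixingSubgroup, ∃ σ ∈ Γ, ∀ x ∈ L, σ x = σ₀ x := by
  obtain ⟨L₀, hL₀, hχ0⟩ := D.level
  have := hL₀
  obtain ⟨S, hS⟩ := exists_fixing_cycloChar (L ⊔ L₀ ⊔ K)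
  obtain ⟨g₀, hg₀⟩ := exists_isFrobOver hP₀
  obtain ⟨hg₀K, A₀, hA₀, hA₀g⟩ := id hg₀
  obtain ⟨q₀, hq₀, hq₀P, j₀, hj₀, hN₀, -⟩ := PlaceOver.absNorm_eq_pow (A := A₀) hP₀
  have hq2 : 2 ≤ Ideal.absNorm P₀ := hN₀ ▸ hq₀.two_le.trans (Nat.le_self_pow (by omega) _)
  obtain ⟨r₁, r₂, hr₁, hr₂, hne, hr₁B, hr₂B, hq1, hq2', g, hg⟩ :=
    exists_auxiliary D.hl D.k hq2 (S.sup id)
  have : Fact r₁.Prime := ⟨hr₁⟩
  have : Fact r₂.Prime := ⟨hr₂⟩
  have hS' : ∀ {r}, S.sup id < r → r ∉ S := fun hr h =>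
    absurd (Finset.le_sup (f := id) h) (not_le.2 hr)
  obtain ⟨c, hcf, hcP⟩ : ∃ c ∈ D.f, c ∉ P₀ := by
    by_contra hno
    push Not at hno
    exact Ideal.IsPrime.ne_top inferInstance (eq_top_iff.2 (hP₀f ▸ sup_le le_rfl hno))
  have hc0 : c ≠ 0 := fun h => hcP (h ▸ P₀.zero_mem)
  set φ₀ := frobVal D.χ P₀
  set u₁ : (ZMod r₁)ˣ := Units.mk0 _ hq1
  set u₂ : (ZMod r₂)ˣ := Units.mk0 _ hq2'
  have hkey := D.fst_eq_one_of_mem_closure_pair r₁ r₂ (φ := φ₀) (hg u₁ u₂ rfl rfl)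
  obtain ⟨L₁, F, hL₁, hL₁g, hF, hKF, hFL₁, hL₁Φ, hFmem, hreal⟩ := D.exists_crossing_field r₁ r₂ L L₀
    hχ0 (hS r₁ r₂ (hS' hr₁B) (hS' hr₂B) hne) g
    (Subgroup.closure {(D.τ, (1, g)), (φ₀, (u₁, u₂))})
      (Subgroup.subset_closure (Set.mem_insert _ _))
  have := hL₁
  have := hL₁g
  have := hF
  have : NumberField F := { }
  let : Algebra K F := (IntermediateField.inclusion hKF).toRingHom.toAlgebra
  have : IsScalarTower ℚ K F := IsScalarTower.of_algebraMap_eq fun _ => rfl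
  have hval : ∀ x : K, ((algebraMap K F x : F) : Qbar) = (x : Qbar) := fun _ => rfl
  have hFK : F.fixingSubgroup ≤ K.fixingSubgroup := fun σ hσ => ((hFmem σ).1 hσ).1
  obtain ⟨μ, hμ⟩ := D.exists_transfer_factor (hFK := hFK) hcf hval
    (fun σ => ((hFmem σ.1).1 σ.2).2) hkey hFL₁ hL₁Φ hc0 fun x => by
      obtain ⟨⟨σ₀, hσ₀⟩, rfl⟩ := D.hχ x
      obtain ⟨σ, hσ, -, hσχ⟩ := hreal σ₀ hσ₀
      exact ⟨σ, hσ, hσχ _⟩
  have hdeg : ∀ (P : Ideal (𝓞 K)) [P.IsPrime], P ≠ ⊥ → c ∉ P → (r₁ : 𝓞 K) ∉ P → (r₂ : 𝓞 K) ∉ P →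
      ∀ t (ht : IsFrobOver K P t), t ∈ F.fixingSubgroup → D.π P = μ (D.χ ⟨t, ht.1⟩) := by
    intro P _ hP hc h₁ h₂ t ht htF
    obtain ⟨Q, hQ, hQP, hQt, hNQ, hQf⟩ := exists_prime_over_of_frobenius hval hP hc h₁ h₂ ht htF
    obtain ⟨e, -⟩ := D.transfer_eq_of_absNorm_eq (hFK := hFK) hcf hval hQ hQf hQt
      (by rw [hQP]; exact hNQ)
    have := hμ Q hQf
    rw [e, hQP] at this
    exact this
  refine ⟨F.fixingSubgroup, L₁, μ, Ideal.absNorm (Ideal.span {c}) * (r₁ * r₂), hL₁,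
    IntermediateField.fixingSubgroup_le hFL₁, hFK, ?_, ?_, ?_, fun σ₀ hσ₀ => ?_⟩
  · exact mul_ne_zero (fun e => hc0 (Ideal.span_singleton_eq_bot.1
      (Ideal.absNorm_eq_zero_iff.1 e))) (mul_ne_zero hr₁.ne_zero hr₂.ne_zero)
  · have hrP : ∀ r : ℕ, (Ideal.absNorm P₀ : ZMod r) ≠ 0 → r.Prime → (r : 𝓞 K) ∉ P₀ :=
      fun r hrq hr h => hrq ((ZMod.natCast_eq_zero_iff _ _).2 (hN₀ ▸
        ((Nat.prime_dvd_prime_iff_eq hq₀ hr).1 (dvd_of_natCast_mem hq₀ hq₀P h)) ▸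
          dvd_pow_self q₀ (by omega)))
    have hφ : D.χ ⟨g₀, hg₀K⟩ = φ₀ :=
      (frobVal_eq hP₀ (D.unramified _ inferInstance hP₀ hP₀f) hg₀).symm
    have hΦ₀ : D.crossChar r₁ r₂ ⟨g₀, hg₀K⟩ = (φ₀, (u₁, u₂)) := by
      refine Prod.ext hφ (Prod.ext (Units.ext ?_) (Units.ext ?_))
      · exact cycloChar_eq_natCast hA₀g fun h => hrP r₁ hq1 hr₁ ((hA₀ _).2 (by simpa using h))
      · exact cycloChar_eq_natCast hA₀g fun h => hrP r₂ hq2' hr₂ ((hA₀ _).2 (by simpa using h))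
    exact (hdeg P₀ hP₀ hcP (hrP r₁ hq1 hr₁) (hrP r₂ hq2' hr₂) g₀ hg₀ ((hFmem g₀).2 ⟨hg₀K,
      hΦ₀ ▸ Subgroup.subset_closure (Set.mem_insert_of_mem _ rfl)⟩)).trans (congrArg μ hφ)
  · intro P p t ht hP hP0 hp hNP hpB htΔ
    have hdvd : ∀ y ∈ P, p ∣ Ideal.absNorm (Ideal.span {y}) := fun y hy =>
      hNP ▸ Ideal.absNorm_dvd_absNorm_of_le ((Ideal.span_singleton_le_iff_mem _).2 hy)
    have hr : ∀ r : ℕ, r.Prime → (r : 𝓞 K) ∈ P → p ∣ r := fun r hr hrP => by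
      have h1 := hdvd _ hrP
      rw [Ideal.absNorm_span_singleton, show (r : 𝓞 K) = algebraMap ℤ (𝓞 K) (r : ℤ) by simp,
        Algebra.norm_algebraMap, Int.natAbs_pow, Int.natAbs_natCast] at h1
      exact hp.dvd_of_dvd_pow h1
    exact hdeg P hP0 (fun h => hpB ((hdvd c h).trans (dvd_mul_right _ _)))
      (fun h => hpB ((hr r₁ hr₁ h).trans ((dvd_mul_right _ _).trans (dvd_mul_left _ _))))
      (fun h => hpB ((hr r₂ hr₂ h).trans ((dvd_mul_left _ _).trans (dvd_mul_left _ _)))) t ht htΔ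
  · obtain ⟨σ, hσ, hσL, -⟩ := hreal σ₀ hσ₀
    exact ⟨σ, hσ, hσL⟩

omit [Finite G] [Finite A] in
/-- Homomorphisms out of `G` are determined by their value at `τ`. -/
theorem hom_eq_of_apply_eq {H : Type} [Group H] {φ φ' : G →* H} (h : φ D.τ = φ' D.τ) : φ = φ' := by
  refine MonoidHom.ext fun x => ?_
  obtain ⟨i, rfl⟩ := D.hτ x
  simp only [map_zpow, h]

omit [Finite G] [Finite A] in
/-- `χ` only depends on the action on a level field. -/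
theorem chi_eq_of_agree {L : IntermediateField ℚ Qbar}
    (hL : ∀ σ : K.fixingSubgroup, (∀ x ∈ L, (σ : GalQ) x = x) → D.χ σ = 1) {σ σ' : GalQ}
    (hσ : σ ∈ K.fixingSubgroup) (hσ' : σ' ∈ K.fixingSubgroup) (h : ∀ x ∈ L, σ x = σ' x) :
    D.χ ⟨σ, hσ⟩ = D.χ ⟨σ', hσ'⟩ := by
  rw [← inv_mul_eq_one, ← map_inv, ← map_mul]
  refine hL _ fun x hx => ?_
  show (σ⁻¹ * σ') x = x
  rw [AlgEquiv.mul_apply, ← h x hx]
  exact σ.symm_apply_apply x

/-- One isomorphism works at every prime. -/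
theorem exists_hom : ∃ μ : G →* A, ∀ P : Ideal (𝓞 K), P.IsPrime → P ≠ ⊥ → P ⊔ D.f = ⊤ →
    D.π P = μ (frobVal D.χ P) := by
  by_cases hex : ∃ P : Ideal (𝓞 K), P.IsPrime ∧ P ≠ ⊥ ∧ P ⊔ D.f = ⊤
  swap
  · exact ⟨1, fun P h1 h2 h3 => absurd ⟨P, h1, h2, h3⟩ hex⟩
  obtain ⟨P₁, hP₁, hP₁0, hP₁f⟩ := hex
  obtain ⟨L₀, hL₀, hχ0⟩ := D.level
  have := hL₀
  obtain ⟨Γ₁, L₁, μ₁, B₁, hL₁, hL₁Γ, hΓ₁K, hB₁, -, hdeg₁, hreal₁⟩ :=
    D.exists_local_iso P₁ hP₁0 hP₁f L₀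
  have := hL₁
  refine ⟨μ₁, fun P₂ hP₂ hP₂0 hP₂f => ?_⟩
  obtain ⟨Γ₂, L₂, μ₂, B₂, hL₂, hL₂Γ, hΓ₂K, hB₂, hat₂, hdeg₂, hreal₂⟩ :=
    D.exists_local_iso P₂ hP₂0 hP₂f (L₁ ⊔ L₀)
  have := hL₂
  -- an element of both groups with value `τ`
  obtain ⟨⟨s, hs⟩, hsτ⟩ := D.hχ D.τ
  obtain ⟨σ, hσΓ, hσs⟩ := hreal₁ s hs
  obtain ⟨σ₂, hσ₂Γ, hσ₂σ⟩ := hreal₂ σ (hΓ₁K hσΓ)
  have hσ₂Γ₁ : σ₂ ∈ Γ₁ := by
    have h1 : σ⁻¹ * σ₂ ∈ L₁.fixingSubgroup := fun x => by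
      show (σ⁻¹ * σ₂) (x : Qbar) = x
      rw [AlgEquiv.mul_apply, hσ₂σ _ ((le_sup_left : L₁ ≤ L₁ ⊔ L₀) x.2)]
      exact σ.symm_apply_apply _
    simpa using Γ₁.mul_mem hσΓ (hL₁Γ h1)
  have hτ₂ : D.χ ⟨σ₂, hΓ₂K hσ₂Γ⟩ = D.τ := by
    rw [D.chi_eq_of_agree hχ0 (hΓ₂K hσ₂Γ) hs fun x hx =>
      (hσ₂σ x ((le_sup_right : L₀ ≤ L₁ ⊔ L₀) hx)).trans (hσs x hx), hsτ]
  obtain ⟨L₃, hL₃, hL₃g, hle⟩ := exists_galois_level (L₁ ⊔ L₂ ⊔ L₀ ⊔ K)
  have := hL₃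
  have := hL₃g
  obtain ⟨q, P, t, hq, hqB, hP, hP0, hNP, ht, htσ⟩ := exists_degreeOne_frobenius (F := K) L₃
    (le_trans le_sup_right hle) σ₂ (hΓ₂K hσ₂Γ) (B := B₁ * B₂) (mul_ne_zero hB₁ hB₂)
  have hmem : ∀ (Γ : Subgroup GalQ) (L : IntermediateField ℚ Qbar), L ≤ L₃ →
      L.fixingSubgroup ≤ Γ → σ₂ ∈ Γ → t ∈ Γ := fun Γ L hLle hLΓ hσΓ' => by
    have h1 : σ₂⁻¹ * t ∈ L.fixingSubgroup := fun x => by
      show (σ₂⁻¹ * t) (x : Qbar) = x
      rw [AlgEquiv.mul_apply, htσ _ (hLle x.2)]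
      exact σ₂.symm_apply_apply _
    simpa using Γ.mul_mem hσΓ' (hLΓ h1)
  have ht₁ := hmem Γ₁ L₁ (le_trans (le_trans le_sup_left
    (le_trans le_sup_left le_sup_left)) hle) hL₁Γ hσ₂Γ₁
  have ht₂ := hmem Γ₂ L₂ (le_trans (le_trans le_sup_right
    (le_trans le_sup_left le_sup_left)) hle) hL₂Γ hσ₂Γ
  have hχt : D.χ ⟨t, ht.1⟩ = D.τ := by
    rw [D.chi_eq_of_agree hχ0 ht.1 (hΓ₂K hσ₂Γ) fun x hx =>
      htσ x (le_trans (le_trans le_sup_right le_sup_left) hle hx), hτ₂]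
  have e1 := hdeg₁ P q t ht hP hP0 hq hNP (fun h => hqB (h.trans (dvd_mul_right _ _))) ht₁
  have e2 := hdeg₂ P q t ht hP hP0 hq hNP (fun h => hqB (h.trans (dvd_mul_left _ _))) ht₂
  rw [hχt] at e1 e2
  rw [hat₂, D.hom_eq_of_apply_eq (e2.symm.trans e1)]

/-- The map to `A` is a quotient of the Galois group. -/
theorem exists_hom_surjective
    (hsurj : ∀ a : A, ∃ I : Ideal (𝓞 K), I ≠ ⊥ ∧ I ⊔ D.f = ⊤ ∧ D.π I = a) :
    ∃ μ : G →* A, (∀ P : Ideal (𝓞 K), P.IsPrime → P ≠ ⊥ → P ⊔ D.f = ⊤ →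
      D.π P = μ (frobVal D.χ P)) ∧ Function.Surjective μ := by
  obtain ⟨μ, hμ⟩ := D.exists_hom
  have hrange : ∀ s : Multiset (Ideal (𝓞 K)),
      (∀ P ∈ s, P.IsPrime ∧ P ≠ ⊥ ∧ P ⊔ D.f = ⊤) →
      D.π s.prod ∈ μ.range ∧ s.prod ⊔ D.f = ⊤ ∧ s.prod ≠ ⊥ := by
    intro s hs
    induction s using Multiset.induction_on with
    | empty =>
      rw [Multiset.prod_zero, D.ray.map_one]
      exact ⟨one_mem _, one_sup_eq_top, one_ne_bot⟩
    | cons Q s ih =>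
      obtain ⟨h1, h2, h3⟩ := hs Q (Multiset.mem_cons_self _ _)
      obtain ⟨h4, h5, h6⟩ := ih fun x hx => hs x (Multiset.mem_cons_of_mem hx)
      rw [Multiset.prod_cons, D.ray.map_mul _ _ h2 h6 h3 h5, hμ Q h1 h2 h3]
      exact ⟨mul_mem ⟨_, rfl⟩ h4, mul_sup_eq_top_iff.2 ⟨h3, h5⟩, mul_ne_zero h2 h6⟩
  have hμs : Function.Surjective μ := by
    intro a
    obtain ⟨I, hI0, hIf, rfl⟩ := hsurj a
    have h := hrange (normalizedFactors I) fun Q hQ => by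
      have hp := prime_of_normalized_factor Q hQ
      exact ⟨Ideal.isPrime_of_prime hp, hp.ne_zero, eq_top_iff.2 (hIf ▸
        sup_le_sup_right (Ideal.le_of_dvd (dvd_of_mem_normalizedFactors hQ)) D.f)⟩
    rw [Ideal.prod_normalizedFactors_eq_self hI0] at h
    exact h.1
  exact ⟨μ, hμ, hμs⟩

/-- The second inequality. -/
theorem natCard_le (hsurj : ∀ a : A, ∃ I : Ideal (𝓞 K), I ≠ ⊥ ∧ I ⊔ D.f = ⊤ ∧ D.π I = a) :
    Nat.card A ≤ Nat.card G := by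
  obtain ⟨μ, -, hμs⟩ := D.exists_hom_surjective hsurj
  exact Nat.card_le_card_of_surjective μ hμs

/-- **Reciprocity by crossing**: the Artin map kills the ray. -/
theorem exists_rayHom_frobVal
    (hsurj : ∀ a : A, ∃ I : Ideal (𝓞 K), I ≠ ⊥ ∧ I ⊔ D.f = ⊤ ∧ D.π I = a)
    (hcard : Nat.card G ≤ Nat.card A) :
    ∃ ψ : Ideal (𝓞 K) → G, IsRayHom D.f ψ ∧
      ∀ P : Ideal (𝓞 K), P.IsPrime → P ≠ ⊥ → P ⊔ D.f = ⊤ → ψ P = frobVal D.χ P := by
  obtain ⟨μ, hμ, hμs⟩ := D.exists_hom_surjective hsurj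
  have hμb : Function.Bijective μ := (Nat.bijective_iff_surjective_and_card μ).2
    ⟨hμs, le_antisymm hcard (Nat.card_le_card_of_surjective μ hμs)⟩
  let e := MulEquiv.ofBijective μ hμb
  refine ⟨fun I => e.symm (D.π I), ⟨D.ray.ne_bot, fun I J hI0' hJ0' hI hJ => ?_, fun a h0 h1 => ?_⟩,
    fun P h1 h2 h3 => ?_⟩
  · show e.symm _ = _
    rw [D.ray.map_mul I J hI0' hJ0' hI hJ, _root_.map_mul]
  · show e.symm _ = _
    rw [D.ray.map_span a h0 h1, _root_.map_one]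
  · show e.symm _ = _
    rw [hμ P h1 h2 h3]
    exact e.symm_apply_apply _

end CrossingInput

end FLTAgent.LanglandsTunnell.CFT
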