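import Fermat.Agent.LanglandsTunnell.CFT.RayChar
import Fermat.Agent.ExtVanishing.CharDensity
import Mathlib.GroupTheory.FiniteAbelian.Duality
import Mathlib.LinearAlgebra.Dimension.DivisionRing
import Mathlib.NumberTheory.RamificationInertia.Inertia
import Mathlib.NumberTheory.RamificationInertia.Ramification
import Mathlib.RingTheory.Ideal.Norm.AbsNorm

/-!
# The analytic second inequality

A homomorphism on the ideals prime to `f`, trivial on the ray, which kills almost all primes below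
a degree one prime of an extension `M / K` has image of order at most `[M : K]`.
-/

set_option autoImplicit false
set_option linter.deprecated false

noncomputable section

open NumberField Filter Topology Module
open scoped nonZeroDivisors Classical
open FLTAgent.ExtVanishing

namespace FLTAgent.LanglandsTunnell.CFT

variable {K : Type*} [Field K] [NumberField K]

/-- A homomorphism on the ideals prime to `f` which is trivial on the ray modulo `f`. -/
structure IsRayHom (f : Ideal (𝓞 K)) {A : Type*} [CommGroup A] (π : Ideal (𝓞 K) → A) : Prop where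
  ne_bot : f ≠ ⊥
  map_mul : ∀ I J, I ≠ ⊥ → J ≠ ⊥ → I ⊔ f = ⊤ → J ⊔ f = ⊤ → π (I * J) = π I * π J
  map_span : ∀ a : 𝓞 K, a ≠ 0 → a - 1 ∈ f → π (Ideal.span {a}) = 1

omit [NumberField K] in
theorem mul_sup_eq_top_iff {f I J : Ideal (𝓞 K)} :
    I * J ⊔ f = ⊤ ↔ I ⊔ f = ⊤ ∧ J ⊔ f = ⊤ := by
  simp only [← Ideal.isCoprime_iff_sup_eq, IsCoprime.mul_left_iff]

omit [NumberField K] in
theorem one_sup_eq_top {f : Ideal (𝓞 K)} : (1 : Ideal (𝓞 K)) ⊔ f = ⊤ := by
  rw [Ideal.one_eq_top, top_sup_eq]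

omit [NumberField K] in
theorem one_ne_bot : (1 : Ideal (𝓞 K)) ≠ ⊥ := by
  rw [Ideal.one_eq_top]
  exact top_ne_bot

omit [NumberField K] in
/-- A ray homomorphism sends the unit ideal to one. -/
theorem IsRayHom.map_one {f : Ideal (𝓞 K)} {A : Type*} [CommGroup A] {π : Ideal (𝓞 K) → A}
    (h : IsRayHom f π) : π 1 = 1 := by
  have e := h.map_mul 1 1 one_ne_bot one_ne_bot one_sup_eq_top one_sup_eq_top
  rw [one_mul] at e
  exact left_eq_mul.1 e

/-- The complex function attached to a ray homomorphism and a character of its target. -/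
def IsRayHom.char {f : Ideal (𝓞 K)} {A : Type*} [CommGroup A] {π : Ideal (𝓞 K) → A}
    (h : IsRayHom f π) (χ : A →* ℂˣ) : Ideal (𝓞 K) →* ℂ where
  toFun I := if I ≠ ⊥ ∧ I ⊔ f = ⊤ then ((χ (π I) : ℂˣ) : ℂ) else 0
  map_one' := by rw [if_pos ⟨one_ne_bot, one_sup_eq_top⟩, h.map_one, _root_.map_one, Units.val_one]
  map_mul' I J := by
    have hiff : (I * J ≠ ⊥ ∧ I * J ⊔ f = ⊤) ↔
        (I ≠ ⊥ ∧ I ⊔ f = ⊤) ∧ (J ≠ ⊥ ∧ J ⊔ f = ⊤) := by
      rw [mul_sup_eq_top_iff, ← Ideal.zero_eq_bot, mul_ne_zero_iff]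
      tauto
    by_cases hI : I ≠ ⊥ ∧ I ⊔ f = ⊤
    · by_cases hJ : J ≠ ⊥ ∧ J ⊔ f = ⊤
      · rw [if_pos hI, if_pos hJ, if_pos (hiff.2 ⟨hI, hJ⟩), h.map_mul I J hI.1 hJ.1 hI.2 hJ.2,
          _root_.map_mul, Units.val_mul]
      · rw [if_neg hJ, if_neg fun e => hJ (hiff.1 e).2, mul_zero]
    · rw [if_neg hI, if_neg fun e => hI (hiff.1 e).1, zero_mul]

omit [NumberField K] in
theorem IsRayHom.char_apply {f : Ideal (𝓞 K)} {A : Type*} [CommGroup A] {π : Ideal (𝓞 K) → A}
    (h : IsRayHom f π) (χ : A →* ℂˣ) {I : Ideal (𝓞 K)} (hI0 : I ≠ ⊥) (hI : I ⊔ f = ⊤) :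
    h.char χ I = ((χ (π I) : ℂˣ) : ℂ) := if_pos ⟨hI0, hI⟩

theorem norm_units_eq_one {A : Type*} [CommGroup A] [Finite A] (χ : A →* ℂˣ) (a : A) :
    ‖((χ a : ℂˣ) : ℂ)‖ = 1 := by
  refine Complex.norm_eq_one_of_pow_eq_one (n := orderOf a) ?_ (orderOf_pos a).ne'
  rw [← Units.val_pow_eq_pow_val, ← map_pow, pow_orderOf_eq_one, MonoidHom.map_one, Units.val_one]

omit [NumberField K] in
theorem IsRayHom.isRayChar {f : Ideal (𝓞 K)} {A : Type*} [CommGroup A] [Finite A]
    {π : Ideal (𝓞 K) → A} (h : IsRayHom f π) (χ : A →* ℂˣ) : IsRayChar f (h.char χ) where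
  ne_bot := h.ne_bot
  norm_le I := by
    by_cases hI : I ≠ ⊥ ∧ I ⊔ f = ⊤
    · rw [h.char_apply χ hI.1 hI.2, norm_units_eq_one]
    · show ‖(if I ≠ ⊥ ∧ I ⊔ f = ⊤ then ((χ (π I) : ℂˣ) : ℂ) else 0)‖ ≤ 1
      rw [if_neg hI, norm_zero]
      exact zero_le_one
  ne_zero_iff I hI0 := by
    show (if I ≠ ⊥ ∧ I ⊔ f = ⊤ then ((χ (π I) : ℂˣ) : ℂ) else 0) ≠ 0 ↔ _
    by_cases hI : I ⊔ f = ⊤
    · simp [hI0, hI]
    · simp [hI]
  map_span a ha0 ha := by
    have hcop : Ideal.span {a} ⊔ f = ⊤ := by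
      rw [Ideal.eq_top_iff_one, show (1 : 𝓞 K) = a - (a - 1) by ring]
      exact Ideal.sub_mem _ (Ideal.mem_sup_left (Ideal.mem_span_singleton_self a))
        (Ideal.mem_sup_right ha)
    rw [h.char_apply χ (fun e => ha0 (Ideal.span_singleton_eq_bot.1 e)) hcop, h.map_span a ha0 ha,
      MonoidHom.map_one, Units.val_one]

theorem sum_monoidHom_apply {A : Type*} [CommGroup A] [Finite A] [Fintype (A →* ℂˣ)] (a : A) :
    ∑ χ : A →* ℂˣ, ((χ a : ℂˣ) : ℂ) = if a = 1 then (Nat.card A : ℂ) else 0 := by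
  have : NeZero (Monoid.exponent A) := ⟨Monoid.exponent_ne_zero_of_finite⟩
  split_ifs with ha
  · subst ha
    simp only [MonoidHom.map_one, Units.val_one, Finset.sum_const, nsmul_eq_mul, mul_one,
      Finset.card_univ, ← Nat.card_eq_fintype_card,
      CommGroup.card_monoidHom_of_hasEnoughRootsOfUnity A ℂ]
  · obtain ⟨χ₀, hχ₀⟩ := CommGroup.exists_apply_ne_one_of_hasEnoughRootsOfUnity A ℂ ha
    have h := Fintype.sum_equiv (Equiv.mulLeft χ₀)
      (fun χ : A →* ℂˣ => (((χ₀ * χ) a : ℂˣ) : ℂ)) (fun χ : A →* ℂˣ => ((χ a : ℂˣ) : ℂ))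
      fun _ => rfl
    simp only [MonoidHom.mul_apply, Units.val_mul, ← Finset.mul_sum] at h
    exact (mul_left_eq_self₀.1 h).resolve_left fun e => hχ₀ (Units.ext e)

theorem exists_le_re_primeSum {f : Ideal (𝓞 K)} {χ : Ideal (𝓞 K) →* ℂ} (h : IsRayChar f χ)
    (hne : ∃ I : Ideal (𝓞 K), I ≠ ⊥ ∧ χ I ≠ 0 ∧ χ I ≠ 1) :
    ∃ C : ℝ, ∀ᶠ s in 𝓝[>] (1 : ℝ),
      (∑' P : PrimeIdeals K, dirichletTerm (onNonzero χ) s P.toNonZero).re ≤ C := by
  obtain ⟨l, hl⟩ := exists_tendsto_raySum h hne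
  set D : ℝ := ∑' P : PrimeIdeals K, (Ideal.absNorm P.1 : ℝ) ^ (-(2 : ℝ))
  refine ⟨Real.log (‖l‖ + 1) + D, ?_⟩
  filter_upwards [self_mem_nhdsWithin, hl.norm.eventually (eventually_le_nhds (lt_add_one _))]
    with s hs hs'
  have hχ : ∀ I, ‖onNonzero χ I‖ ≤ 1 := fun I => h.norm_le _
  have hne0 : ∑' I : (Ideal (𝓞 K))⁰, dirichletTerm (onNonzero χ) s I ≠ 0 := by
    rw [← exp_tsum_log_factor hχ hs]
    exact Complex.exp_ne_zero _
  have h1 := (abs_le.1 (abs_re_primeSum_sub_log_le hχ hs)).2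
  have h2 := Real.log_le_log (norm_pos_iff.2 hne0) hs'
  linarith

theorem exists_primeSum_one_le :
    ∃ C : ℝ, ∀ᶠ s in 𝓝[>] (1 : ℝ),
      ∑' P : PrimeIdeals K, (Ideal.absNorm P.1 : ℝ) ^ (-s) ≤ Real.log (1 / (s - 1)) + C := by
  obtain ⟨C₁, hC₁⟩ := (Density.hasLogDensity_idealCount (K := K)).congr_density
    (show (1 : ℂ) = ((1 : ℝ) : ℂ) by simp) |>.exists_re_le
  obtain ⟨Ce, hCe⟩ := exists_bound_exceptional (K := K) 0
  refine ⟨C₁ + Ce, ?_⟩
  filter_upwards [hC₁, self_mem_nhdsWithin] with s hs hs1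
  have hA := summable_ite_rpow (fun P : PrimeIdeals K => (Ideal.absNorm P.1).Prime) hs1
  have hE := summable_ite_rpow
    (fun P : PrimeIdeals K => ¬ ((Ideal.absNorm P.1).Prime ∧ Ideal.absNorm P.1 ≠ 0)) hs1
  have e : ∀ P : PrimeIdeals K, (Ideal.absNorm P.1 : ℝ) ^ (-s) =
      (if (Ideal.absNorm P.1).Prime then (Ideal.absNorm P.1 : ℝ) ^ (-s) else 0) +
      if ¬ ((Ideal.absNorm P.1).Prime ∧ Ideal.absNorm P.1 ≠ 0) then
        (Ideal.absNorm P.1 : ℝ) ^ (-s) else 0 := by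
    intro P
    by_cases hp : (Ideal.absNorm P.1).Prime
    · rw [if_pos hp, if_neg (not_not.2 ⟨hp, hp.ne_zero⟩), add_zero]
    · rw [if_neg hp, if_pos (fun h => hp h.1), zero_add]
  rw [tsum_congr e, hA.tsum_add hE,
    ← (hasSum_primeCount (fun P : PrimeIdeals K => (Ideal.absNorm P.1).Prime) (fun _ h => h)
      hs1).tsum_eq,
    tsum_congr fun q : Nat.Primes => by rw [primeCount_top q.2],
    ← re_primeSeries_natCast (fun q : Nat.Primes => Density.idealCount K q)]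
  have h2 := hE.tsum_le_of_sum_le fun T => le_of_eq_of_le
    (Finset.sum_filter (fun P : PrimeIdeals K =>
      ¬ ((Ideal.absNorm P.1).Prime ∧ Ideal.absNorm P.1 ≠ 0))
      (fun P => (Ideal.absNorm P.1 : ℝ) ^ (-s))).symm
    (hCe s hs1 _ fun P hP => (Finset.mem_filter.1 hP).2)
  have := (abs_le.1 hs).2
  linarith

section Extension

variable {M : Type*} [Field M] [NumberField M] [Algebra K M]

theorem absNorm_under_eq {q : ℕ} (hq : q.Prime) {Q : Ideal (𝓞 M)} [Q.IsPrime] (hQ : Q ≠ ⊥)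
    (hN : Ideal.absNorm Q = q) : Ideal.absNorm (Q.under (𝓞 K)) = q := by
  set P := Q.under (𝓞 K)
  have hP0 : P ≠ ⊥ := fun h => hQ (Ideal.eq_bot_of_comap_eq_bot h)
  have hP1 : Ideal.absNorm P ≠ 1 := fun h =>
    (Ideal.IsPrime.ne_top (inferInstance : P.IsPrime)) (Ideal.absNorm_eq_one_iff.1 h)
  have hinj : Function.Injective (Ideal.quotientMap Q (algebraMap (𝓞 K) (𝓞 M)) le_rfl :
      𝓞 K ⧸ P →+* 𝓞 M ⧸ Q) := Ideal.quotientMap_injective
  have : Finite (𝓞 M ⧸ Q) := Ideal.finiteQuotientOfFreeOfNeBot Q hQ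
  have hdvd : Ideal.absNorm P ∣ q := by
    rw [← hN, Ideal.absNorm_apply, Ideal.absNorm_apply, Submodule.cardQuot_apply,
      Submodule.cardQuot_apply]
    exact AddSubgroup.card_dvd_of_injective (Ideal.quotientMap Q (algebraMap (𝓞 K) (𝓞 M)) le_rfl :
      𝓞 K ⧸ P →+* 𝓞 M ⧸ Q).toAddMonoidHom hinj
  exact ((Nat.dvd_prime hq).1 hdvd).resolve_left hP1

theorem idealCount_le_mul_primeCount {q : ℕ} (hq : q.Prime) (Pr : PrimeIdeals K → Prop)
    (hPr : ∀ (Q : Ideal (𝓞 M)) (P : PrimeIdeals K), Q.IsPrime → Q.under (𝓞 K) = P.1 →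
      Ideal.absNorm Q = q → Ideal.absNorm P.1 = q → Pr P) :
    Density.idealCount M q ≤ finrank K M * primeCount Pr q := by
  have := Density.finite_absNorm_eq M q
  have := finite_primeFiber Pr q
  have : Fintype {I : (Ideal (𝓞 M))⁰ // Ideal.absNorm (I : Ideal (𝓞 M)) = q} := Fintype.ofFinite _
  have : Fintype {P : PrimeIdeals K // Pr P ∧ Ideal.absNorm P.1 = q} := Fintype.ofFinite _
  have hprime : ∀ I : {I : (Ideal (𝓞 M))⁰ // Ideal.absNorm (I : Ideal (𝓞 M)) = q},
      (I.1 : Ideal (𝓞 M)).IsPrime := fun I =>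
    Ideal.isPrime_of_irreducible_absNorm (by rw [I.2]; exact hq)
  have hne : ∀ I : {I : (Ideal (𝓞 M))⁰ // Ideal.absNorm (I : Ideal (𝓞 M)) = q},
      (I.1 : Ideal (𝓞 M)).under (𝓞 K) ≠ ⊥ := fun I h =>
    mem_nonZeroDivisors_iff_ne_zero.1 I.1.2 (by
      have := hprime I
      exact Ideal.eq_bot_of_comap_eq_bot h)
  let g : {I : (Ideal (𝓞 M))⁰ // Ideal.absNorm (I : Ideal (𝓞 M)) = q} →
      {P : PrimeIdeals K // Pr P ∧ Ideal.absNorm P.1 = q} := fun I =>
    haveI := hprime I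
    ⟨⟨(I.1 : Ideal (𝓞 M)).under (𝓞 K), inferInstance, hne I⟩,
      hPr _ _ (hprime I) rfl I.2
        (absNorm_under_eq hq (mem_nonZeroDivisors_iff_ne_zero.1 I.1.2) I.2),
      absNorm_under_eq hq (mem_nonZeroDivisors_iff_ne_zero.1 I.1.2) I.2⟩
  rw [Density.idealCount, primeCount, Nat.card_eq_fintype_card, Nat.card_eq_fintype_card,
    ← Finset.card_univ, ← Finset.card_univ]
  refine Finset.card_le_mul_card_image_of_maps_to (f := g) (fun I _ => Finset.mem_univ _) _
    fun P _ => ?_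
  have := P.1.2.1
  have : P.1.1.IsMaximal := P.1.2.1.isMaximal P.1.2.2
  have : NoZeroSMulDivisors (𝓞 K) (𝓞 M) := ⟨fun {c x} e => by
    rw [Algebra.smul_def, mul_eq_zero] at e
    exact e.imp_left fun e =>
      FaithfulSMul.algebraMap_injective (𝓞 K) (𝓞 M) (e.trans (map_zero _).symm)⟩
  refine le_trans ?_ (Ideal.card_primesOverFinset_le_finrank (S := 𝓞 M) K M P.1.2.2)
  refine Finset.card_le_card_of_injOn (fun I => (I.1 : Ideal (𝓞 M))) (fun I hI => ?_)
    (fun I _ I' _ h => Subtype.ext (Subtype.ext h))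
  rw [Finset.mem_coe, IsDedekindDomain.mem_primesOverFinset_iff P.1.2.2]
  refine ⟨hprime I, ⟨?_⟩⟩
  exact congrArg (fun z : {P : PrimeIdeals K // Pr P ∧ Ideal.absNorm P.1 = q} => z.1.1)
    (Finset.mem_filter.1 hI).2.symm

/-- **The second inequality.** -/
theorem card_le_finrank_of_split {f : Ideal (𝓞 K)} {A : Type} [CommGroup A] [Finite A]
    {π : Ideal (𝓞 K) → A} (h : IsRayHom f π)
    (hsurj : ∀ a : A, ∃ I : Ideal (𝓞 K), I ≠ ⊥ ∧ I ⊔ f = ⊤ ∧ π I = a) {B : ℕ} (hB : B ≠ 0)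
    (hsplit : ∀ (q : ℕ) (Q : Ideal (𝓞 M)) (P : PrimeIdeals K), q.Prime → ¬ q ∣ B → Q.IsPrime →
      Q.under (𝓞 K) = P.1 → Ideal.absNorm Q = q → Ideal.absNorm P.1 = q → P.1 ⊔ f = ⊤ →
      π P.1 = 1) :
    Nat.card A ≤ finrank K M := by
  have : NeZero (Monoid.exponent A) := ⟨Monoid.exponent_ne_zero_of_finite⟩
  have : Finite (A →* ℂˣ) := Finite.of_equiv A
    (CommGroup.monoidHom_mulEquiv_of_hasEnoughRootsOfUnity A ℂ).some.symm.toEquiv
  have : Fintype (A →* ℂˣ) := Fintype.ofFinite _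
  let Pr : PrimeIdeals K → Prop := fun P =>
    (Ideal.absNorm P.1).Prime ∧ P.1 ⊔ f = ⊤ ∧ π P.1 = 1
  -- the lower bound from the degree one primes of `M`
  obtain ⟨CM, hCM⟩ := (Density.hasLogDensity_idealCount (K := M)).congr_density
    (show (1 : ℂ) = ((1 : ℝ) : ℂ) by simp) |>.exists_re_le
  have hbd : Density.IsBoundedOnPrimes
      (fun q : Nat.Primes => ((finrank K M * primeCount Pr q : ℕ) : ℂ)) := by
    refine ⟨(finrank K M * finrank ℚ K : ℕ), fun q => ?_⟩
    rw [Complex.norm_natCast, Nat.cast_le]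
    refine Nat.mul_le_mul_left _ ((?_ : primeCount Pr q ≤ Density.idealCount K q).trans
      (Density.idealCount_prime_le q.2))
    rw [← primeCount_top q.2]
    have := finite_primeFiber (fun P : PrimeIdeals K => (Ideal.absNorm P.1).Prime) (q : ℕ)
    exact Nat.card_le_card_of_injective
      (fun P => ⟨P.1, P.2.1.1, P.2.2⟩) fun P P' e => Subtype.ext (congrArg Subtype.val e :)
  obtain ⟨C₂, hC₂⟩ := Density.exists_re_primeSeries_le
    (Density.isBoundedOnPrimes_idealCount (K := M))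
    hbd (by
      filter_upwards [Density.eventually_not_dvd (n := B * Ideal.absNorm f)
        (Nat.mul_ne_zero hB fun h0 => h.ne_bot (Ideal.absNorm_eq_zero_iff.1 h0))] with q hq
      simp only [Complex.natCast_re, Nat.cast_le]
      refine idealCount_le_mul_primeCount q.2 Pr fun Q P hQ hQP hNQ hNP => ?_
      have hcop : P.1 ⊔ f = ⊤ := by
        have : P.1.IsMaximal := P.2.1.isMaximal P.2.2
        by_contra hne
        have hf : f ≤ P.1 := by
          rcases (inferInstance : P.1.IsMaximal).out.2 (P.1 ⊔ f) |> fun hh =>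
            eq_or_lt_of_le (le_sup_left : P.1 ≤ P.1 ⊔ f) |>.imp_right hh with e | e
          · exact e.symm ▸ le_sup_right
          · exact absurd e hne
        have := Ideal.absNorm_dvd_absNorm_of_le hf
        rw [hNP] at this
        exact hq (this.trans (dvd_mul_left _ _))
      exact ⟨hNP ▸ q.2, hcop, hsplit q Q P q.2 (fun hd => hq (hd.trans (dvd_mul_right _ _))) hQ hQP
        hNQ hNP hcop⟩)
  -- the upper bound from the characters
  have hex : ∀ χ : A →* ℂˣ, ∃ C : ℝ, ∀ᶠ s in 𝓝[>] (1 : ℝ),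
      (∑' P : PrimeIdeals K, dirichletTerm (onNonzero (h.char χ)) s P.toNonZero).re ≤
        (if χ = 1 then Real.log (1 / (s - 1)) else 0) + C := by
    intro χ
    by_cases hχ : χ = 1
    · obtain ⟨C, hC⟩ := exists_primeSum_one_le (K := K)
      refine ⟨C, ?_⟩
      filter_upwards [hC, self_mem_nhdsWithin] with s hs hs1
      rw [if_pos hχ]
      have hb := (h.isRayChar χ).norm_le
      have hS : Summable fun P : PrimeIdeals K =>
          dirichletTerm (onNonzero (h.char χ)) s P.toNonZero :=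
        Summable.of_norm_bounded (summable_rpow_primes (K := K) hs1) fun P =>
          norm_dirichletTerm_le (fun I => hb _) s _
      refine le_trans ?_ hs
      rw [Complex.re_tsum hS]
      exact Summable.tsum_le_tsum (fun P => (Complex.re_le_norm _).trans
        (norm_dirichletTerm_le (fun I => hb _) s _)) (Complex.hasSum_re hS.hasSum).summable
        (summable_rpow_primes (K := K) hs1)
    · obtain ⟨a, ha⟩ : ∃ a, χ a ≠ 1 := not_forall.1 fun h' => hχ (MonoidHom.ext h')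
      obtain ⟨I, hI0, hIf, hIa⟩ := hsurj a
      obtain ⟨C, hC⟩ := exists_le_re_primeSum (h.isRayChar χ) ⟨I, hI0, by
        rw [h.char_apply χ hI0 hIf]; exact Units.ne_zero _, by
        rw [h.char_apply χ hI0 hIf, hIa]; exact fun e => ha (Units.ext e)⟩
      exact ⟨C, hC.mono fun s hs => by rwa [if_neg hχ, zero_add]⟩
  choose C hC using hex
  set n : ℕ := finrank K M
  set m : ℕ := Nat.card A
  by_contra hlt
  push Not at hlt
  have hbig := (Density.tendsto_log_one_div_sub_one).eventually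
    (eventually_gt_atTop ((m : ℝ) * (|CM| + |C₂|) + (n : ℝ) * |∑ χ, C χ|))
  obtain ⟨s, hs1, hs2, hs3, hs4, hs5⟩ := ((eventually_mem_nhdsWithin (a := (1 : ℝ))
    (s := Set.Ioi 1)).and (hCM.and (hC₂.and ((eventually_all.2 hC).and hbig)))).exists
  simp only [Set.mem_Ioi] at hs1
  set lg : ℝ := Real.log (1 / (s - 1))
  set S : ℝ := ∑' P : PrimeIdeals K, if Pr P then (Ideal.absNorm P.1 : ℝ) ^ (-s) else 0
  have hlow : lg - |CM| - |C₂| ≤ (n : ℝ) * S := by
    have e : (Density.primeSeries (fun q : Nat.Primes => ((n * primeCount Pr q : ℕ) : ℂ)) s).re =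
        (n : ℝ) * S := by
      rw [re_primeSeries_natCast,
        ← ((hasSum_primeCount Pr (fun _ h => h.1) hs1).mul_left (n : ℝ)).tsum_eq]
      exact tsum_congr fun q => by push_cast; ring
    have h1 := (abs_le.1 hs2).1
    linarith [le_abs_self CM, le_abs_self C₂]
  have hup : (m : ℝ) * S ≤ lg + |∑ χ, C χ| := by
    have hT : ∀ χ : A →* ℂˣ, Summable fun P : PrimeIdeals K =>
        dirichletTerm (onNonzero (h.char χ)) s P.toNonZero := fun χ =>
      Summable.of_norm_bounded (summable_rpow_primes (K := K) hs1) fun P =>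
        norm_dirichletTerm_le (fun I => (h.isRayChar χ).norm_le _) s _
    have hpt : ∀ P : PrimeIdeals K, (m : ℝ) * (if Pr P then (Ideal.absNorm P.1 : ℝ) ^ (-s) else 0)
        ≤ ∑ χ, (dirichletTerm (onNonzero (h.char χ)) s P.toNonZero).re := by
      intro P
      have hn0 : 0 ≤ (Ideal.absNorm P.1 : ℝ) ^ (-s) := Real.rpow_nonneg (Nat.cast_nonneg _) _
      simp only [dirichletTerm_apply, onNonzero_apply, PrimeIdeals.coe_toNonZero,
        Complex.re_mul_ofReal, ← Finset.sum_mul]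
      by_cases hf : P.1 ⊔ f = ⊤
      · rw [← Complex.re_sum, Finset.sum_congr rfl fun χ _ => h.char_apply χ P.2.2 hf,
          sum_monoidHom_apply]
        by_cases hP : π P.1 = 1
        · rw [if_pos hP, Complex.natCast_re]
          refine mul_le_mul_of_nonneg_left ?_ (Nat.cast_nonneg _)
          split_ifs <;> simp [hn0]
        · rw [if_neg hP, if_neg fun h' : Pr P => hP h'.2.2]
          simp
      · have hz : ∀ χ : A →* ℂˣ, h.char χ P.1 = 0 := fun χ => if_neg fun e => hf e.2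
        simp only [hz, Complex.zero_re, Finset.sum_const_zero, zero_mul,
          if_neg fun h' : Pr P => hf h'.2.1, mul_zero, le_refl]
    have hsum := hasSum_le hpt ((summable_ite_rpow Pr hs1).hasSum.mul_left (m : ℝ))
      (hasSum_sum fun χ _ => Complex.hasSum_re (hT χ).hasSum)
    refine hsum.trans ((Finset.sum_le_sum fun χ _ => hs4 χ).trans ?_)
    rw [Finset.sum_add_distrib, Finset.sum_ite_eq' Finset.univ (1 : A →* ℂˣ),
      if_pos (Finset.mem_univ _)]
    linarith [le_abs_self (∑ χ, C χ)]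
  have hn : (0 : ℝ) ≤ n := Nat.cast_nonneg _
  have hm : (n : ℝ) + 1 ≤ m := by exact_mod_cast hlt
  have h1 := mul_le_mul_of_nonneg_left hlow (Nat.cast_nonneg m : (0 : ℝ) ≤ m)
  have h2 := mul_le_mul_of_nonneg_left hup hn
  have hlg : 0 ≤ lg := by
    refine le_of_lt (lt_of_le_of_lt ?_ hs5)
    positivity
  have h3 : lg ≤ ((m : ℝ) - n) * lg := le_mul_of_one_le_left hlg (by linarith)
  nlinarith [h1, h2, h3, hs5]

end Extension

end FLTAgent.LanglandsTunnell.CFT
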