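import Fermat.Agent.LanglandsTunnell.CFT.AuxPrimes
import Fermat.Agent.LanglandsTunnell.CFT.SecondIneq
import Mathlib.NumberTheory.NumberField.InfinitePlace.TotallyRealComplex

/-!
# Norms and fixed fields for the crossing argument

Congruences satisfied by norms of elements and ideals close to one, the cyclotomic character of a
Frobenius element, and the degree of the field cut out by a character. Used in `Crossing`.
-/

set_option autoImplicit false

noncomputable section

open NumberField Module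
open scoped Pointwise

namespace FLTAgent.LanglandsTunnell.CFT

open FLTAgent.Density FLTAgent.ExtVanishing FLTAgent.LanglandsTunnell ExtCitation

/-- A norm of `1 + c x` is `1 + c t`, with `t` integral. -/
theorem exists_norm_one_add {K : Type*} [Field K] [Algebra K Qbar] {F : Type*} [Field F]
    [Algebra K F] [FiniteDimensional K F] [Algebra.IsSeparable K F] {c : K}
    (hc : IsIntegral ℤ (algebraMap K Qbar c)) {x : F} (hx : IsIntegral ℤ x) :
    ∃ t : Qbar, IsIntegral ℤ t ∧
      algebraMap K Qbar (Algebra.norm K (1 + c • x)) = 1 + algebraMap K Qbar c * t := by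
  classical
  rw [Algebra.norm_eq_prod_embeddings K Qbar]
  refine Finset.prod_induction _
    (fun z => ∃ t : Qbar, IsIntegral ℤ t ∧ z = 1 + algebraMap K Qbar c * t) ?_ ?_ ?_
  · rintro a b ⟨s, hs, rfl⟩ ⟨t, ht, rfl⟩
    exact ⟨s + t + algebraMap K Qbar c * (s * t), (hs.add ht).add (hc.mul (hs.mul ht)), by ring⟩
  · exact ⟨0, isIntegral_zero, by ring⟩
  · intro e _
    exact ⟨e x, hx.map e.toRingHom.toIntAlgHom, by
      rw [map_add, map_one, map_smul, Algebra.smul_def]⟩

section Fields

variable {K : IntermediateField ℚ Qbar} [NumberField K] {F : IntermediateField ℚ Qbar}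
  [NumberField F] [Algebra K F] [IsScalarTower ℚ K F]

theorem intNorm_sub_one_mem {c : 𝓞 K} {a : 𝓞 F}
    (ha : a - 1 ∈ Ideal.span {algebraMap (𝓞 K) (𝓞 F) c}) :
    Algebra.intNorm (𝓞 K) (𝓞 F) a - 1 ∈ Ideal.span {c} := by
  have : FiniteDimensional K F := FiniteDimensional.right ℚ K F
  obtain ⟨x, hx⟩ := Ideal.mem_span_singleton'.1 ha
  have hc : IsIntegral ℤ (algebraMap K Qbar (c : K)) :=
    c.isIntegral_coe.map (algebraMap K Qbar).toIntAlgHom
  obtain ⟨t, ht, e⟩ := exists_norm_one_add (F := F) (x := algebraMap (𝓞 F) F x) hc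
    x.isIntegral_coe
  have ea : algebraMap (𝓞 F) F a = 1 + algebraMap (𝓞 K) K c • algebraMap (𝓞 F) F x := by
    have h := congrArg (algebraMap (𝓞 F) F) hx
    rw [map_mul, map_sub, map_one, ← IsScalarTower.algebraMap_apply (𝓞 K) (𝓞 F) F] at h
    rw [Algebra.smul_def, ← IsScalarTower.algebraMap_apply (𝓞 K) K F]
    linear_combination -h
  have eN : Algebra.norm K (1 + algebraMap (𝓞 K) K c • algebraMap (𝓞 F) F x) =
      algebraMap (𝓞 K) K (Algebra.intNorm (𝓞 K) (𝓞 F) a) := by
    rw [Algebra.algebraMap_intNorm (L := F), ea]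
  rw [eN] at e
  rw [Ideal.mem_span_singleton']
  rcases eq_or_ne (algebraMap (𝓞 K) K c) 0 with hc0 | hc0
  · refine ⟨0, RingOfIntegers.coe_injective ?_⟩
    rw [show (c : K) = 0 from hc0, map_zero, zero_mul, add_zero] at e
    rw [zero_mul, map_zero, map_sub, map_one,
      (algebraMap K Qbar).injective (e.trans (map_one _).symm), sub_self]
  · have et : algebraMap K Qbar
        ((algebraMap (𝓞 K) K (Algebra.intNorm (𝓞 K) (𝓞 F) a) - 1) / algebraMap (𝓞 K) K c) = t := by
      rw [map_div₀, map_sub, map_one, e, add_sub_cancel_left, mul_div_cancel_left₀]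
      exact fun h => hc0 ((algebraMap K Qbar).injective (h.trans (map_zero _).symm))
    refine ⟨⟨_, (isIntegral_algHom_iff (algebraMap K Qbar).toIntAlgHom
      (algebraMap K Qbar).injective).1 (show IsIntegral ℤ ((algebraMap K Qbar).toIntAlgHom
        ((algebraMap (𝓞 K) K (Algebra.intNorm (𝓞 K) (𝓞 F) a) - 1) / algebraMap (𝓞 K) K c)) from
        et.symm ▸ ht)⟩, RingOfIntegers.coe_injective ?_⟩
    rw [map_sub, map_one]
    exact (map_mul (algebraMap (𝓞 K) K) _ _).trans (div_mul_cancel₀ _ hc0)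

/-- A prime to `c` ideal has norm prime to every divisor of `c`. -/
theorem relNorm_sup_eq_top {f : Ideal (𝓞 K)} {c : 𝓞 K} (hc : c ∈ f) {I : Ideal (𝓞 F)}
    (hI : I ⊔ Ideal.span {algebraMap (𝓞 K) (𝓞 F) c} = ⊤) :
    Ideal.relNorm (𝓞 K) I ⊔ f = ⊤ := by
  rw [Ideal.eq_top_iff_one, Submodule.mem_sup] at hI
  obtain ⟨i, hi, z, hz, e⟩ := hI
  have h1 := intNorm_sub_one_mem (c := c) (a := i) (by
    rw [← e, sub_add_cancel_left]; exact neg_mem hz)
  have h2 : Algebra.intNorm (𝓞 K) (𝓞 F) i ∈ Ideal.relNorm (𝓞 K) I := by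
    refine Ideal.relNorm_mono _ ((Ideal.span_singleton_le_iff_mem _).2 hi) ?_
    rw [Ideal.relNorm_singleton]
    exact Ideal.mem_span_singleton_self _
  rw [Ideal.eq_top_iff_one, ← sub_sub_cancel (Algebra.intNorm (𝓞 K) (𝓞 F) i) 1]
  exact sub_mem (Ideal.mem_sup_left h2)
    (Ideal.mem_sup_right ((Ideal.span_singleton_le_iff_mem _).2 hc h1))

omit [IsScalarTower ℚ K F] in
/-- A prime of the same norm as the prime below it has that prime as norm. -/
theorem relNorm_eq_of_absNorm_eq {P : Ideal (𝓞 K)} [P.IsPrime] (hP : P ≠ ⊥) {Q : Ideal (𝓞 F)}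
    [Q.IsPrime] [Q.LiesOver P] (hN : Ideal.absNorm Q = Ideal.absNorm P) :
    Ideal.relNorm (𝓞 K) Q = P := by
  have : FiniteDimensional K F := FiniteDimensional.right ℚ K F
  obtain ⟨j, hj⟩ := Ideal.exists_relNorm_eq_pow_of_isPrime Q P
  have h := Ideal.absNorm_relNorm (R := 𝓞 K) (I := Q)
  rw [hj, map_pow, hN] at h
  have h2 : 2 ≤ Ideal.absNorm P := by
    have h0 : Ideal.absNorm P ≠ 0 := fun e => hP (Ideal.absNorm_eq_zero_iff.1 e)
    have h1 : Ideal.absNorm P ≠ 1 := fun e =>
      Ideal.IsPrime.ne_top inferInstance (Ideal.absNorm_eq_one_iff.1 e)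
    omega
  have : j = 1 := Nat.pow_right_injective h2 (by show _ ^ j = _ ^ 1; rw [h, pow_one])
  rw [hj, this, pow_one]

end Fields

section TotallyComplex

variable {F : Type*} [Field F] [NumberField F] [IsTotallyComplex F]

theorem norm_nonneg_of_isTotallyComplex (x : F) : 0 ≤ Algebra.norm ℚ x := by
  classical
  have h : (((Algebra.norm ℚ x : ℚ) : ℝ) : ℂ) =
      ((∏ w : InfinitePlace F, Complex.normSq (w.embedding x) : ℝ) : ℂ) := by
    rw [Complex.ofReal_ratCast, ← eq_ratCast (algebraMap ℚ ℂ) (Algebra.norm ℚ x),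
      Algebra.norm_eq_prod_embeddings ℚ ℂ x, ← Equiv.prod_comp (RingHom.equivRatAlgHom F ℂ),
      ← Finset.prod_fiberwise Finset.univ InfinitePlace.mk, Complex.ofReal_prod]
    refine Finset.prod_congr rfl fun w _ => ?_
    have hne : w.embedding ≠ ComplexEmbedding.conjugate w.embedding := fun e =>
      IsTotallyComplex.complexEmbedding_not_isReal (K := F) w.embedding
        (ComplexEmbedding.isReal_iff.2 e.symm)
    rw [show Finset.univ.filter (fun φ : F →+* ℂ => InfinitePlace.mk φ = w) =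
        {w.embedding, ComplexEmbedding.conjugate w.embedding} from ?_,
      Finset.prod_pair hne, Complex.normSq_eq_conj_mul_self]
    · exact mul_comm _ _
    · ext φ
      simp only [Finset.mem_filter, Finset.mem_univ, true_and, Finset.mem_insert,
        Finset.mem_singleton]
      conv_lhs => rw [← InfinitePlace.mk_embedding w, InfinitePlace.mk_eq_iff]
      exact or_congr_right ⟨fun e => by rw [← e, ComplexEmbedding.conjugate]; simp,
        fun e => by rw [e]; simp [ComplexEmbedding.conjugate]⟩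
  have h' : ((Algebra.norm ℚ x : ℚ) : ℝ) =
      ∏ w : InfinitePlace F, Complex.normSq (w.embedding x) := Complex.ofReal_inj.1 h
  have h0 : (0 : ℝ) ≤ ((Algebra.norm ℚ x : ℚ) : ℝ) :=
    h' ▸ Finset.prod_nonneg fun w _ => Complex.normSq_nonneg _
  exact_mod_cast h0

end TotallyComplex

theorem intCast_norm_eq_one {F : IntermediateField ℚ Qbar} [NumberField F] {r : ℕ} {a : 𝓞 F}
    (ha : a - 1 ∈ Ideal.span {(r : 𝓞 F)}) : ((Algebra.norm ℤ a : ℤ) : ZMod r) = 1 := by
  obtain ⟨x, hx⟩ := Ideal.mem_span_singleton'.1 ha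
  obtain ⟨t, ht, e⟩ := exists_norm_one_add (K := ℚ) (F := F) (c := (r : ℚ))
    (by rw [map_natCast]; simpa using isIntegral_algebraMap (R := ℤ) (A := Qbar) (x := (r : ℤ)))
    x.isIntegral_coe
  have ea : (a : F) = 1 + (r : ℚ) • (x : F) := by
    have h := congrArg (fun z : 𝓞 F => (z : F)) hx
    simp only [map_mul, map_sub, map_one, map_natCast] at h
    rw [Algebra.smul_def, map_natCast]
    linear_combination -h
  rw [← ea, ← Algebra.coe_norm_int, map_natCast, map_intCast] at e
  rcases eq_or_ne r 0 with rfl | hr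
  · rw [Nat.cast_zero, zero_mul, add_zero, Int.cast_eq_one] at e
    rw [e, Int.cast_one]
  · have ht' : t = algebraMap ℚ Qbar (((Algebra.norm ℤ a : ℤ) - 1 : ℚ) / r) := by
      rw [map_div₀, map_sub, map_one, map_intCast, map_natCast, e, add_sub_cancel_left,
        mul_div_cancel_left₀]
      exact Nat.cast_ne_zero.2 hr
    have hint : IsIntegral ℤ (((Algebra.norm ℤ a : ℤ) - 1 : ℚ) / r) :=
      (isIntegral_algHom_iff (algebraMap ℚ Qbar).toIntAlgHom (algebraMap ℚ Qbar).injective).1
        (ht' ▸ ht)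
    obtain ⟨m, hm⟩ := IsIntegrallyClosed.isIntegral_iff.1 hint
    have hm' : Algebra.norm ℤ a = m * r + 1 := by
      have h4 : (m : ℚ) * r = (Algebra.norm ℤ a : ℤ) - 1 := by
        rw [← eq_intCast (algebraMap ℤ ℚ) m, hm, div_mul_cancel₀]
        exact Nat.cast_ne_zero.2 hr
      have h5 : ((Algebra.norm ℤ a : ℤ) : ℚ) = ((m * r + 1 : ℤ) : ℚ) := by
        push_cast
        linarith
      exact_mod_cast h5
    rw [hm']
    push_cast
    rw [ZMod.natCast_self, mul_zero, zero_add]

theorem absNorm_span_eq_one {F : IntermediateField ℚ Qbar} [NumberField F] [IsTotallyComplex F]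
    {r : ℕ} {a : 𝓞 F} (ha : a - 1 ∈ Ideal.span {(r : 𝓞 F)}) :
    (Ideal.absNorm (Ideal.span {a}) : ZMod r) = 1 := by
  have h2 : (0 : ℤ) ≤ Algebra.norm ℤ a := by
    have h3 := norm_nonneg_of_isTotallyComplex (a : F)
    rw [← Algebra.coe_norm_int] at h3
    exact_mod_cast h3
  rw [Ideal.absNorm_span_singleton, ← intCast_norm_eq_one ha]
  conv_rhs => rw [← Int.natAbs_of_nonneg h2]
  rw [Int.cast_natCast]

theorem absNorm_span_sq_eq_one {F : IntermediateField ℚ Qbar} [NumberField F] {r : ℕ} {a : 𝓞 F}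
    (ha : a - 1 ∈ Ideal.span {(r : 𝓞 F)}) :
    (Ideal.absNorm (Ideal.span {a}) : ZMod r) ^ 2 = 1 := by
  rw [Ideal.absNorm_span_singleton]
  rw [← Int.cast_natCast (R := ZMod r), ← Int.cast_pow, Int.natAbs_sq, Int.cast_pow,
    intCast_norm_eq_one ha, one_pow]

/-- The cyclotomic character of a Frobenius element is the norm. -/
theorem cycloChar_eq_natCast {r : ℕ} [Fact r.Prime] {A : ValuationSubring Qbar} {N : ℕ} {g : GalQ}
    (h : A.IsFrobeniusAt g N) (hr : (r : Qbar) ∉ A.nonunits) :
    ((cycloChar r g : (ZMod r)ˣ) : ZMod r) = (N : ZMod r) := by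
  have : NeZero r := ⟨(Fact.out : r.Prime).ne_zero⟩
  obtain ⟨ζ, hζ⟩ := HasEnoughRootsOfUnity.exists_primitiveRoot Qbar r
  have e := apply_root_of_unity h hr hζ.pow_eq_one
  rw [apply_primitiveRoot r hζ g] at e
  rw [(isOfFinOrder_iff_pow_eq_one.2 ⟨r, NeZero.pos r, hζ.pow_eq_one⟩).pow_eq_pow_iff_modEq,
    ← hζ.eq_orderOf, ← ZMod.natCast_eq_natCast_iff,
    ZMod.natCast_zmod_val] at e
  exact e

section FixedField

/-- An open subgroup is the fixing subgroup of a number field. -/
theorem exists_fixingSubgroup_eq {Δ : Subgroup GalQ} {L : IntermediateField ℚ Qbar}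
    [FiniteDimensional ℚ L] (h : L.fixingSubgroup ≤ Δ) :
    ∃ F : IntermediateField ℚ Qbar, FiniteDimensional ℚ F ∧ F.fixingSubgroup = Δ ∧ F ≤ L := by
  have hopen : IsOpen (Δ : Set GalQ) := Subgroup.isOpen_mono h L.fixingSubgroup_isOpen
  have hle : IntermediateField.fixedField Δ ≤ L := by
    rw [← InfiniteGalois.fixedField_fixingSubgroup L]
    exact fun x hx ⟨σ, hσ⟩ => hx ⟨σ, h hσ⟩
  exact ⟨IntermediateField.fixedField Δ,
    Module.Finite.of_injective (IntermediateField.inclusion hle).toLinearMap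
      (IntermediateField.inclusion hle).injective,
    InfiniteGalois.fixingSubgroup_fixedField ⟨Δ, Subgroup.isClosed_of_isOpen _ hopen⟩, hle⟩

/-- The degree of the field cut out by a character is bounded by the order of the target. -/
theorem finrank_le_natCard {F M : IntermediateField ℚ Qbar} [FiniteDimensional ℚ M]
    [Algebra F M] [IsScalarTower ℚ F M]
    (hval : ∀ x : F, ((algebraMap F M x : M) : Qbar) = (x : Qbar)) {G : Type} [Group G] [Finite G]
    (φ : F.fixingSubgroup →* G)
    (hker : ∀ σ : F.fixingSubgroup, φ σ = 1 → (σ : GalQ) ∈ M.fixingSubgroup) :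
    finrank F M ≤ Nat.card G := by
  have : FiniteDimensional F M := FiniteDimensional.right ℚ F M
  have : IsScalarTower F M Qbar := IsScalarTower.of_algebraMap_eq fun x => (hval x).symm
  rw [← AlgHom.card F M Qbar, ← Nat.card_eq_fintype_card]
  choose γ hγ using fun e : M →ₐ[F] Qbar => exists_restrictEmb_eq M e.toRingHom
  have hfix : ∀ e, γ e ∈ F.fixingSubgroup := fun e x => by
    have h := RingHom.congr_fun (hγ e) (algebraMap F M x)
    rw [restrictEmb_apply, hval] at h
    show γ e (x : Qbar) = (x : Qbar)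
    rw [h]
    exact e.commutes x
  refine Nat.card_le_card_of_injective (fun e => φ ⟨γ e, hfix e⟩) fun e e' he => ?_
  have h1 : φ (⟨γ e, hfix e⟩⁻¹ * ⟨γ e', hfix e'⟩) = 1 := by
    rw [map_mul, map_inv, inv_mul_eq_one]; exact he
  have h2 : restrictEmb M (γ e) = restrictEmb M (γ e') := (restrictEmb_eq_iff M _ _).2 (hker _ h1)
  rw [hγ, hγ] at h2
  exact AlgHom.coe_ringHom_injective h2

end FixedField

end FLTAgent.LanglandsTunnell.CFT
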