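import Fermat.Agent.ExtVanishing.Places
import Fermat.Agent.ExtVanishing.IdealEuler
import Fermat.Agent.Density.Chebotarev
import Fermat.Agent.LanglandsTunnell.Datum
import Mathlib.RingTheory.Ideal.Norm.RelNorm

/-!
# Frobenius elements over a prime of a number field inside `ℚbar`

Places over a prime (`PlaceOver`), existence and conjugacy, the value `frobVal` of an unramified
character at the Frobenius elements, and Chebotarev for primes of degree one
(`exists_degreeOne_frobenius`).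
-/

set_option autoImplicit false

noncomputable section

open NumberField
open scoped Pointwise

namespace FLTAgent.LanglandsTunnell.CFT

open FLTAgent.Density FLTAgent.ExtVanishing FLTAgent.LanglandsTunnell

variable {F : IntermediateField ℚ Qbar}

/-- The place `A` lies over the prime `P` of `F`. -/
def PlaceOver (A : ValuationSubring Qbar) (P : Ideal (𝓞 F)) : Prop :=
  ∀ x : 𝓞 F, x ∈ P ↔ ((x : F) : Qbar) ∈ A.nonunits

theorem placeOver_iff {A : ValuationSubring Qbar} {P : Ideal (𝓞 F)} :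
    PlaceOver A P ↔ (primeBelow A).comap (intEmb F) = P := by
  constructor
  · intro h
    ext x
    rw [Ideal.mem_comap, mem_primeBelow, h x]
    rfl
  · intro h x
    rw [← h, Ideal.mem_comap, mem_primeBelow]
    rfl

theorem PlaceOver.smul {A : ValuationSubring Qbar} {P : Ideal (𝓞 F)} (h : PlaceOver A P)
    {g : GalQ} (hg : g ∈ F.fixingSubgroup) : PlaceOver (g • A) P := by
  intro x
  rw [h x]
  have e : g ((x : F) : Qbar) = ((x : F) : Qbar) := hg (x : F)
  exact ((apply_mem_smul_nonunits_iff g _).symm.trans (by rw [e]))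

variable [NumberField F]

/-- Every nonzero prime has a place of `ℚ̄` over it. -/
theorem exists_placeOver (P : Ideal (𝓞 F)) [P.IsPrime] (hP : P ≠ ⊥) :
    ∃ (q : ℕ) (A : ValuationSubring Qbar), q.Prime ∧ (q : 𝓞 F) ∈ P ∧ A.LiesOverPrime q ∧
      PlaceOver A P := by
  obtain ⟨q, hq, -⟩ := PrimeIdeals.exists_prime_below ⟨P, inferInstance, hP⟩
  obtain ⟨A, hA, hAP⟩ := exists_place_over F q.2 P hq
  exact ⟨q, A, q.2, hq, hA, placeOver_iff.2 hAP⟩

omit [NumberField F] in
/-- A place over a prime containing `q` lies over `q`. -/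
theorem PlaceOver.liesOverPrime {A : ValuationSubring Qbar} {P : Ideal (𝓞 F)}
    (h : PlaceOver A P) {q : ℕ} (hq : (q : 𝓞 F) ∈ P) : A.LiesOverPrime q := by
  have := (h _).1 hq
  simpa [ValuationSubring.LiesOverPrime] using this

theorem PlaceOver.absNorm_eq_pow {A : ValuationSubring Qbar} {P : Ideal (𝓞 F)}
    [hPp : P.IsPrime] (hP : P ≠ ⊥) :
    ∃ q : ℕ, q.Prime ∧ (q : 𝓞 F) ∈ P ∧ ∃ j, 1 ≤ j ∧ Ideal.absNorm P = q ^ j ∧
      (PlaceOver A P → A.LiesOverPrime q) := by
  obtain ⟨q, hq, j, hj, hN⟩ := PrimeIdeals.exists_prime_below ⟨P, hPp, hP⟩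
  exact ⟨q, q.2, hq, j, hj, hN, fun h => h.liesOverPrime hq⟩

/-- A congruence on algebraic integers extends to the place. -/
theorem isFrobeniusAt_of_forall_sub_mem {A : ValuationSubring Qbar} {q N : ℕ} (hq : q.Prime)
    (hA : A.LiesOverPrime q) {σ : GalQ} (hσA : σ ∈ A.decompositionSubgroup ℚ)
    (h : ∀ a : Zbar, σ • a - a ^ N ∈ primeBelow A) : A.IsFrobeniusAt σ N := by
  refine isFrobeniusAt_iff.2 ⟨hσA, fun x hx => ?_⟩
  obtain ⟨a, s, hs, hxs⟩ := exists_eq_div hq hA hx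
  have hσs : σ • s ∉ primeBelow A := fun hm => by
    have h' := sub_mem hm (h s)
    rw [sub_sub_cancel] at h'
    exact hs (Ideal.IsPrime.mem_of_pow_mem inferInstance _ h')
  rw [mem_primeBelow, ValuationSubring.mem_nonunits_iff, not_lt] at hσs
  have hv : A.valuation ((σ • s : Zbar) : Qbar) = 1 :=
    le_antisymm ((A.valuation_le_one_iff _).2 (mem_of_isIntegral A (σ • s : Zbar).2)) hσs
  have e : (σ x - x ^ N) * ((σ • s : Zbar) : Qbar) =
      ((σ • a - a ^ N : Zbar) : Qbar) - x ^ N * ((σ • s - s ^ N : Zbar) : Qbar) := by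
    have h1 : σ x * σ (s : Qbar) = σ (a : Qbar) := by rw [← map_mul, hxs]
    have h2 : x ^ N * (s : Qbar) ^ N = (a : Qbar) ^ N := by rw [← mul_pow, hxs]
    change (σ x - x ^ N) * σ (s : Qbar) =
      (σ (a : Qbar) - (a : Qbar) ^ N) - x ^ N * (σ (s : Qbar) - (s : Qbar) ^ N)
    linear_combination h1 - h2
  have h2 : A.valuation ((σ x - x ^ N) * ((σ • s : Zbar) : Qbar)) < 1 := by
    rw [e]
    refine A.valuation.map_sub_lt ((A.mem_nonunits_iff).1 (mem_primeBelow.1 (h a))) ?_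
    rw [map_mul]
    exact lt_of_le_of_lt (mul_le_of_le_one_left'
      ((A.valuation_le_one_iff _).2 (A.toSubring.pow_mem hx N)))
      ((A.mem_nonunits_iff).1 (mem_primeBelow.1 (h s)))
  rw [map_mul, hv, mul_one] at h2
  exact A.mem_nonunits_iff.2 h2

/-- Frobenius elements exist at every place over a prime. -/
theorem exists_frobenius_over {P : Ideal (𝓞 F)} [hPp : P.IsPrime] (hP : P ≠ ⊥)
    {A : ValuationSubring Qbar} (hA : PlaceOver A P) :
    ∃ g ∈ F.fixingSubgroup, A.IsFrobeniusAt g (Ideal.absNorm P) := by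
  obtain ⟨q, hq, hqP, j, hj, hN, hlies⟩ := PlaceOver.absNorm_eq_pow (A := A) hP
  have : Fact q.Prime := ⟨hq⟩
  have hAq := hlies hA
  set Q := primeBelow A with hQ
  have hQP : Q.comap (intEmb F) = P := placeOver_iff.1 hA
  have : CharP (Zbar ⧸ Q) q := by
    refine (CharP.charP_iff_prime_eq_zero hq).mpr ?_
    rw [← map_natCast (Ideal.Quotient.mk Q), Ideal.Quotient.eq_zero_iff_mem, mem_primeBelow]
    simpa [ValuationSubring.LiesOverPrime] using hAq
  let H : Subgroup GalQ := F.fixingSubgroup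
  have : CompactSpace H :=
    isCompact_iff_compactSpace.1 (InfiniteGalois.fixingSubgroup_isClosed F).isCompact
  let B' : Subalgebra ℤ Zbar := FixedPoints.subalgebra ℤ Zbar H
  have : SMulCommClass H B' Zbar := ⟨fun g b z => by
    change g • ((b : Zbar) * z) = (b : Zbar) * (g • z)
    rw [smul_mul', b.2 g]⟩
  have : Algebra.IsInvariant B' Zbar H := ⟨fun b hb => ⟨⟨b, hb⟩, rfl⟩⟩
  let P' : Ideal B' := Q.under B'
  have : Q.LiesOver P' := ⟨rfl⟩
  -- the residue field of `P` has `N P` elements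
  have hpow : ∀ y : 𝓞 F, y ^ Ideal.absNorm P - y ∈ P := by
    intro y
    have : P.IsMaximal := hPp.isMaximal hP
    let : Field (𝓞 F ⧸ P) := Ideal.Quotient.field P
    have : Finite (𝓞 F ⧸ P) := Ideal.finiteQuotientOfFreeOfNeBot P hP
    have : Fintype (𝓞 F ⧸ P) := Fintype.ofFinite _
    have hcard : Fintype.card (𝓞 F ⧸ P) = Ideal.absNorm P := by
      rw [← Nat.card_eq_fintype_card, ← Submodule.cardQuot_apply, ← Ideal.absNorm_apply]
    rw [← Ideal.Quotient.eq, map_pow, ← hcard]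
    exact FiniteField.pow_card _
  let e : Zbar ⧸ Q ≃+* Zbar ⧸ Q := RingEquiv.ofBijective
    (iterateFrobenius (Zbar ⧸ Q) q j) ⟨by
      intro a b hab
      simp only [iterateFrobenius_def] at hab
      rw [← sub_eq_zero] at hab ⊢
      rw [← sub_pow_char_pow] at hab
      exact eq_zero_of_pow_eq_zero hab, fun x => by
      obtain ⟨x, rfl⟩ := Ideal.Quotient.mk_surjective x
      obtain ⟨y, hy⟩ := IsAlgClosed.exists_pow_nat_eq (x : Qbar) (pow_pos hq.pos j)
      refine ⟨Ideal.Quotient.mk Q ⟨y, IsIntegral.of_pow (pow_pos hq.pos j) (hy ▸ x.2)⟩, ?_⟩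
      rw [iterateFrobenius_def, ← map_pow]
      exact congrArg (Ideal.Quotient.mk Q) (Subtype.ext hy)⟩
  have he : ∀ z, e z = z ^ Ideal.absNorm P := fun z => by
    rw [hN]
    exact iterateFrobenius_def q j z
  let e' : (Zbar ⧸ Q) ≃ₐ[B' ⧸ P'] (Zbar ⧸ Q) :=
    { e with
      commutes' := fun r => by
        obtain ⟨x, rfl⟩ := Ideal.Quotient.mk_surjective r
        obtain ⟨y, hy⟩ := exists_intEmb_eq_of_fixed F (x := (x : Zbar))
          fun g hg => congrArg Subtype.val (x.2 ⟨g, hg⟩)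
        change e (Ideal.Quotient.mk Q (x : Zbar)) = Ideal.Quotient.mk Q (x : Zbar)
        rw [he, ← map_pow, Ideal.Quotient.eq, ← hy, ← map_pow, ← map_sub, ← Ideal.mem_comap, hQP]
        exact hpow y }
  obtain ⟨⟨m, hmQ⟩, hm⟩ := Ideal.Quotient.stabilizerHom_surjective_of_profinite (G := H) P' Q e'
  have hmQ' : (m : GalQ) • Q = Q := MulAction.mem_stabilizer_iff.1 hmQ
  refine ⟨m, m.2, isFrobeniusAt_of_forall_sub_mem hq hAq ?_ fun a => ?_⟩
  · exact MulAction.mem_stabilizer_iff.2 (eq_of_primeBelow_eq hq (smul_liesOverPrime _ hAq) hAq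
      (by rw [primeBelow_smul, hmQ']))
  · rw [← Ideal.Quotient.eq, map_pow, ← he]
    exact DFunLike.congr_fun hm (Ideal.Quotient.mk Q a)

/-- All places over `P` are conjugate. -/
theorem exists_smul_eq_of_placeOver {P : Ideal (𝓞 F)} [hPp : P.IsPrime] (hP : P ≠ ⊥)
    {A A' : ValuationSubring Qbar} (hA : PlaceOver A P) (hA' : PlaceOver A' P) :
    ∃ h ∈ F.fixingSubgroup, h • A = A' := by
  obtain ⟨q, hq, hqP, -⟩ := PlaceOver.absNorm_eq_pow (A := A) hP
  let H : Subgroup GalQ := F.fixingSubgroup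
  have : CompactSpace H :=
    isCompact_iff_compactSpace.1 (InfiniteGalois.fixingSubgroup_isClosed F).isCompact
  let B' : Subalgebra ℤ Zbar := FixedPoints.subalgebra ℤ Zbar H
  have : SMulCommClass H B' Zbar := ⟨fun g b z => by
    change g • ((b : Zbar) * z) = (b : Zbar) * (g • z)
    rw [smul_mul', b.2 g]⟩
  have : Algebra.IsInvariant B' Zbar H := ⟨fun b hb => ⟨⟨b, hb⟩, rfl⟩⟩
  have hunder : (primeBelow A).under B' = (primeBelow A').under B' := by
    ext x
    obtain ⟨y, hy⟩ := exists_intEmb_eq_of_fixed F (x := (x : Zbar))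
      fun g hg => congrArg Subtype.val (x.2 ⟨g, hg⟩)
    change (x : Zbar) ∈ primeBelow A ↔ (x : Zbar) ∈ primeBelow A'
    rw [← hy, ← Ideal.mem_comap, ← Ideal.mem_comap, placeOver_iff.1 hA, placeOver_iff.1 hA']
  obtain ⟨n, hn⟩ := Algebra.IsInvariant.exists_smul_of_under_eq_of_profinite (A := B') (G := H)
    (primeBelow A) (primeBelow A') hunder
  refine ⟨n, n.2, eq_of_primeBelow_eq hq (smul_liesOverPrime _ (hA.liesOverPrime hqP))
    (hA'.liesOverPrime hqP) ?_⟩
  rw [primeBelow_smul]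
  exact hn.symm

theorem exists_isFrobOver {P : Ideal (𝓞 F)} [hPp : P.IsPrime] (hP : P ≠ ⊥) :
    ∃ g, IsFrobOver F P g := by
  obtain ⟨-, A, -, -, -, hA⟩ := exists_placeOver P hP
  obtain ⟨g, hg, hgA⟩ := exists_frobenius_over hP hA
  exact ⟨g, hg, A, hA, hgA⟩

variable {G : Type} [CommGroup G]

/-- `χ` kills the inertia groups over `P`. -/
def IsUnramifiedChar (χ : F.fixingSubgroup →* G) (P : Ideal (𝓞 F)) : Prop :=
  ∀ A : ValuationSubring Qbar, PlaceOver A P →
    ∀ σ : F.fixingSubgroup, (σ : GalQ) ∈ A.inertiaSubgroupIn ℚ → χ σ = 1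

/-- An unramified character has one value on the Frobenius elements over a prime. -/
theorem eq_of_isFrobOver {χ : F.fixingSubgroup →* G} {P : Ideal (𝓞 F)} [hPp : P.IsPrime]
    (hP : P ≠ ⊥) (hχ : IsUnramifiedChar χ P) {g g' : GalQ} (hg : IsFrobOver F P g)
    (hg' : IsFrobOver F P g') : χ ⟨g, hg.1⟩ = χ ⟨g', hg'.1⟩ := by
  obtain ⟨hgF, A, hA, hAg⟩ := hg
  obtain ⟨hg'F, A', hA', hAg'⟩ := hg'
  obtain ⟨h, hh, rfl⟩ := exists_smul_eq_of_placeOver hP hA hA'
  have hconj := isFrobeniusAt_smul hAg h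
  have hI := inv_mul_mem_inertiaSubgroupIn hconj hAg'
  let a : F.fixingSubgroup := ⟨h, hh⟩
  let b : F.fixingSubgroup := ⟨g, hgF⟩
  let c : F.fixingSubgroup := ⟨g', hg'F⟩
  have hI' : (((a * b * a⁻¹)⁻¹ * c : F.fixingSubgroup) : GalQ) ∈ (h • A).inertiaSubgroupIn ℚ := by
    simp only [Subgroup.coe_mul, Subgroup.coe_inv, a, b, c]
    exact hI
  have h1 : χ ((a * b * a⁻¹)⁻¹ * c) = 1 := hχ (h • A) hA' _ hI'
  rw [map_mul, map_inv, inv_mul_eq_one, map_mul, map_mul, map_inv, mul_inv_cancel_comm] at h1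
  exact h1

/-- The value of a character at the Frobenius elements over a prime. -/
def frobVal (χ : F.fixingSubgroup →* G) (P : Ideal (𝓞 F)) : G :=
  Classical.epsilon fun a => ∃ g : GalQ, ∃ hg : IsFrobOver F P g, χ ⟨g, hg.1⟩ = a

theorem frobVal_eq {χ : F.fixingSubgroup →* G} {P : Ideal (𝓞 F)} [hPp : P.IsPrime]
    (hP : P ≠ ⊥) (hχ : IsUnramifiedChar χ P) {g : GalQ} (hg : IsFrobOver F P g) :
    frobVal χ P = χ ⟨g, hg.1⟩ := by
  obtain ⟨g', hg', e⟩ := Classical.epsilon_spec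
    (p := fun a => ∃ g' : GalQ, ∃ hg' : IsFrobOver F P g', χ ⟨g', hg'.1⟩ = a) ⟨_, g, hg, rfl⟩
  exact e.symm.trans (eq_of_isFrobOver hP hχ hg' hg)

theorem isFrobeniusAt_pow {A : ValuationSubring Qbar} {N : ℕ} {g : GalQ}
    (h : A.IsFrobeniusAt g N) (j : ℕ) : A.IsFrobeniusAt (g ^ j) (N ^ j) := by
  obtain ⟨hd, hc⟩ := isFrobeniusAt_iff.1 h
  refine isFrobeniusAt_iff.2 ⟨Subgroup.pow_mem _ hd j, fun x hx => ?_⟩
  induction j with
  | zero =>
    rw [pow_zero, pow_zero, pow_one, AlgEquiv.one_apply, sub_self,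
      ValuationSubring.mem_nonunits_iff,
      map_zero]
    exact zero_lt_one
  | succ j ih =>
    rw [pow_succ' g, AlgEquiv.mul_apply, pow_succ N, pow_mul]
    have hy : (g ^ j) x ∈ A := (apply_mem_iff (Subgroup.pow_mem _ hd j) x).2 hx
    have h1 := hc _ hy
    have h2 : ((g ^ j) x) ^ N - (x ^ N ^ j) ^ N ∈ A.nonunits := by
      obtain ⟨hmem, h3⟩ := ValuationSubring.mem_nonunits_iff_exists_mem_maximalIdeal.1 ih
      obtain ⟨c, hc'⟩ := sub_dvd_pow_sub_pow (⟨(g ^ j) x, hy⟩ : A)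
        ⟨x ^ N ^ j, A.toSubring.pow_mem hx _⟩ N
      have h4 : ((⟨(g ^ j) x, hy⟩ : A) ^ N - ⟨x ^ N ^ j, A.toSubring.pow_mem hx _⟩ ^ N) ∈
          IsLocalRing.maximalIdeal A := hc' ▸ Ideal.mul_mem_right _ _ h3
      exact ValuationSubring.coe_mem_nonunits_iff.2 h4
    have h5 := A.nonunits.add_mem h1 h2
    rwa [show g ((g ^ j) x) - (g ^ j) x ^ N + ((g ^ j) x ^ N - (x ^ N ^ j) ^ N) =
      g ((g ^ j) x) - (x ^ N ^ j) ^ N by ring] at h5

/-- A Frobenius element raises roots of unity prime to the residue characteristic to the power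
`N`. -/
theorem apply_root_of_unity {A : ValuationSubring Qbar} {N : ℕ} {g : GalQ}
    (h : A.IsFrobeniusAt g N) {m : ℕ} (hm : (m : Qbar) ∉ A.nonunits) {z : Qbar}
    (hz : z ^ m = 1) : g z = z ^ N := by
  have hm0 : m ≠ 0 := by
    rintro rfl
    exact hm (by rw [Nat.cast_zero, ValuationSubring.mem_nonunits_iff, map_zero]; exact zero_lt_one)
  have hzA : z ∈ A :=
    mem_of_isIntegral A (IsIntegral.of_pow (Nat.pos_of_ne_zero hm0) (hz ▸ isIntegral_one))
  obtain ⟨hd, hc⟩ := isFrobeniusAt_iff.1 h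
  by_contra hne
  set x : A := ⟨g z, (apply_mem_iff hd z).2 hzA⟩
  set y : A := ⟨z ^ N, A.toSubring.pow_mem hzA N⟩
  have hxm : x ^ m = 1 := Subtype.ext (by show g z ^ m = 1; rw [← map_pow, hz, map_one])
  have hym : y ^ m = 1 := Subtype.ext (by
    show (z ^ N) ^ m = 1
    rw [← pow_mul, mul_comm, pow_mul, hz, one_pow])
  have hxy : (∑ i ∈ Finset.range m, x ^ i * y ^ (m - 1 - i)) * (x - y) = 0 := by
    rw [geom_sum₂_mul, hxm, hym, sub_self]
  have hsum := (mul_eq_zero.mp hxy).resolve_right fun h0 =>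
    hne (congrArg Subtype.val (sub_eq_zero.mp h0))
  have hmod : IsLocalRing.residue A x = IsLocalRing.residue A y := by
    rw [← sub_eq_zero, ← map_sub, IsLocalRing.residue_eq_zero_iff,
      ← ValuationSubring.coe_mem_nonunits_iff]
    exact hc z hzA
  have h1 := congrArg (IsLocalRing.residue A) hsum
  rw [map_sum, map_zero] at h1
  simp only [map_mul, map_pow, hmod, ← pow_add] at h1
  rw [Finset.sum_congr rfl fun i hi => by
    rw [show i + (m - 1 - i) = m - 1 by have := Finset.mem_range.mp hi; omega],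
    Finset.sum_const, Finset.card_range, nsmul_eq_mul, mul_eq_zero] at h1
  have hy0 : IsLocalRing.residue A y ≠ 0 := fun h0 => by
    have e := congrArg (IsLocalRing.residue A) hym
    rw [map_pow, h0, zero_pow hm0, map_one] at e
    exact zero_ne_one e
  have h2 := h1.resolve_right (pow_ne_zero _ hy0)
  rw [← map_natCast (IsLocalRing.residue A), IsLocalRing.residue_eq_zero_iff,
    ← ValuationSubring.coe_mem_nonunits_iff] at h2
  exact hm (by simpa using h2)

section Tower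

variable {F' : IntermediateField ℚ Qbar} [NumberField F'] [Algebra F F'] [IsScalarTower ℚ F F']

omit [IsScalarTower ℚ F F'] in
/-- The Frobenius of a prime upstairs is a power of the one downstairs, up to inertia. -/
theorem exists_pow_of_liesOver (hval : ∀ x : F, ((algebraMap F F' x : F') : Qbar) = (x : Qbar))
    {P : Ideal (𝓞 F)} [hPp : P.IsPrime] (hP : P ≠ ⊥)
    {Q : Ideal (𝓞 F')} [_hQp : Q.IsPrime] [hQP : Q.LiesOver P] :
    ∃ j : ℕ, Ideal.relNorm (𝓞 F) Q = P ^ j ∧ Ideal.absNorm Q = Ideal.absNorm P ^ j ∧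
      ∀ {χ : F.fixingSubgroup →* G}, IsUnramifiedChar χ P → ∀ {g : GalQ}, IsFrobOver F' Q g →
        ∀ hgF : g ∈ F.fixingSubgroup, χ ⟨g, hgF⟩ = frobVal χ P ^ j := by
  obtain ⟨j, hj⟩ := Ideal.exists_relNorm_eq_pow_of_isPrime Q P
  have hN : Ideal.absNorm Q = Ideal.absNorm P ^ j := by
    rw [← Ideal.absNorm_relNorm (R := 𝓞 F) (I := Q), hj, map_pow]
  refine ⟨j, hj, hN, fun {χ} hχ {g} hg hgF => ?_⟩
  obtain ⟨-, A, hA, hAg⟩ := hg
  have hAP : PlaceOver A P := fun x => by
    rw [Ideal.mem_of_liesOver Q P x, hA]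
    exact Iff.of_eq (congrArg (· ∈ A.nonunits) (hval (x : F)))
  obtain ⟨t, ht, hAt⟩ := exists_frobenius_over hP hAP
  rw [frobVal_eq hP hχ ⟨ht, A, hAP, hAt⟩, ← map_pow]
  have hpowj := isFrobeniusAt_pow hAt j
  rw [← hN] at hpowj
  have hI := inv_mul_mem_inertiaSubgroupIn hpowj hAg
  let a : F.fixingSubgroup := ⟨t, ht⟩
  let c : F.fixingSubgroup := ⟨g, hgF⟩
  have hI' : (((a ^ j)⁻¹ * c : F.fixingSubgroup) : GalQ) ∈ A.inertiaSubgroupIn ℚ := by
    simp only [Subgroup.coe_mul, Subgroup.coe_inv, SubgroupClass.coe_pow, a, c]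
    exact hI
  have h1 : χ ((a ^ j)⁻¹ * c) = 1 := hχ A hAP _ hI'
  rw [map_mul, map_inv, inv_mul_eq_one] at h1
  exact h1.symm

end Tower

/-- **Chebotarev** for primes of degree one. -/
theorem exists_degreeOne_frobenius (L : IntermediateField ℚ Qbar) [FiniteDimensional ℚ L]
    [IsGalois ℚ L] (hFL : F ≤ L) (σ : GalQ) (hσ : σ ∈ F.fixingSubgroup) {B : ℕ} (hB : B ≠ 0) :
    ∃ (q : ℕ) (P : Ideal (𝓞 F)) (g : GalQ), q.Prime ∧ ¬ q ∣ B ∧ P.IsPrime ∧ P ≠ ⊥ ∧
      Ideal.absNorm P = q ∧ IsFrobOver F P g ∧ (∀ x ∈ L, g x = σ x) := by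
  classical
  obtain ⟨q, hq, hqB, A, hA, -, g, hg, hgσ⟩ := exists_frobenius_agree L σ B.divisors
  have hgF : g ∈ F.fixingSubgroup := fun x => by
    show g (x : Qbar) = (x : Qbar)
    rw [← hgσ x (hFL x.2)]
    exact hσ x
  have : Fact q.Prime := ⟨hq⟩
  set P : Ideal (𝓞 F) := (primeBelow A).comap (intEmb F) with hP
  have hPA : PlaceOver A P := placeOver_iff.2 rfl
  have hqP : (q : 𝓞 F) ∈ P := by
    rw [hP, Ideal.mem_comap, map_natCast, mem_primeBelow]
    simpa [ValuationSubring.LiesOverPrime] using hA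
  have hP0 : P ≠ ⊥ := fun h => by
    rw [h, Ideal.mem_bot] at hqP
    exact hq.ne_zero (Nat.cast_eq_zero.1 hqP)
  have : P.IsPrime := Ideal.comap_isPrime _ _
  have hN : Ideal.absNorm P = q := by
    have : P.IsMaximal := (inferInstance : P.IsPrime).isMaximal hP0
    let : Field (𝓞 F ⧸ P) := Ideal.Quotient.field P
    have : Finite (𝓞 F ⧸ P) := Ideal.finiteQuotientOfFreeOfNeBot P hP0
    have : Fintype (𝓞 F ⧸ P) := Fintype.ofFinite _
    have : CharP (𝓞 F ⧸ P) q := by
      refine (CharP.charP_iff_prime_eq_zero hq).mpr ?_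
      rw [← map_natCast (Ideal.Quotient.mk P), Ideal.Quotient.eq_zero_iff_mem]
      exact hqP
    have hfix : ∀ z : 𝓞 F ⧸ P, z ^ q = z := by
      intro z
      obtain ⟨y, rfl⟩ := Ideal.Quotient.mk_surjective z
      rw [← map_pow, eq_comm, Ideal.Quotient.eq, hPA]
      have hyA : ((y : F) : Qbar) ∈ A :=
        mem_of_isIntegral A ((y.isIntegral_coe).map (F.val.restrictScalars ℤ))
      have := (isFrobeniusAt_iff.1 hg).2 ((y : F) : Qbar) hyA
      rw [show g ((y : F) : Qbar) = ((y : F) : Qbar) from hgF (y : F)] at this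
      simpa using this
    rw [Ideal.absNorm_apply, Submodule.cardQuot_apply, Nat.card_eq_fintype_card]
    refine le_antisymm ?_ ?_
    · have hX : (Polynomial.X ^ q - Polynomial.X : Polynomial (𝓞 F ⧸ P)) ≠ 0 :=
        FiniteField.X_pow_card_sub_X_ne_zero _ hq.one_lt
      refine le_trans ?_ ((Polynomial.card_roots' _).trans_eq
        (FiniteField.X_pow_card_sub_X_natDegree_eq (𝓞 F ⧸ P) hq.one_lt))
      rw [← Finset.card_univ]
      refine le_trans (Finset.card_le_card (t := (Polynomial.roots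
        (Polynomial.X ^ q - Polynomial.X : Polynomial (𝓞 F ⧸ P))).toFinset) fun z _ => ?_)
        (Multiset.toFinset_card_le _)
      rw [Multiset.mem_toFinset, Polynomial.mem_roots hX]
      simp [hfix z]
    · obtain ⟨n, hn, hcard⟩ := FiniteField.card (𝓞 F ⧸ P) q
      rw [hcard]
      exact Nat.le_self_pow n.ne_zero q
  refine ⟨q, P, g, hq, fun h => hqB (Nat.mem_divisors.2 ⟨h, hB⟩), inferInstance, hP0, hN,
    ⟨hgF, A, hPA, hN.symm ▸ hg⟩, fun x hx => (hgσ x hx).symm⟩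

end FLTAgent.LanglandsTunnell.CFT
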