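import Fermat.Agent.LanglandsTunnell.CFT.ArtinPrime
import Fermat.Agent.LanglandsTunnell.Interfaces

/-!
# The Hasse norm theorem for cyclic cubic extensions

An element which is a norm everywhere locally is a global norm (`exists_norm_eq_of_local`), in the
form `HasseNormSpec` needed by the trace identity (`hasseNormSpec`).
-/

set_option autoImplicit false

noncomputable section

open NumberField IsDedekindDomain
open scoped Pointwise Classical

namespace FLTAgent.LanglandsTunnell.CFT

open FLTAgent.Density FLTAgent.ExtVanishing FLTAgent.LanglandsTunnell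
open FLTAgent.GalCoh FLTAgent.GlobalDuality FLTAgent.IdeleClassCohomology FLTAgent.LocalDuality

variable {K : IntermediateField ℚ Qbar} [FiniteDimensional ℚ K]

/-- The local hypothesis of `HasseNormSpec` as an inequality of absolute values. -/
theorem exists_norm_div_sub_one_lt (q : Nat.Primes) (σ : GalQ) {ε : ℝ} (hε : 0 < ε) :
    ∃ k : ℕ, ∀ (σ' : GalQ), placeIdeal K q σ' = placeIdeal K q σ → ∀ (a b : 𝓞 K) (N x : Qbar),
      b ∉ (placeIdeal K q σ).asIdeal → a ∈ (placeIdeal K q σ).asIdeal ^ k → x ≠ 0 →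
      (N - x) * ((b : K) : Qbar) = x * ((a : K) : Qbar) →
      ‖emb q (σ' N) / emb q (σ' x) - 1‖ < ε := by
  obtain ⟨k, hk⟩ := exists_pow_norm_lt (K := K) q σ hε
  refine ⟨k, fun σ' h a b N x hb ha hx e => ?_⟩
  have hb1 : ‖emb q (σ' ((b : K) : Qbar))‖ = 1 :=
    le_antisymm (norm_placeEmb_le_one (q := q) (σ := σ') b) (not_lt.1 fun hlt => hb (h ▸ hlt))
  have hx' : emb q (σ' x) ≠ 0 := fun h0 => hx (σ'.injective ((emb q).injective
    (h0.trans ((congrArg (emb q) (map_zero σ')).trans (map_zero _)).symm)))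
  have h1 := congrArg (fun z => emb q (σ' z)) e
  simp only [map_mul, map_sub] at h1
  have h2 : emb q (σ' N) / emb q (σ' x) - 1 =
      emb q (σ' ((a : K) : Qbar)) / emb q (σ' ((b : K) : Qbar)) := by
    rw [div_sub_one hx',
      div_eq_div_iff hx' (fun h0 => by rw [h0, norm_zero] at hb1; norm_num at hb1)]
    linear_combination h1
  rw [h2, norm_div, hb1, div_one]
  exact lt_of_eq_of_lt (norm_eq_of_placeIdeal_eq h (a : K)) (hk k le_rfl a ha)

theorem val_sum_three {p : ℕ} (hp : p = 3) (σ : GalQ) (α : GU) :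
    (∑ i ∈ Finset.range p, σ ^ i • α).val = α.val * σ α.val * σ (σ α.val) := by
  subst hp
  rw [Finset.sum_range_succ, Finset.sum_range_succ, Finset.sum_range_one, GU.val_add, GU.val_add,
    pow_zero, one_smul, pow_one, pow_two, mul_smul, GU.val_smul, GU.val_smul, GU.val_smul]

/-- An element which is a norm everywhere locally is a norm from a cyclic cubic step. -/
theorem exists_norm_eq_of_local (D : CyclicStep 3) [Fact (Nat.Prime 3)] (x : D.K) (hx : x ≠ 0)
    (hloc : ∀ v : Ideal (𝓞 D.K), v.IsPrime → v ≠ ⊥ → ∀ k : ℕ, ∃ y : D.L, y ≠ 0 ∧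
      ∃ a b : 𝓞 D.K, b ∉ v ∧ a ∈ v ^ k ∧
        ((y : Qbar) * D.g (y : Qbar) * D.g (D.g (y : Qbar)) - (x : Qbar)) * ((b : D.K) : Qbar) =
          (x : Qbar) * ((a : D.K) : Qbar)) :
    ∃ y : D.L, (y : Qbar) * D.g (y : Qbar) * D.g (D.g (y : Qbar)) = (x : Qbar) := by
  set γ := (fixedUnit D.K hx).1 with hγdef
  have hγ : γ ∈ fixedPts D.bot GU := (fixedUnit D.K hx).2
  -- the bad primes
  obtain ⟨T, hT⟩ := CyclicStep.exists_finset_unramified (D := D)
  set T' : Finset Nat.Primes := T ∪ (finite_norm_emb_ne_one γ).toFinset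
  have hRfin : {v : HeightOneSpectrum (𝓞 D.K) | ∃ q ∈ T', ∃ σ, placeIdeal D.K q σ = v}.Finite :=
    (T'.finite_toSet.biUnion fun q _ => finite_setOf_placeIdeal D.K q).subset
      fun v ⟨q, hq, h⟩ => Set.mem_biUnion hq h
  set R := hRfin.toFinset
  have hout : ∀ q σ, placeIdeal D.K q σ ∉ R → q ∉ T ∧ ‖emb q (σ γ.val)‖ = 1 := by
    intro q σ h
    have hq : q ∉ T' := fun hq => h (hRfin.mem_toFinset.2 ⟨q, hq, σ, rfl⟩)
    refine ⟨fun h' => hq (Finset.mem_union_left _ h'), ?_⟩
    by_contra hne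
    exact hq (Finset.mem_union_right _ ((finite_norm_emb_ne_one γ).mem_toFinset.2 ⟨σ, hne⟩))
  -- local norms
  have hy : ∀ v : HeightOneSpectrum (𝓞 D.K), ∃ y : D.L, ∃ hy0 : y ≠ 0,
      ∀ q σ, placeIdeal D.K q σ = v →
        ‖emb q (σ ((y : Qbar) * D.g (y : Qbar) * D.g (D.g (y : Qbar)))) /
            emb q (σ (x : Qbar)) - 1‖ <
          ‖((3 : ℕ) : PadicAlgCl (q : ℕ))‖ ^ 2 := by
    intro v
    obtain ⟨q, σ, rfl⟩ := exists_placeIdeal_eq v
    obtain ⟨k, hk⟩ := exists_norm_div_sub_one_lt (K := D.K) q σ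
      (pow_pos (norm_pos_iff.2 (Nat.cast_ne_zero.2 (by norm_num : (3 : ℕ) ≠ 0) :
        ((3 : ℕ) : PadicAlgCl (q : ℕ)) ≠ 0)) 2)
    obtain ⟨y, hy0, a, b, hb, ha, e⟩ := hloc _ (placeIdeal D.K q σ).isPrime
      (placeIdeal D.K q σ).ne_bot k
    refine ⟨y, hy0, fun q' σ' h => ?_⟩
    obtain rfl := eq_prime_of_placeIdeal_eq h
    exact hk σ' h a b _ _ hb ha (fun h0 => hx (Subtype.ext h0)) e
  choose y hy0 hy using hy
  obtain ⟨M, hM⟩ := exists_layer_sub_le D.K
  let jv : HeightOneSpectrum (𝓞 D.K) → Idele := fun v =>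
    cut hM (isStableSet_placeSet v) (principal (fixedUnit D.L (hy0 v)).1)
  have hjv : ∀ v, jv v ∈ fixedPts D.top Idele := fun v => cut_mem_fixedPts hM _ D.top_le
    (principal_mem_fixedPts_iff.2 (fixedUnit D.L (hy0 v)).2)
  let Nm : Idele → Idele := fun z => ∑ i ∈ Finset.range 3, D.g ^ i • z
  have hNjv : ∀ v, Nm (jv v) = cut hM (isStableSet_placeSet v)
      (principal (∑ i ∈ Finset.range 3, D.g ^ i • (fixedUnit D.L (hy0 v)).1)) := by
    intro v
    simp only [Nm, map_sum, principal_smul]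
    exact Finset.sum_congr rfl fun i _ =>
      (cut_smul hM (isStableSet_placeSet v) (D.bot.pow_mem D.mem i) _).symm
  have hNfix : ∀ v, Nm (jv v) ∈ fixedPts D.bot Idele := by
    intro v
    refine (D.mem_fixedPts_bot (sum_mem fun i _ => ?_)).2 ?_
    · have : ∀ j : ℕ, D.g ^ j • jv v ∈ fixedPts D.top Idele := by
        intro j
        induction j with
        | zero => rw [pow_zero, one_smul]; exact hjv v
        | succ j ih => rw [pow_succ', mul_smul]; exact D.smul_mem_top ih
      exact this i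
    · simp only [Finset.smul_sum, ← mul_smul, ← pow_succ']
      apply add_right_cancel (b := D.g ^ 0 • jv v)
      rw [← Finset.sum_range_succ' (fun i => D.g ^ i • jv v), Finset.sum_range_succ,
        hjv v _ D.pow_mem, pow_zero, one_smul]
  set x' : Idele := principal γ - ∑ v ∈ R, Nm (jv v) with hx'
  have hx'fix : x' ∈ fixedPts D.bot Idele :=
    sub_mem (principal_mem_fixedPts_iff.2 hγ) (sum_mem fun v _ => hNfix v)
  obtain ⟨z, hz, hzN⟩ := exists_norm_of_forall_local' D hx'fix fun q σ => by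
    right
    have hat : x'.at q σ = (principal γ).at q σ - ∑ v ∈ R, (Nm (jv v)).at q σ := by
      rw [hx', Idele.at_sub]
      exact congrArg _ (map_sum (Idele.atHom q σ) _ _)
    by_cases hv : placeIdeal D.K q σ ∈ R
    · right
      rw [hat, Finset.sum_eq_single (placeIdeal D.K q σ) (fun v _ hne => by
          rw [hNjv, at_cut_of_notMem hM _ _ fun h : placeIdeal D.K q σ = v => hne h.symm])
        (fun h => absurd hv h), hNjv,
        at_cut_of_mem hM (isStableSet_placeSet _) _
          (show (q, σ) ∈ placeSet (placeIdeal D.K q σ) from rfl)]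
      show ‖((((principal γ).at q σ).toMul / ((principal _).at q σ).toMul :
        (PadicAlgCl (q : ℕ))ˣ) : PadicAlgCl (q : ℕ)) - 1‖ < _
      rw [Units.val_div_eq_div_val]
      show ‖((principal γ).at q σ).val / ((principal _).at q σ).val - 1‖ < _
      rw [at_principal, at_principal, val_sum_three rfl]
      show ‖emb q (σ (x : Qbar)) / emb q (σ ((y _ : Qbar) * D.g (y _ : Qbar) *
        D.g (D.g (y _ : Qbar)))) - 1‖ < _
      have h1 := hy _ q σ rfl
      set A := emb q (σ ((y (placeIdeal D.K q σ) : Qbar) * D.g (y (placeIdeal D.K q σ) : Qbar) *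
        D.g (D.g (y (placeIdeal D.K q σ) : Qbar))))
      set B := emb q (σ (x : Qbar))
      have hB : B ≠ 0 := fun h0 => hx (Subtype.ext (σ.injective ((emb q).injective
        (h0.trans ((congrArg (emb q) (map_zero σ)).trans (map_zero _)).symm))))
      have hAB : ‖A / B‖ = 1 := by
        have hlt : ‖A / B - 1‖ < 1 := h1.trans_le
          (pow_le_one₀ (norm_nonneg _) (norm_natCast_le_one q 3))
        rw [show A / B = (A / B - 1) + 1 by ring,
          IsUltrametricDist.norm_add_eq_max_of_norm_ne_norm (by rw [norm_one]; exact hlt.ne),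
          norm_one, max_eq_right hlt.le]
      have hA : A ≠ 0 := fun h0 => by
        rw [h0, zero_div, norm_zero] at hAB
        exact zero_ne_one hAB
      rwa [show B / A - 1 = -(A / B - 1) / (A / B) by field_simp; ring, norm_div, norm_neg, hAB,
        div_one]
    · left
      obtain ⟨hqT, hu⟩ := hout q σ hv
      refine ⟨?_, fun t ht y hy => hT q hqT σ t ht y hy⟩
      rw [hat, Finset.sum_eq_zero fun v hvR => by
        rw [hNjv, at_cut_of_notMem hM _ _ fun h : placeIdeal D.K q σ = v => hv (h ▸ hvR)],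
        sub_zero]
      exact hu
  -- `principal γ` is a norm
  set j := z + ∑ v ∈ R, jv v with hj
  have hjfix : j ∈ fixedPts D.top Idele := add_mem hz (sum_mem fun v _ => hjv v)
  have hjN : ∑ i ∈ Finset.range 3, D.g ^ i • j = principal γ := by
    simp only [hj, smul_add, Finset.sum_add_distrib, hzN, Finset.smul_sum]
    rw [Finset.sum_comm]
    exact sub_add_cancel _ _
  -- Hilbert 90 for classes
  obtain ⟨d, hd, hcd⟩ := exists_eq_smul_sub D (Or.inl (by norm_num)) (c := classMap j)
    (fun s hs => by rw [← classMap_smul, hjfix s hs])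
    (by
      rw [← Finset.sum_congr rfl fun i _ => classMap_smul (D.g ^ i) j, ← map_sum, hjN]
      exact (classMap_eq_zero_iff _).2 ⟨γ, rfl⟩)
  obtain ⟨j₂, hj₂, rfl⟩ := exists_idele_lift D.top hd
  rw [← classMap_smul, ← map_sub, ← sub_eq_zero, ← map_sub, classMap_eq_zero_iff] at hcd
  obtain ⟨α, hα⟩ := hcd
  have hαfix : α ∈ fixedPts D.top GU := principal_mem_fixedPts_iff.1
    (hα ▸ sub_mem hjfix (sub_mem (D.smul_mem_top hj₂) hj₂))
  have hαN : ∑ i ∈ Finset.range 3, D.g ^ i • α = γ := by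
    refine principal_injective ?_
    simp only [map_sum, principal_smul, hα, smul_sub, Finset.sum_sub_distrib, hjN]
    have h3 : D.g ^ 3 • j₂ = j₂ := hj₂ _ D.pow_mem
    simp only [Finset.sum_range_succ, Finset.sum_range_zero, zero_add, pow_zero, one_smul, pow_one,
      ← mul_smul, one_mul]
    rw [show D.g ^ 2 * D.g = D.g ^ 3 by group, show D.g * D.g = D.g ^ 2 from (pow_two _).symm, h3]
    abel
  refine ⟨⟨α.val, val_mem_of_fixed D.L hαfix⟩, ?_⟩
  exact ((val_sum_three rfl D.g α).symm.trans (congrArg GU.val hαN) :)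

theorem hasseNormSpec : FLTAgent.LanglandsTunnell.HasseNormSpec := by
  intro L L' _ _ hle σ hσL hσL' hσ3 hσfix hne x hx hloc
  have : Fact (Nat.Prime 3) := ⟨Nat.prime_three⟩
  obtain ⟨y₀, hy₀, hy₀σ⟩ := hne
  -- the step
  set N' := L'.fixingSubgroup
  set N := Subgroup.zpowers σ ⊔ N'
  have hnorm : σ ∈ Subgroup.normalizer (N' : Set GalQ) := by
    rw [Subgroup.mem_normalizer_iff]
    have hone : ∀ m ∈ N', σ * m * σ⁻¹ ∈ N' := fun m hm => by
      rw [IntermediateField.mem_fixingSubgroup_iff]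
      intro y hy
      have hz : σ⁻¹ y ∈ L' := by
        rw [show σ⁻¹ y = σ (σ y) from σ.injective ((σ.apply_symm_apply y).trans (hσ3 y hy).symm)]
        exact hσL' _ (hσL' _ hy)
      rw [AlgEquiv.mul_apply, AlgEquiv.mul_apply,
        (IntermediateField.mem_fixingSubgroup_iff _ _).1 hm _ hz]
      exact σ.apply_symm_apply y
    refine fun m => ⟨hone m, fun h => ?_⟩
    have h3 : σ ^ 3 ∈ N' := by
      rw [IntermediateField.mem_fixingSubgroup_iff]
      intro y hy
      simp only [pow_succ, pow_zero, one_mul, AlgEquiv.mul_apply]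
      exact hσ3 y hy
    have h2 := hone _ (hone _ h)
    have h4 := N'.mul_mem (N'.mul_mem (N'.inv_mem h3) h2) h3
    rw [show (σ ^ 3)⁻¹ * (σ * (σ * (σ * m * σ⁻¹) * σ⁻¹) * σ⁻¹) * σ ^ 3 = m by group] at h4
    exact h4
  have hNle : N ≤ Subgroup.normalizer (N' : Set GalQ) :=
    sup_le (Subgroup.zpowers_le.2 hnorm) Subgroup.le_normalizer
  have hnormal : (N'.subgroupOf N).Normal := Subgroup.normal_subgroupOf_of_le_normalizer hNle
  obtain ⟨M, hM⟩ := Layer.exists_ge L'
  have hMN : M.sub ≤ N' := IntermediateField.fixingSubgroup_antitone hM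
  have h3 : σ ^ 3 ∈ N' := by
    rw [IntermediateField.mem_fixingSubgroup_iff]
    intro y hy
    simp only [pow_succ, pow_zero, one_mul, AlgEquiv.mul_apply]
    exact hσ3 y hy
  have hσN' : σ ∉ N' := fun h => hy₀σ ((IntermediateField.mem_fixingSubgroup_iff _ _).1 h y₀ hy₀)
  have hσN : σ ∈ N := (le_sup_left : Subgroup.zpowers σ ≤ N) (Subgroup.mem_zpowers σ)
  have hidx : N'.relIndex N = 3 := by
    have := hnormal
    set s : N ⧸ N'.subgroupOf N := QuotientGroup.mk ⟨σ, hσN⟩
    have hs3 : s ^ 3 = 1 := by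
      simp only [s, ← QuotientGroup.mk_pow, QuotientGroup.eq_one_iff, Subgroup.mem_subgroupOf]
      exact h3
    have hs1 : s ≠ 1 := fun h => hσN'
      ((QuotientGroup.eq_one_iff (N := N'.subgroupOf N) (⟨σ, hσN⟩ : N)).1 h)
    have hgen : ∀ z, z ∈ Subgroup.zpowers s := by
      intro z
      induction z using QuotientGroup.induction_on with
      | _ n =>
        obtain ⟨n, hn⟩ := n
        have hn' : n ∈ ((Subgroup.zpowers σ : Subgroup GalQ) : Set GalQ) * (N' : Set GalQ) := by
          rw [← Subgroup.coe_mul_of_left_le_normalizer_right _ _ (Subgroup.zpowers_le.2 hnorm)]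
          exact hn
        obtain ⟨_, ⟨i, rfl⟩, m, hm, rfl⟩ := hn'
        refine ⟨i, ?_⟩
        show s ^ i = _
        rw [← QuotientGroup.mk_zpow, QuotientGroup.eq, Subgroup.mem_subgroupOf]
        simpa using hm
    show Nat.card (N ⧸ N'.subgroupOf N) = 3
    rw [← orderOf_eq_card_of_forall_mem_zpowers hgen, orderOf_eq_prime hs3 hs1]
  obtain ⟨D, hDtop, hDbot, hDg⟩ := exists_cyclicStep (p := 3) hMN le_sup_right hidx hnormal hσN hσN'
  have hDL : D.L = L' := by
    rw [← InfiniteGalois.fixedField_fixingSubgroup D.L,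
      ← InfiniteGalois.fixedField_fixingSubgroup L']
    exact congrArg IntermediateField.fixedField hDtop
  have hDK : D.K = L := by
    rw [← InfiniteGalois.fixedField_fixingSubgroup D.K]
    change IntermediateField.fixedField D.bot = L
    rw [hDbot]
    refine le_antisymm (fun y hy => ?_) fun y hy => ?_
    · rw [IntermediateField.mem_fixedField_iff] at hy
      refine hσfix y ?_ (hy σ hσN)
      rw [← InfiniteGalois.fixedField_fixingSubgroup L', IntermediateField.mem_fixedField_iff]
      exact fun m hm => hy m ((le_sup_right : N' ≤ N) hm)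
    · rw [IntermediateField.mem_fixedField_iff]
      exact fun m hm => (IntermediateField.mem_fixingSubgroup_iff L m).1
        ((sup_le (Subgroup.zpowers_le.2 ((IntermediateField.mem_fixingSubgroup_iff _ _).2 hσL))
          (IntermediateField.fixingSubgroup_antitone hle)) hm) y hy
  subst hDK hDL hDg
  exact exists_norm_eq_of_local D x hx hloc

end FLTAgent.LanglandsTunnell.CFT
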