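import Fermat.Agent.LanglandsTunnell.CFT.Crossing
import Fermat.Agent.IdeleClassCohomology.NormCriterion

/-!
# Local inputs to the construction of the Artin map from the norm index

Places above a prime of a number field, Frobenius and splitting at unramified places, `p`-th roots
near one, and the resulting criterion for an idele to be a norm from a cyclic step
(`exists_norm_of_forall_local'`).
-/

set_option autoImplicit false

noncomputable section

open NumberField IsDedekindDomain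
open scoped Pointwise

namespace FLTAgent.LanglandsTunnell.CFT

open FLTAgent.Density FLTAgent.ExtVanishing FLTAgent.LanglandsTunnell
open FLTAgent.GalCoh FLTAgent.GlobalDuality FLTAgent.IdeleClassCohomology FLTAgent.LocalDuality

theorem norm_sub_le_max' {q : Nat.Primes} (a b : PadicAlgCl (q : ℕ)) :
    ‖a - b‖ ≤ max ‖a‖ ‖b‖ := by
  rw [sub_eq_add_neg, ← norm_neg b]
  exact IsUltrametricDist.norm_add_le_max a (-b)

/-! ### Places -/

theorem mem_nonunits_padicPlace {q : Nat.Primes} {x : Qbar} :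
    x ∈ (padicPlace (q : ℕ)).nonunits ↔ ‖emb q x‖ < 1 := by
  rw [ValuationSubring.mem_nonunits_iff_or]
  rcases eq_or_ne x 0 with rfl | hx
  · simp
  · simp only [hx, false_or]
    rw [mem_padicPlace_iff, ← NNReal.coe_le_coe, coe_nnnorm, map_inv₀, norm_inv, NNReal.coe_one,
      not_le, one_lt_inv_iff₀]
    exact ⟨fun h => h.2, fun h => ⟨norm_pos_iff.2 fun h0 => hx ((emb q).injective
      (h0.trans (map_zero _).symm)), h⟩⟩

/-- The place of `ℚbar` defining `(q, σ)`. -/
def placeVal (q : Nat.Primes) (σ : GalQ) : ValuationSubring Qbar := σ⁻¹ • padicPlace (q : ℕ)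

theorem mem_nonunits_placeVal {q : Nat.Primes} {σ : GalQ} {x : Qbar} :
    x ∈ (placeVal q σ).nonunits ↔ ‖emb q (σ x)‖ < 1 := by
  rw [← mem_nonunits_padicPlace, ← apply_mem_smul_nonunits_iff σ⁻¹ (σ x),
    show σ⁻¹ (σ x) = x from AlgEquiv.symm_apply_apply σ x]
  rfl

theorem liesOverPrime_placeVal (q : Nat.Primes) (σ : GalQ) :
    (placeVal q σ).LiesOverPrime (q : ℕ) := by
  refine mem_nonunits_placeVal.2 ?_
  rw [map_natCast, map_natCast, norm_natCast_self]
  exact inv_prime_lt_one q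

theorem conj_loc_mem_decomposition (q : Nat.Primes) (σ : GalQ) (t : LGal q) :
    σ⁻¹ * loc q t * σ ∈ (placeVal q σ).decompositionSubgroup ℚ := by
  refine MulAction.mem_stabilizer_iff.2 ?_
  show (σ⁻¹ * loc q t * σ) • σ⁻¹ • padicPlace (q : ℕ) = σ⁻¹ • padicPlace (q : ℕ)
  rw [← mul_smul, mul_inv_cancel_right, mul_smul]
  exact congrArg (σ⁻¹ • ·)
    (MulAction.mem_stabilizer_iff.1 (localGaloisToGlobal_mem_decompositionSubgroup (q : ℕ) t))

variable {K : IntermediateField ℚ Qbar} [FiniteDimensional ℚ K]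

omit [FiniteDimensional ℚ K] in
theorem placeOver_placeVal (q : Nat.Primes) (σ : GalQ) :
    PlaceOver (placeVal q σ) (placeIdeal K q σ).asIdeal := fun x => by
  rw [mem_nonunits_placeVal]
  rfl

theorem exists_placeIdeal_eq (v : HeightOneSpectrum (𝓞 K)) :
    ∃ (q : Nat.Primes) (σ : GalQ), placeIdeal K q σ = v := by
  have := v.isPrime
  obtain ⟨q, A, hq, -, hA, hAv⟩ := exists_placeOver v.asIdeal v.ne_bot
  obtain ⟨q, rfl⟩ : ∃ r : Nat.Primes, (r : ℕ) = q := ⟨⟨q, hq⟩, rfl⟩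
  have hP : (padicPlace (q : ℕ)).LiesOverPrime (q : ℕ) := by
    refine mem_nonunits_padicPlace.2 ?_
    rw [map_natCast]
    exact (norm_natCast_self q).trans_lt (inv_prime_lt_one q)
  obtain ⟨γ, hγ⟩ := Density.exists_smul_eq_of_liesOverPrime hq hA hP
  refine ⟨q, γ, HeightOneSpectrum.ext (Ideal.ext fun x => ?_)⟩
  rw [mem_placeIdeal, placeEmb_apply, ← mem_nonunits_padicPlace, ← hγ, apply_mem_smul_nonunits_iff]
  exact (hAv x).symm

omit [FiniteDimensional ℚ K] in
theorem norm_placeEmb_loc_mul {q : Nat.Primes} {σ : GalQ} (τ : LGal q) {n : GalQ}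
    (hn : n ∈ K.fixingSubgroup) (x : K) :
    ‖placeEmb K q (loc q τ * σ * n) x‖ = ‖placeEmb K q σ x‖ := by
  rw [placeEmb_apply, placeEmb_apply, AlgEquiv.mul_apply, AlgEquiv.mul_apply,
    (IntermediateField.mem_fixingSubgroup_iff _ _).1 hn _ x.2, padicEmbedding_localGaloisToGlobal]
  exact congrArg NNReal.toReal (nnnorm_padicAlgCl_algEquiv (q : ℕ) τ _)

omit [FiniteDimensional ℚ K] in
theorem placeIdeal_loc_mul {q : Nat.Primes} {σ : GalQ} (τ : LGal q) {n : GalQ}
    (hn : n ∈ K.fixingSubgroup) : placeIdeal K q (loc q τ * σ * n) = placeIdeal K q σ :=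
  HeightOneSpectrum.ext (Ideal.ext fun x => by
    rw [mem_placeIdeal, mem_placeIdeal, norm_placeEmb_loc_mul τ hn])

/-- The places over a prime. -/
def placeSet (v : HeightOneSpectrum (𝓞 K)) : Set (Nat.Primes × GalQ) :=
  {i | placeIdeal K i.1 i.2 = v}

omit [FiniteDimensional ℚ K] in
theorem isStableSet_placeSet (v : HeightOneSpectrum (𝓞 K)) :
    IsStableSet K.fixingSubgroup (placeSet v) := by
  intro q γ τ n hn h
  show placeIdeal K q (loc q τ * γ * n) = v
  rw [placeIdeal_loc_mul τ hn]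
  exact h

/-! ### Residual action -/

section Step

variable {p : ℕ} [hp : Fact p.Prime] (D : CyclicStep p) {G : Type} [CommGroup G]
  {χ : D.K.fixingSubgroup →* G} (hker : ∀ σ : D.K.fixingSubgroup, χ σ = 1 ↔ (σ : GalQ) ∈ D.top)
  {q : Nat.Primes} {σ : GalQ}

include hker

omit hp in
/-- A local generator moves an integer of `L` at an unramified place. -/
theorem exists_moved {t : LGal q} (ht : D.IsLocalGen q σ t)
    (hχ : IsUnramifiedChar χ (placeIdeal D.K q σ).asIdeal) :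
    ∃ y : 𝓞 D.L,
      (σ⁻¹ * loc q t * σ) • intEmb D.L y - intEmb D.L y ∉ primeBelow (placeVal q σ) := by
  by_contra hno
  push Not at hno
  obtain ⟨n, hn, e⟩ := ht.conj_eq
  have hbot : σ⁻¹ * loc q t * σ ∈ D.bot := e ▸ mul_mem D.mem (D.top_le hn)
  obtain ⟨m, hm, hI⟩ := ExtVanishing.exists_inv_mul_mem_inertia q.2 (liesOverPrime_placeVal q σ)
    (conj_loc_mem_decomposition q σ t) hno
  let a : D.K.fixingSubgroup := ⟨m⁻¹ * (σ⁻¹ * loc q t * σ), mul_mem (inv_mem (D.top_le hm)) hbot⟩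
  have h1 := (hker a).1 (hχ _ (placeOver_placeVal q σ) a hI)
  have h2 : D.g * n ∈ D.top := by
    rw [← e, show σ⁻¹ * loc q t * σ = m * (m⁻¹ * (σ⁻¹ * loc q t * σ)) by group]
    exact mul_mem hm h1
  exact D.notMem ((D.top.mul_mem_cancel_right hn).1 h2)

/-- The value groups agree at an unramified place. -/
theorem exists_norm_eq_of_unramified (hχ : IsUnramifiedChar χ (placeIdeal D.K q σ).asIdeal)
    (t : LGal q) (ht : D.IsLocalGen q σ t) (y : LU q) (hy : y ∈ CyclicStep.localTop D q σ) :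
    ∃ e ∈ locField D.K q σ, e ≠ 0 ∧ ‖e‖ = ‖y.val‖ := by
  obtain ⟨z, hz⟩ := exists_moved D hker ht hχ
  have hθ : ‖placeEmb D.L q σ (z : D.L)‖ ≤ 1 := norm_placeEmb_le_one z
  refine ht.exists_norm_eq (placeEmb_mem_locField (K := D.L) (z : D.L)) hθ ?_ hy
  refine le_antisymm ?_ (not_lt.1 fun h => hz ?_)
  · refine (norm_sub_le_max' _ _).trans (max_le ?_ hθ)
    exact (congrArg NNReal.toReal (nnnorm_padicAlgCl_algEquiv (q : ℕ) t _)).trans_le hθ
  · rw [mem_primeBelow, mem_nonunits_placeVal]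
    refine lt_of_eq_of_lt ?_ h
    show ‖emb q (σ ((σ⁻¹ * loc q t * σ) ((z : D.L) : Qbar) - ((z : D.L) : Qbar)))‖ = _
    rw [map_sub, map_sub, ← AlgEquiv.mul_apply, show σ * (σ⁻¹ * loc q t * σ) = loc q t * σ by group,
      AlgEquiv.mul_apply, padicEmbedding_localGaloisToGlobal]
    rfl

omit hp in
/-- A prime with trivial Frobenius splits. -/
theorem not_isLocalGen_of_frobVal_eq_one
    (hχ : IsUnramifiedChar χ (placeIdeal D.K q σ).asIdeal)
    (h1 : frobVal χ (placeIdeal D.K q σ).asIdeal = 1) : ¬ ∃ t, D.IsLocalGen q σ t := by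
  rintro ⟨t, ht⟩
  obtain ⟨z, hz⟩ := exists_moved D hker ht hχ
  refine hz ?_
  set P := (placeIdeal D.K q σ).asIdeal with hP
  have : P.IsPrime := (placeIdeal D.K q σ).isPrime
  have hP0 : P ≠ ⊥ := (placeIdeal D.K q σ).ne_bot
  set A := placeVal q σ
  obtain ⟨g, hgK, hgA⟩ := exists_frobenius_over hP0 (A := A) (placeOver_placeVal q σ)
  have hgL : g ∈ D.L.fixingSubgroup := (hker ⟨g, hgK⟩).1 (by
    rw [← frobVal_eq hP0 hχ ⟨hgK, A, placeOver_placeVal q σ, hgA⟩, h1])
  let : Algebra D.K D.L := (IntermediateField.inclusion D.le).toRingHom.toAlgebra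
  have : IsScalarTower ℚ D.K D.L := IsScalarTower.of_algebraMap_eq fun _ => rfl
  -- the residue field of `L` is that of `K`
  set Q : Ideal (𝓞 D.L) := (primeBelow A).comap (intEmb D.L)
  have : Q.IsPrime := Ideal.comap_isPrime _ _
  have hQA : PlaceOver A Q := placeOver_iff.2 rfl
  have hQP : Q.under (𝓞 D.K) = P := by
    have h2 := placeOver_iff.1 (PlaceOver.under (K := D.K) (fun _ => rfl) hQA)
    rw [placeOver_iff.1 (placeOver_placeVal (K := D.K) q σ)] at h2
    exact h2.symm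
  have hQ0 : Q ≠ ⊥ := fun e => hP0 (by rw [← hQP, e]; exact Ideal.under_bot (𝓞 D.K) (𝓞 D.L))
  have hN : Ideal.absNorm Q ≤ Ideal.absNorm P := by
    have h2 : 1 < Ideal.absNorm P := by
      have ha : Ideal.absNorm P ≠ 0 := fun e => hP0 (Ideal.absNorm_eq_zero_iff.1 e)
      have hb : Ideal.absNorm P ≠ 1 := fun e =>
        Ideal.IsPrime.ne_top inferInstance (Ideal.absNorm_eq_one_iff.1 e)
      omega
    refine absNorm_le_of_pow_sub_mem hQ0 h2 fun y => ?_
    rw [hQA]
    have hyA : ((y : D.L) : Qbar) ∈ A :=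
      mem_of_isIntegral A ((y.isIntegral_coe).map (D.L.val.restrictScalars ℤ))
    have h3 := (isFrobeniusAt_iff.1 hgA).2 ((y : D.L) : Qbar) hyA
    rw [show g ((y : D.L) : Qbar) = ((y : D.L) : Qbar) from hgL (y : D.L)] at h3
    have h4 : ((y : D.L) : Qbar) ^ Ideal.absNorm P - ((y : D.L) : Qbar) ∈ A.nonunits := by
      rw [← neg_sub, ValuationSubring.mem_nonunits_iff, Valuation.map_neg]
      exact A.mem_nonunits_iff.1 h3
    simpa using h4
  have : Finite (𝓞 D.L ⧸ Q) := Ideal.finiteQuotientOfFreeOfNeBot Q hQ0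
  have hsurj : Function.Surjective
      (Ideal.quotientMap Q (algebraMap (𝓞 D.K) (𝓞 D.L)) hQP.ge : 𝓞 D.K ⧸ P → 𝓞 D.L ⧸ Q) := by
    have : Finite (𝓞 D.K ⧸ P) := Ideal.finiteQuotientOfFreeOfNeBot P hP0
    refine (Function.Injective.bijective_of_nat_card_le
      (Ideal.quotientMap_injective' hQP.le) ?_).2
    rw [← Submodule.cardQuot_apply, ← Submodule.cardQuot_apply, ← Ideal.absNorm_apply,
      ← Ideal.absNorm_apply]
    exact hN
  obtain ⟨w, hw⟩ := hsurj (Ideal.Quotient.mk Q z)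
  obtain ⟨w, rfl⟩ := Ideal.Quotient.mk_surjective w
  rw [Ideal.quotientMap_mk, eq_comm, Ideal.Quotient.eq] at hw
  obtain ⟨n, hn, e⟩ := ht.conj_eq
  have hbot : σ⁻¹ * loc q t * σ ∈ D.bot := e ▸ mul_mem D.mem (D.top_le hn)
  set g' := σ⁻¹ * loc q t * σ
  have hd : intEmb D.L (z - algebraMap (𝓞 D.K) (𝓞 D.L) w) ∈ primeBelow A := hw
  have hgQ : g' • primeBelow A = primeBelow A := by
    rw [← primeBelow_smul, MulAction.mem_stabilizer_iff.1 (conj_loc_mem_decomposition q σ t)]
  have h5 : g' • intEmb D.L (z - algebraMap (𝓞 D.K) (𝓞 D.L) w) ∈ primeBelow A := by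
    have := Ideal.smul_mem_pointwise_smul g' _ _ hd
    rwa [hgQ] at this
  have hw' : g' • intEmb D.L (algebraMap (𝓞 D.K) (𝓞 D.L) w) =
      intEmb D.L (algebraMap (𝓞 D.K) (𝓞 D.L) w) :=
    Subtype.ext ((IntermediateField.mem_fixingSubgroup_iff _ _).1 hbot _ (w : D.K).2)
  have h6 := sub_mem h5 hd
  rwa [map_sub, smul_sub, hw', sub_sub_sub_cancel_right] at h6

end Step

/-! ### Roots near one -/

section Root

variable {q : Nat.Primes} {p : ℕ}

/-- `y` is the `p`-th root of `x` close to `1`. -/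
def IsNearRoot (p : ℕ) (x y : LU q) : Prop :=
  p • y = x ∧ ‖y.val - 1‖ ^ (p - 1) < ‖(p : PadicAlgCl (q : ℕ))‖

theorem val_nsmul (a : LU q) (k : ℕ) : (k • a).val = a.val ^ k := by
  induction k with
  | zero => simp [LU.val_zero]
  | succ k ih => rw [succ_nsmul, LU.val_add, ih, pow_succ]

theorem norm_natCast_le_one (q : Nat.Primes) (k : ℕ) : ‖(k : PadicAlgCl (q : ℕ))‖ ≤ 1 :=
  IsUltrametricDist.norm_natCast_le_one _ k

theorem IsNearRoot.norm_sub_one_lt (_hp : p.Prime) {x y : LU q} (h : IsNearRoot p x y) :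
    ‖y.val - 1‖ < 1 := by
  by_contra hc
  exact absurd (h.2.trans_le (norm_natCast_le_one q p)) (not_lt.2 (one_le_pow₀ (not_lt.1 hc)))

theorem IsNearRoot.norm_val (hp : p.Prime) {x y : LU q} (h : IsNearRoot p x y) : ‖y.val‖ = 1 := by
  have h1 := h.norm_sub_one_lt hp
  rw [show y.val = (y.val - 1) + 1 by ring,
    IsUltrametricDist.norm_add_eq_max_of_norm_ne_norm (by rw [norm_one]; exact h1.ne), norm_one,
    max_eq_right h1.le]

theorem eq_one_of_pow_eq_one (hp : p.Prime) {e : PadicAlgCl (q : ℕ)}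
    (he : ‖e‖ ^ (p - 1) < ‖(p : PadicAlgCl (q : ℕ))‖) (h : (1 + e) ^ p = 1) : e = 0 := by
  by_contra he0
  have hlt : ‖e‖ < 1 := by
    by_contra hc
    exact absurd (he.trans_le (norm_natCast_le_one q p)) (not_lt.2 (one_le_pow₀ (not_lt.1 hc)))
  have hsum : ∑ k ∈ Finset.range p, e ^ (k + 1) * ((p.choose (k + 1) : ℕ) : PadicAlgCl (q : ℕ))
      = 0 := by
    rw [add_comm 1 e, add_pow, Finset.sum_range_succ'] at h
    simpa using h
  have hna : IsNonarchimedean fun x : PadicAlgCl (q : ℕ) => ‖x‖ := fun a b =>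
    IsUltrametricDist.norm_add_le_max a b
  have hp1 : (0 : ℕ) ∈ Finset.range p := Finset.mem_range.2 hp.pos
  have hpn : (p : PadicAlgCl (q : ℕ)) ≠ 0 := Nat.cast_ne_zero.2 hp.ne_zero
  have hmain := hna.apply_sum_eq_of_lt (f := fun x : PadicAlgCl (q : ℕ) => ‖x‖)
    (fun a => (norm_neg a).symm) (s := Finset.range p)
    (l := fun k => e ^ (k + 1) * ((p.choose (k + 1) : ℕ) : PadicAlgCl (q : ℕ))) hp1
    fun k hk hk0 => ?_
  · simp only [hsum, zero_add, pow_one, Nat.choose_one_right, norm_zero] at hmain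
    exact mul_ne_zero he0 hpn (norm_eq_zero.1 hmain.symm)
  · simp only [zero_add, pow_one, Nat.choose_one_right, norm_mul, norm_pow]
    have hkp := Finset.mem_range.1 hk
    rcases eq_or_lt_of_le (Nat.succ_le_of_lt hkp) with he' | he'
    · rw [show k + 1 = p from he', Nat.choose_self, Nat.cast_one, norm_one, mul_one,
        show p = p - 1 + 1 by have := hp.pos; omega, pow_succ, mul_comm,
        show p - 1 + 1 = p by have := hp.pos; omega]
      exact mul_lt_mul_of_pos_left he (norm_pos_iff.2 he0)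
    · obtain ⟨c, hc⟩ := hp.dvd_choose_self (Nat.succ_ne_zero k) he'
      rw [hc, Nat.cast_mul, norm_mul, pow_succ']
      have h1 : ‖e‖ ^ k < 1 := pow_lt_one₀ (norm_nonneg _) hlt hk0
      calc ‖e‖ * ‖e‖ ^ k * (‖(p : PadicAlgCl (q : ℕ))‖ * ‖(c : PadicAlgCl (q : ℕ))‖)
          ≤ ‖e‖ * ‖e‖ ^ k * ‖(p : PadicAlgCl (q : ℕ))‖ := mul_le_mul_of_nonneg_left
            (mul_le_of_le_one_right (norm_nonneg _) (norm_natCast_le_one q c)) (by positivity)
        _ < ‖e‖ * ‖(p : PadicAlgCl (q : ℕ))‖ := by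
            refine mul_lt_mul_of_pos_right ?_ (norm_pos_iff.2 hpn)
            exact mul_lt_of_lt_one_right (norm_pos_iff.2 he0) h1

theorem IsNearRoot.unique (hp : p.Prime) {x y y' : LU q} (h : IsNearRoot p x y)
    (h' : IsNearRoot p x y') : y = y' := by
  have hy := h.norm_val hp
  have hy0 : y.val ≠ 0 := Units.ne_zero _
  have hpow : y.val ^ p = y'.val ^ p := by rw [← val_nsmul, ← val_nsmul, h.1, h'.1]
  set e := y'.val / y.val - 1 with he
  have he1 : ‖e‖ ^ (p - 1) < ‖(p : PadicAlgCl (q : ℕ))‖ := by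
    have : ‖e‖ ≤ max ‖y'.val - 1‖ ‖y.val - 1‖ := by
      rw [he, show y'.val / y.val - 1 = ((y'.val - 1) - (y.val - 1)) / y.val by field_simp; ring,
        norm_div, hy, div_one]
      exact norm_sub_le_max' _ _
    refine lt_of_le_of_lt (pow_le_pow_left₀ (norm_nonneg _) this _) ?_
    rcases max_choice ‖y'.val - 1‖ ‖y.val - 1‖ with hm | hm <;> rw [hm]
    · exact h'.2
    · exact h.2
  have he0 := eq_one_of_pow_eq_one hp he1 (by
    rw [he, add_sub_cancel, div_pow, ← hpow, div_self (pow_ne_zero _ hy0)])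
  refine LU.ext ?_
  rw [he, sub_eq_zero, div_eq_one_iff_eq hy0] at he0
  exact he0.symm

theorem exists_isNearRoot (hp : p.Prime) {x : LU q}
    (hx : ‖x.val - 1‖ < ‖(p : PadicAlgCl (q : ℕ))‖ ^ 2) : ∃ y, IsNearRoot p x y := by
  classical
  set P : Polynomial (PadicAlgCl (q : ℕ)) := Polynomial.X ^ p - Polynomial.C x.val with hP
  have hmon : P.Monic := Polynomial.monic_X_pow_sub_C _ hp.ne_zero
  have hroots := (IsAlgClosed.splits P).eq_prod_roots
  rw [hmon.leadingCoeff, map_one, one_mul] at hroots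
  have hcard : P.roots.card = p := by
    rw [← (IsAlgClosed.splits P).natDegree_eq_card_roots, hP, Polynomial.natDegree_X_pow_sub_C]
  by_contra hno
  have hall : ∀ r ∈ P.roots, ‖(p : PadicAlgCl (q : ℕ))‖ ≤ ‖1 - r‖ ^ (p - 1) := by
    intro r hr
    rw [Polynomial.mem_roots hmon.ne_zero, Polynomial.IsRoot, hP, Polynomial.eval_sub,
      Polynomial.eval_pow, Polynomial.eval_X, Polynomial.eval_C, sub_eq_zero] at hr
    have hr0 : r ≠ 0 := by
      rintro rfl
      exact Units.ne_zero x.toMul (show x.val = 0 by rw [← hr, zero_pow hp.ne_zero])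
    by_contra hc
    refine hno ⟨Additive.ofMul (Units.mk0 r hr0), LU.ext (by rw [val_nsmul]; exact hr), ?_⟩
    show ‖r - 1‖ ^ (p - 1) < _
    rw [norm_sub_rev]
    exact not_le.1 hc
  have h1 := congrArg (fun F : Polynomial (PadicAlgCl (q : ℕ)) => ‖F.eval 1‖ ^ (p - 1)) hroots
  simp only [Polynomial.eval_multiset_prod, Multiset.map_map] at h1
  have h2 : ∀ s : Multiset (PadicAlgCl (q : ℕ)),
      (∀ r ∈ s, ‖(p : PadicAlgCl (q : ℕ))‖ ≤ ‖1 - r‖ ^ (p - 1)) →
      ‖(p : PadicAlgCl (q : ℕ))‖ ^ s.card ≤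
        ‖(s.map ((fun F => Polynomial.eval 1 F) ∘ fun r => Polynomial.X - Polynomial.C r)).prod‖
          ^ (p - 1) := by
    intro s
    induction s using Multiset.induction_on with
    | empty => simp
    | cons a s ih =>
      intro h
      rw [Multiset.card_cons, pow_succ', Multiset.map_cons, Multiset.prod_cons, norm_mul, mul_pow]
      refine mul_le_mul ?_ (ih fun r hr => h r (Multiset.mem_cons_of_mem hr)) (by positivity)
        (by positivity)
      simpa using h a (Multiset.mem_cons_self _ _)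
  have h3 := h2 _ hall
  rw [hcard, ← h1, hP, Polynomial.eval_sub, Polynomial.eval_pow, Polynomial.eval_X, one_pow,
    Polynomial.eval_C, norm_sub_rev] at h3
  refine absurd h3 (not_le.2 ?_)
  calc ‖x.val - 1‖ ^ (p - 1) < (‖(p : PadicAlgCl (q : ℕ))‖ ^ 2) ^ (p - 1) :=
        pow_lt_pow_left₀ hx (norm_nonneg _) (by have := hp.two_le; omega)
    _ ≤ ‖(p : PadicAlgCl (q : ℕ))‖ ^ p := by
        rw [← pow_mul]
        exact pow_le_pow_of_le_one (norm_nonneg _) (norm_natCast_le_one q p)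
          (by have := hp.two_le; omega)

open Classical in
/-- The root near one, or zero. -/
def nearRoot (p : ℕ) (x : LU q) : LU q :=
  if h : ∃ y, IsNearRoot p x y then h.choose else 0

theorem nearRoot_spec {x : LU q} (h : ∃ y, IsNearRoot p x y) : IsNearRoot p x (nearRoot p x) := by
  rw [nearRoot, dif_pos h]
  exact h.choose_spec

theorem nearRoot_mem_units (hp : p.Prime) (x : LU q) : nearRoot p x ∈ unitsAt q := by
  by_cases h : ∃ y, IsNearRoot p x y
  · exact (nearRoot_spec h).norm_val hp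
  · rw [nearRoot, dif_neg h]; exact (unitsAt q).zero_mem

theorem IsNearRoot.smul {x y : LU q} (h : IsNearRoot p x y) (τ : LGal q) :
    IsNearRoot p (τ • x) (τ • y) := by
  refine ⟨by rw [← h.1, smul_comm], ?_⟩
  rw [LU.val_smul, ← map_one τ, ← map_sub]
  exact lt_of_eq_of_lt
    (congrArg (· ^ (p - 1)) (congrArg NNReal.toReal (nnnorm_padicAlgCl_algEquiv (q : ℕ) τ _))) h.2

theorem nearRoot_smul (hp : p.Prime) (τ : LGal q) (x : LU q) :
    nearRoot p (τ • x) = τ • nearRoot p x := by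
  by_cases h : ∃ y, IsNearRoot p x y
  · exact (nearRoot_spec ⟨_, (nearRoot_spec h).smul τ⟩).unique hp ((nearRoot_spec h).smul τ)
  · have h' : ¬ ∃ y, IsNearRoot p (τ • x) y := fun ⟨y, hy⟩ => h ⟨_, by
      have := hy.smul τ⁻¹
      rwa [inv_smul_smul] at this⟩
    rw [nearRoot, dif_neg h', nearRoot, dif_neg h, smul_zero]

end Root

/-- The idele of roots near one. -/
theorem exists_rootIdele {p : ℕ} (hp : p.Prime) {N : Subgroup GalQ} {x : Idele}
    (hx : x ∈ fixedPts N Idele) :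
    ∃ y ∈ fixedPts N Idele, (∀ q σ, y.at q σ ∈ unitsAt q) ∧
      ∀ q σ, ‖(x.at q σ).val - 1‖ < ‖(p : PadicAlgCl (q : ℕ))‖ ^ 2 →
        IsNearRoot p (x.at q σ) (y.at q σ) := by
  let f : ∀ q : Nat.Primes, GalQ → LU q := fun q σ => nearRoot p (x.at q σ)
  have hmem : f ∈ ideleSubgroup := by
    refine ⟨fun q τ σ => ?_, ?_, Set.finite_empty.subset fun q hq => ?_⟩
    · simp only [f, Idele.at_loc_mul, nearRoot_smul hp]
    · obtain ⟨M, hM⟩ := x.exists_layer
      exact ⟨M, fun q σ s hs => by simp only [f, hM q σ s hs]⟩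
    · obtain ⟨σ, hσ⟩ := hq
      exact (hσ (nearRoot_mem_units hp _)).elim
  refine ⟨⟨f, hmem⟩, Idele.mem_fixedPts_iff.2 fun q σ s hs => ?_,
    fun q σ => nearRoot_mem_units hp _, fun q σ h => nearRoot_spec (exists_isNearRoot hp h)⟩
  show nearRoot p (x.at q (σ * s)) = nearRoot p (x.at q σ)
  rw [Idele.mem_fixedPts_iff.1 hx q σ s hs]

/-- An idele which at every place is split, or a unit at an unramified place, or close to one, is
a norm from the step. -/
theorem exists_norm_of_forall_local' {p : ℕ} [hp : Fact p.Prime] (D : CyclicStep p) {x : Idele}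
    (hx : x ∈ fixedPts D.bot Idele)
    (h : ∀ q σ, (¬ ∃ t, D.IsLocalGen q σ t) ∨ (x.at q σ ∈ unitsAt q ∧
      ∀ t, D.IsLocalGen q σ t → ∀ y ∈ CyclicStep.localTop D q σ,
        ∃ e ∈ locField D.K q σ, e ≠ 0 ∧ ‖e‖ = ‖(y : LU q).val‖) ∨
      ‖(x.at q σ).val - 1‖ < ‖(p : PadicAlgCl (q : ℕ))‖ ^ 2) :
    ∃ y ∈ fixedPts D.top Idele, ∑ i ∈ Finset.range p, D.g ^ i • y = x := by
  classical
  obtain ⟨z, hz, hzu, hzp⟩ := exists_rootIdele hp.out hx
  refine D.exists_norm_of_forall_coset x.finite_nonunit.toFinset fun q σ => ?_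
  rcases h q σ with hs | ⟨hu, hunr⟩ | hnear
  · obtain ⟨y, hy, hy0, hy'⟩ := D.exists_norm_coset_split hs hx
    refine ⟨y, hy, fun r hr γ => ?_, hy'⟩
    rcases hy0 r γ with e | e <;> rw [e]
    · by_contra hc
      exact hr (x.finite_nonunit.mem_toFinset.2 ⟨γ, hc⟩)
    · exact (unitsAt r).zero_mem
  · obtain ⟨y, hy, hy0, hy'⟩ := D.exists_norm_coset_unit hx hu hunr
    exact ⟨y, hy, fun r _ γ => hy0 r γ, hy'⟩
  · refine ⟨z, fixedPts_antitone D.top_le hz, fun r _ γ => hzu r γ, fun r γ hγ => ?_⟩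
    obtain ⟨rfl, τ, n, hn, rfl⟩ := mem_cosetSet_iff.1 hγ
    rw [show ∑ i ∈ Finset.range p, D.g ^ i • z = p • z by
      rw [Finset.sum_congr rfl fun i _ => hz _ (D.bot.pow_mem D.mem i), Finset.sum_const,
        Finset.card_range],
      show (p • z).at r (loc r τ * σ * n) = p • z.at r (loc r τ * σ * n) from
        map_nsmul (Idele.atHom r _) p z]
    refine (hzp _ _ ?_).1
    rw [Idele.mem_fixedPts_iff.1 hx r _ n hn, Idele.at_loc_mul, LU.val_smul, ← map_one τ,
      ← map_sub]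
    exact lt_of_eq_of_lt (congrArg NNReal.toReal (nnnorm_padicAlgCl_algEquiv (r : ℕ) τ _)) hnear

end FLTAgent.LanglandsTunnell.CFT
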