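import Fermat.Agent.Density.LatticeSum
import Fermat.Agent.ExtVanishing.IdealEuler

/-!
# Ray class characters and the equidistribution of ray classes

A nontrivial ray class character has an `L`-series with a finite limit at `1`. No sign conditions
at infinite places are imposed.
-/

set_option autoImplicit false

noncomputable section

open NumberField Filter Topology Module
open scoped nonZeroDivisors Classical
open FLTAgent.Density FLTAgent.ExtVanishing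

namespace FLTAgent.LanglandsTunnell.CFT

variable {K : Type*} [Field K] [NumberField K]

/-- A bounded multiplicative function of ideals, supported on the ideals prime to `f` and trivial
on the principal ideals generated by an element congruent to `1` modulo `f`. -/
structure IsRayChar (f : Ideal (𝓞 K)) (χ : Ideal (𝓞 K) →* ℂ) : Prop where
  ne_bot : f ≠ ⊥
  norm_le : ∀ I, ‖χ I‖ ≤ 1
  ne_zero_iff : ∀ I, I ≠ ⊥ → (χ I ≠ 0 ↔ I ⊔ f = ⊤)
  map_span : ∀ a : 𝓞 K, a ≠ 0 → a - 1 ∈ f → χ (Ideal.span {a}) = 1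

/-- The restriction of a multiplicative function to nonzero ideals. -/
def onNonzero (χ : Ideal (𝓞 K) →* ℂ) : (Ideal (𝓞 K))⁰ →* ℂ := χ.comp (Submonoid.subtype _)

omit [NumberField K] in
theorem onNonzero_apply (χ : Ideal (𝓞 K) →* ℂ) (I : (Ideal (𝓞 K))⁰) :
    onNonzero χ I = χ (I : Ideal (𝓞 K)) := rfl

/-- The value on the principal ideal of an element, extended periodically. -/
def elemVal (f : Ideal (𝓞 K)) (χ : Ideal (𝓞 K) →* ℂ) (x : 𝓞 K) : ℂ :=
  if x = 0 then (if f = ⊤ then 1 else 0) else χ (Ideal.span {x})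

omit [NumberField K] in
theorem span_sup_eq_top_congr {f : Ideal (𝓞 K)} {x y : 𝓞 K} (h : x - y ∈ f) :
    Ideal.span {x} ⊔ f = ⊤ ↔ Ideal.span {y} ⊔ f = ⊤ := by
  have key : ∀ {x y : 𝓞 K}, x - y ∈ f → Ideal.span {x} ⊔ f = ⊤ → Ideal.span {y} ⊔ f = ⊤ := by
    intro x y h hx
    refine eq_top_iff.2 (hx ▸ sup_le ?_ le_sup_right)
    rw [Ideal.span_singleton_le_iff_mem, show x = y + (x - y) by ring]
    exact Ideal.add_mem _ (Ideal.mem_sup_left (Ideal.mem_span_singleton_self y))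
      (Ideal.mem_sup_right h)
  exact ⟨key h, key (by rw [← neg_sub]; exact f.neg_mem h)⟩

namespace IsRayChar

variable {f : Ideal (𝓞 K)} {χ : Ideal (𝓞 K) →* ℂ} (h : IsRayChar f χ)

include h

omit [NumberField K] in
theorem eq_zero {I : Ideal (𝓞 K)} (h0 : I ≠ ⊥) (hI : I ⊔ f ≠ ⊤) : χ I = 0 :=
  not_not.1 fun hne => hI ((h.ne_zero_iff I h0).1 hne)

omit [NumberField K] in
theorem norm_elemVal_le (x : 𝓞 K) : ‖elemVal f χ x‖ ≤ 1 := by
  unfold elemVal
  split_ifs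
  · simp
  · simp
  · exact h.norm_le _

omit [NumberField K] in
theorem elemVal_congr {x y : 𝓞 K} (hxy : x - y ∈ f) : elemVal f χ x = elemVal f χ y := by
  by_cases hf : f = ⊤
  · have h1 : ∀ z, elemVal f χ z = 1 := fun z => by
      unfold elemVal
      split_ifs with hz
      · rfl
      · exact h.map_span z hz (hf ▸ Submodule.mem_top)
    rw [h1, h1]
  by_cases hx : Ideal.span {x} ⊔ f = ⊤
  · have hy := (span_sup_eq_top_congr hxy).1 hx
    have hne : ∀ z : 𝓞 K, Ideal.span {z} ⊔ f = ⊤ → z ≠ 0 := fun z hz hz0 => hf (by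
      rw [hz0, Ideal.span_singleton_eq_bot.2 rfl, bot_sup_eq] at hz
      exact hz)
    obtain ⟨a, ha, c, hc, hac⟩ := Submodule.mem_sup.1 (hx ▸ Submodule.mem_top : (1 : 𝓞 K) ∈ _)
    obtain ⟨b, rfl⟩ := Ideal.mem_span_singleton.1 ha
    have h1 : x * b - 1 ∈ f := by
      rw [show x * b - 1 = -c by linear_combination hac]
      exact f.neg_mem hc
    have h2 : y * b - 1 ∈ f := by
      rw [show y * b - 1 = (x * b - 1) - (x - y) * b by ring]
      exact f.sub_mem h1 (f.mul_mem_right _ hxy)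
    have hnz : ∀ {z : 𝓞 K}, z * b - 1 ∈ f → z * b ≠ 0 := fun {z} hz h0 => by
      rw [h0, zero_sub, neg_mem_iff] at hz
      exact hf ((Ideal.eq_top_iff_one f).2 hz)
    have e1 := h.map_span _ (hnz h1) h1
    have e2 := h.map_span _ (hnz h2) h2
    rw [← Ideal.span_singleton_mul_span_singleton, map_mul] at e1 e2
    have hb : χ (Ideal.span {b}) ≠ 0 := fun h0 => by simp [h0] at e1
    rw [elemVal, elemVal, if_neg (hne x hx), if_neg (hne y hy)]
    exact mul_right_cancel₀ hb (e1.trans e2.symm)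
  · have hy : ¬ Ideal.span {y} ⊔ f = ⊤ := fun hy => hx ((span_sup_eq_top_congr hxy).2 hy)
    have hz : ∀ z : 𝓞 K, ¬ Ideal.span {z} ⊔ f = ⊤ → elemVal f χ z = 0 := fun z hz => by
      unfold elemVal
      rw [if_neg hf]
      split_ifs with hz0
      · rfl
      · exact h.eq_zero (by simpa using hz0) hz
    rw [hz x hx, hz y hy]

omit [NumberField K] in
theorem elemVal_mul (x y : 𝓞 K) :
    elemVal f χ (x * y) = elemVal f χ x * elemVal f χ y := by
  by_cases hf : f = ⊤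
  · have h1 : ∀ z, elemVal f χ z = 1 := fun z => by
      unfold elemVal
      split_ifs with hz
      · rfl
      · exact h.map_span z hz (hf ▸ Submodule.mem_top)
    rw [h1, h1, h1, one_mul]
  unfold elemVal
  by_cases hx : x = 0
  · simp [hx, hf]
  by_cases hy : y = 0
  · simp [hy, hf]
  rw [if_neg hx, if_neg hy, if_neg (mul_ne_zero hx hy),
    ← Ideal.span_singleton_mul_span_singleton, map_mul]

end IsRayChar

/-- The sum of `χ(I) N(I) ^ (-s)` over a class. -/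
def rayClassSum (χ : Ideal (𝓞 K) →* ℂ) (C : ClassGroup (𝓞 K)) (s : ℝ) : ℂ :=
  ∑' I : {I : (Ideal (𝓞 K))⁰ // ClassGroup.mk0 I = C},
    χ (I.1 : Ideal (𝓞 K)) * (((Ideal.absNorm (I.1 : Ideal (𝓞 K)) : ℝ) ^ (-s) : ℝ) : ℂ)

/-- The weight on elements attached to a representative `J` of an inverse class. -/
def rayWeight (f : Ideal (𝓞 K)) (χ : Ideal (𝓞 K) →* ℂ) (J : (Ideal (𝓞 K))⁰) (x : 𝓞 K) : ℂ :=
  if x ∈ (J : Ideal (𝓞 K)) then elemVal f χ x else 0

omit [NumberField K] in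
theorem norm_rayWeight_le {f : Ideal (𝓞 K)} {χ : Ideal (𝓞 K) →* ℂ} (h : IsRayChar f χ)
    (J : (Ideal (𝓞 K))⁰) (x : 𝓞 K) : ‖rayWeight f χ J x‖ ≤ 1 := by
  unfold rayWeight
  split_ifs
  · exact h.norm_elemVal_le x
  · simp

theorem rayClassSum_eq {f : Ideal (𝓞 K)} {χ : Ideal (𝓞 K) →* ℂ} (h : IsRayChar f χ) {s : ℝ}
    (hs : 1 < s) {C : ClassGroup (𝓞 K)} {J : (Ideal (𝓞 K))⁰} (hJ : ClassGroup.mk0 J = C⁻¹) :
    (Units.torsionOrder K : ℂ) * (χ (J : Ideal (𝓞 K)) * rayClassSum χ C s) =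
      (((Ideal.absNorm (J : Ideal (𝓞 K)) : ℝ) ^ s : ℝ) : ℂ) *
        ∑' x : 𝓞 K, (phi s (emb x) : ℂ) * rayWeight f χ J x := by
  have hu : ∀ (u : (𝓞 K)ˣ) (x : 𝓞 K),
      rayWeight f χ J ((u : 𝓞 K) * x) = rayWeight f χ J x := by
    intro u x
    simp only [rayWeight, Ideal.unit_mul_mem_iff_mem _ u.isUnit, elemVal, Units.mul_right_eq_zero,
      Ideal.span_singleton_mul_left_unit u.isUnit]
  rw [latticeSum_eq_classSum hs hJ _ (norm_rayWeight_le h J) hu (fun x hx => if_neg hx)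
    (fun I => χ (J : Ideal (𝓞 K)) * χ (I : Ideal (𝓞 K))) fun I x hx0 hx => ?_,
    rayClassSum, ← tsum_mul_left]
  · simp only [mul_assoc]
  · rw [rayWeight, if_pos (Ideal.dvd_span_singleton.mp (hx ▸ dvd_mul_right _ _)), elemVal,
      if_neg hx0, hx, map_mul]

section Periodic

variable {f : Ideal (𝓞 K)} {χ : Ideal (𝓞 K) →* ℂ}

omit [NumberField K] in
theorem rayWeight_add_mul (h : IsRayChar f χ) {J : (Ideal (𝓞 K))⁰} {N : ℕ}
    (hNJ : (N : 𝓞 K) ∈ (J : Ideal (𝓞 K))) (hNf : (N : 𝓞 K) ∈ f) (x y : 𝓞 K) :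
    rayWeight f χ J (x + (N : 𝓞 K) * y) = rayWeight f χ J x := by
  unfold rayWeight
  rw [Ideal.add_mem_iff_left _ (Ideal.mul_mem_right _ _ hNJ)]
  split_ifs with hx
  · exact h.elemVal_congr (by rw [add_sub_cancel_left]; exact f.mul_mem_right _ hNf)
  · rfl

theorem exists_tendsto_rayClassSum_sub (h : IsRayChar f χ) {C : ClassGroup (𝓞 K)}
    {J : (Ideal (𝓞 K))⁰} (hJ : ClassGroup.mk0 J = C⁻¹) (hJχ : χ (J : Ideal (𝓞 K)) ≠ 0) {N : ℕ}
    (hN : N ≠ 0) (hNJ : (N : 𝓞 K) ∈ (J : Ideal (𝓞 K))) (hNf : (N : 𝓞 K) ∈ f)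
    [Fintype (𝓞 K ⧸ Ideal.span {(N : 𝓞 K)})] :
    ∃ l : ℂ, Tendsto (fun s : ℝ => rayClassSum χ C s -
      ((Units.torsionOrder K : ℂ) * χ (J : Ideal (𝓞 K)))⁻¹ *
        ((((Ideal.absNorm (J : Ideal (𝓞 K)) : ℝ) ^ s : ℝ) : ℂ) *
          (∑ a : 𝓞 K ⧸ Ideal.span {(N : 𝓞 K)}, rayWeight f χ J (Quotient.out a))) *
        (transSum K N 0 s : ℂ)) (𝓝[>] 1) (𝓝 l) := by
  choose l hl using fun a : 𝓞 K ⧸ Ideal.span {(N : 𝓞 K)} =>
    exists_tendsto_transSum_sub hN (Quotient.out a)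
  refine ⟨((Units.torsionOrder K : ℂ) * χ (J : Ideal (𝓞 K)))⁻¹ *
    ((((Ideal.absNorm (J : Ideal (𝓞 K)) : ℝ) ^ (1 : ℝ) : ℝ) : ℂ) *
      ∑ a : 𝓞 K ⧸ Ideal.span {(N : 𝓞 K)}, rayWeight f χ J (Quotient.out a) * (l a : ℂ)), ?_⟩
  have hpow : Tendsto (fun s : ℝ => (((Ideal.absNorm (J : Ideal (𝓞 K)) : ℝ) ^ s : ℝ) : ℂ))
      (𝓝[>] 1) (𝓝 ((((Ideal.absNorm (J : Ideal (𝓞 K)) : ℝ) ^ (1 : ℝ) : ℝ) : ℂ))) := by
    refine tendsto_nhdsWithin_of_tendsto_nhds (ContinuousAt.tendsto (x := (1 : ℝ)) ?_)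
    exact Complex.continuous_ofReal.continuousAt.comp
      (Real.continuousAt_const_rpow
        (Nat.cast_ne_zero.mpr (Ideal.absNorm_ne_zero_of_nonZeroDivisors _)))
  have := (hpow.mul (tendsto_finsetSum Finset.univ fun a _ =>
    ((Complex.continuous_ofReal.tendsto _).comp (hl a)).const_mul
      (rayWeight f χ J (Quotient.out a)))).const_mul
        ((Units.torsionOrder K : ℂ) * χ (J : Ideal (𝓞 K)))⁻¹
  refine this.congr' ?_
  filter_upwards [self_mem_nhdsWithin] with s hs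
  have hT : (Units.torsionOrder K : ℂ) * χ (J : Ideal (𝓞 K)) ≠ 0 :=
    mul_ne_zero (Nat.cast_ne_zero.mpr (Units.torsionOrder_ne_zero K)) hJχ
  have hunfold : ∑' x : 𝓞 K, (phi s (emb x) : ℂ) * rayWeight f χ J x =
      ∑ a : 𝓞 K ⧸ Ideal.span {(N : 𝓞 K)},
        rayWeight f χ J (Quotient.out a) * (transSum K N (Quotient.out a) s : ℂ) := by
    have hsum : Summable fun x : 𝓞 K => (phi s (emb x) : ℂ) * rayWeight f χ J x := by
      refine Summable.of_norm_bounded (summable_phi_emb hs) fun x => ?_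
      rw [norm_mul, Complex.norm_real, Real.norm_of_nonneg (phi_nonneg _ _)]
      exact mul_le_of_le_one_right (phi_nonneg _ _) (norm_rayWeight_le h J x)
    have hsum' := (residueEquiv K N hN).summable_iff.mpr hsum
    rw [← (residueEquiv K N hN).tsum_eq]
    refine (hsum'.tsum_prod' (fun a => hsum'.prod_factor a)).trans ?_
    rw [tsum_fintype]
    refine Finset.sum_congr rfl fun a _ => ?_
    simp only [Function.comp_apply, residueEquiv_apply, rayWeight_add_mul h hNJ hNf]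
    rw [tsum_mul_right, transSum, Complex.ofReal_tsum, mul_comm]
  have e : rayClassSum χ C s = ((Units.torsionOrder K : ℂ) * χ (J : Ideal (𝓞 K)))⁻¹ *
      ((Units.torsionOrder K : ℂ) * χ (J : Ideal (𝓞 K)) * rayClassSum χ C s) :=
    (inv_mul_cancel_left₀ hT _).symm
  rw [mul_assoc (Units.torsionOrder K : ℂ), rayClassSum_eq h hs hJ, hunfold] at e
  rw [e]
  simp only [Function.comp_apply, Complex.ofReal_sub, mul_sub, Finset.sum_sub_distrib,
    ← Finset.sum_mul]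
  ring

end Periodic

/-- The residues modulo `N` lying in `J` are equidistributed modulo `f` when `J` is prime to `f`. -/
theorem sum_rayWeight_residues {f : Ideal (𝓞 K)} {χ : Ideal (𝓞 K) →* ℂ} (h : IsRayChar f χ)
    {J : (Ideal (𝓞 K))⁰} (hJf : (J : Ideal (𝓞 K)) ⊔ f = ⊤) {N : ℕ}
    (hNJ : (N : 𝓞 K) ∈ (J : Ideal (𝓞 K))) (hNf : (N : 𝓞 K) ∈ f)
    [Fintype (𝓞 K ⧸ Ideal.span {(N : 𝓞 K)})] [Fintype (𝓞 K ⧸ f)] :
    (Ideal.absNorm (J : Ideal (𝓞 K)) : ℂ) * (Fintype.card (𝓞 K ⧸ f) : ℂ) *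
        ∑ a : 𝓞 K ⧸ Ideal.span {(N : 𝓞 K)}, rayWeight f χ J (Quotient.out a) =
      (Fintype.card (𝓞 K ⧸ Ideal.span {(N : 𝓞 K)}) : ℂ) *
        ∑ u : 𝓞 K ⧸ f, elemVal f χ (Quotient.out u) := by
  have hNJ' : (Ideal.span {(N : 𝓞 K)}) ≤ (J : Ideal (𝓞 K)) :=
    (Ideal.span_singleton_le_iff_mem _).2 hNJ
  have hNf' : (Ideal.span {(N : 𝓞 K)}) ≤ f := (Ideal.span_singleton_le_iff_mem _).2 hNf
  let A : AddSubgroup (𝓞 K ⧸ (Ideal.span {(N : 𝓞 K)})) :=
    (RingHom.ker (Ideal.Quotient.factor hNJ')).toAddSubgroup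
  have hout : ∀ (I : Ideal (𝓞 K)) (hI : (Ideal.span {(N : 𝓞 K)}) ≤ I)
    (a : 𝓞 K ⧸ (Ideal.span {(N : 𝓞 K)})),
      Ideal.Quotient.factor hI a = Ideal.Quotient.mk I (Quotient.out a) := fun I hI a => by
    conv_lhs => rw [← Ideal.Quotient.mk_out a, Ideal.Quotient.factor_mk]
  have hiff : ∀ a : 𝓞 K ⧸ (Ideal.span {(N : 𝓞 K)}), Quotient.out a ∈ (J : Ideal (𝓞 K)) ↔ a ∈ A :=
    fun a => by
    rw [Submodule.mem_toAddSubgroup, RingHom.mem_ker, hout _ hNJ' a,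
      Ideal.Quotient.eq_zero_iff_mem]
  let π : A →+ 𝓞 K ⧸ f :=
    ((Ideal.Quotient.factor hNf').toAddMonoidHom).comp A.subtype
  have hπ : Function.Surjective π := by
    intro u
    obtain ⟨x, rfl⟩ := Ideal.Quotient.mk_surjective u
    obtain ⟨a, ha, b, hb, hab⟩ := Submodule.mem_sup.1 (hJf ▸ Submodule.mem_top : x ∈ _)
    refine ⟨⟨Ideal.Quotient.mk (Ideal.span {(N : 𝓞 K)}) a, ?_⟩, ?_⟩
    · rw [Submodule.mem_toAddSubgroup, RingHom.mem_ker, Ideal.Quotient.factor_mk,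
        Ideal.Quotient.eq_zero_iff_mem]
      exact ha
    · show Ideal.Quotient.factor hNf' (Ideal.Quotient.mk (Ideal.span {(N : 𝓞 K)}) a) = _
      rw [Ideal.Quotient.factor_mk, Ideal.Quotient.eq, ← hab, sub_add_cancel_left]
      exact f.neg_mem hb
  have hval : ∀ a : A, elemVal f χ (Quotient.out (a : 𝓞 K ⧸ (Ideal.span {(N : 𝓞 K)}))) =
      elemVal f χ (Quotient.out (π a)) := fun a => h.elemVal_congr (by
    rw [← Ideal.Quotient.eq, Ideal.Quotient.mk_out]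
    exact (hout f hNf' a).symm)
  have hfib : ∀ u : 𝓞 K ⧸ f, (Finset.univ.filter fun a : A => π a = u).card =
      Fintype.card π.ker := by
    intro u
    obtain ⟨a₀, rfl⟩ := hπ u
    rw [← Fintype.card_subtype]
    refine Fintype.card_congr
      { toFun := fun a => ⟨a.1 - a₀, by rw [AddMonoidHom.mem_ker, map_sub, a.2, sub_self]⟩
        invFun := fun k => ⟨k.1 + a₀, by rw [map_add, k.2, zero_add]⟩
        left_inv := fun a => Subtype.ext (sub_add_cancel _ _)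
        right_inv := fun k => Subtype.ext (add_sub_cancel_right _ _) }
  have hcardA : Fintype.card A * Ideal.absNorm (J : Ideal (𝓞 K)) =
    Fintype.card (𝓞 K ⧸ (Ideal.span {(N : 𝓞 K)})) := by
    rw [← Nat.card_eq_fintype_card, ← Nat.card_eq_fintype_card
      (α := 𝓞 K ⧸ (Ideal.span {(N : 𝓞 K)})),
      AddSubgroup.card_eq_card_quotient_mul_card_addSubgroup A, mul_comm]
    congr 1
    rw [Ideal.absNorm_apply, Submodule.cardQuot_apply]
    exact (Nat.card_congr (RingHom.quotientKerEquivOfSurjective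
      (Ideal.Quotient.factor_surjective hNJ')).toEquiv).symm
  have hcardπ : Fintype.card A = Fintype.card π.ker * Fintype.card (𝓞 K ⧸ f) := by
    rw [← Finset.card_univ (α := A), Finset.card_eq_sum_card_fiberwise
      (f := π) (t := Finset.univ) (fun a _ => Finset.mem_univ _),
      Finset.sum_congr rfl fun u _ => hfib u, Finset.sum_const, Finset.card_univ, smul_eq_mul,
      mul_comm]
  have hsum : ∑ a : 𝓞 K ⧸ (Ideal.span {(N : 𝓞 K)}), rayWeight f χ J (Quotient.out a) =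
      (Fintype.card π.ker : ℂ) * ∑ u : 𝓞 K ⧸ f, elemVal f χ (Quotient.out u) := by
    simp only [rayWeight, hiff]
    rw [← Finset.sum_filter, Finset.sum_subtype (p := (· ∈ A)) _ (by simp),
      Finset.sum_congr rfl fun a _ => hval a,
      ← Finset.sum_fiberwise Finset.univ π (fun a => elemVal f χ (Quotient.out (π a))),
      Finset.mul_sum]
    refine Finset.sum_congr rfl fun u _ => ?_
    rw [Finset.sum_congr rfl fun a ha => by rw [(Finset.mem_filter.1 ha).2], Finset.sum_const,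
      hfib, nsmul_eq_mul]
  rw [hsum, ← hcardA, hcardπ]
  push_cast
  ring

theorem exists_coprime_rep {χ : Ideal (𝓞 K) →* ℂ}
    {C : ClassGroup (𝓞 K)} {I : (Ideal (𝓞 K))⁰} (hI : ClassGroup.mk0 I = C)
    (hIχ : χ (I : Ideal (𝓞 K)) ≠ 0) :
    ∃ J : (Ideal (𝓞 K))⁰, ClassGroup.mk0 J = C⁻¹ ∧ χ (J : Ideal (𝓞 K)) ≠ 0 := by
  refine ⟨I ^ (classNumber K - 1), ?_, ?_⟩
  · rw [map_pow, hI, eq_inv_iff_mul_eq_one, ← pow_succ, Nat.sub_add_cancel (classNumber_pos K),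
      classNumber, pow_card_eq_one]
  · rw [SubmonoidClass.coe_pow, map_pow]
    exact pow_ne_zero _ hIχ

/-- **Equidistribution of ray classes**: the `L`-series of a nontrivial ray class character has a
finite limit at `1`. -/
theorem exists_tendsto_raySum {f : Ideal (𝓞 K)} {χ : Ideal (𝓞 K) →* ℂ} (h : IsRayChar f χ)
    (hne : ∃ I : Ideal (𝓞 K), I ≠ ⊥ ∧ χ I ≠ 0 ∧ χ I ≠ 1) :
    ∃ l : ℂ, Tendsto (fun s : ℝ => ∑' I : (Ideal (𝓞 K))⁰, dirichletTerm (onNonzero χ) s I)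
      (𝓝[>] 1) (𝓝 l) := by
  -- the classes meeting the ideals prime to `f`
  let G0 : Finset (ClassGroup (𝓞 K)) := Finset.univ.filter fun C =>
    ∃ I : (Ideal (𝓞 K))⁰, ClassGroup.mk0 I = C ∧ χ (I : Ideal (𝓞 K)) ≠ 0
  have hrep : ∀ C : ClassGroup (𝓞 K), ∃ J : (Ideal (𝓞 K))⁰,
      C ∈ G0 → ClassGroup.mk0 J = C⁻¹ ∧ χ (J : Ideal (𝓞 K)) ≠ 0 := by
    intro C
    by_cases hC : C ∈ G0
    · obtain ⟨I, hI, hIχ⟩ := (Finset.mem_filter.1 hC).2
      obtain ⟨J, hJ⟩ := exists_coprime_rep hI hIχ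
      exact ⟨J, fun _ => hJ⟩
    · exact ⟨1, fun h' => absurd h' hC⟩
  choose J hJ using hrep
  set M : ℕ := Ideal.absNorm f * ∏ C, Ideal.absNorm (J C : Ideal (𝓞 K))
  have hM : M ≠ 0 := Nat.mul_ne_zero (fun h0 => h.ne_bot (Ideal.absNorm_eq_zero_iff.1 h0))
    (Finset.prod_ne_zero_iff.mpr fun _ _ => Ideal.absNorm_ne_zero_of_nonZeroDivisors _)
  set N : ℕ := commonMod K M
  have hN : N ≠ 0 := commonMod_ne_zero hM
  have hmemN : ∀ I : Ideal (𝓞 K), Ideal.absNorm I ∣ M → (N : 𝓞 K) ∈ I := fun I hI => by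
    obtain ⟨k, hk⟩ := hI.trans (Dvd.intro _ rfl : M ∣ N)
    rw [hk, Nat.cast_mul]
    exact I.mul_mem_right _ (Ideal.absNorm_mem I)
  have hNf : (N : 𝓞 K) ∈ f := hmemN f (Dvd.intro _ rfl)
  have hNJ : ∀ C, (N : 𝓞 K) ∈ (J C : Ideal (𝓞 K)) := fun C =>
    hmemN _ (dvd_mul_of_dvd_right (Finset.dvd_prod_of_mem _ (Finset.mem_univ C)) _)
  have := finite_residues (K := K) hN
  have : Fintype (𝓞 K ⧸ Ideal.span {(N : 𝓞 K)}) := Fintype.ofFinite _
  have : Finite (𝓞 K ⧸ f) := Ideal.finiteQuotientOfFreeOfNeBot f h.ne_bot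
  have : Fintype (𝓞 K ⧸ f) := Fintype.ofFinite _
  set S : ClassGroup (𝓞 K) → ℂ := fun C =>
    ∑ a : 𝓞 K ⧸ Ideal.span {(N : 𝓞 K)}, rayWeight f χ (J C) (Quotient.out a)
  set c : ℝ → ℂ := fun s => ∑ C ∈ G0,
    ((Units.torsionOrder K : ℂ) * χ (J C : Ideal (𝓞 K)))⁻¹ *
      ((((Ideal.absNorm (J C : Ideal (𝓞 K)) : ℝ) ^ s : ℝ) : ℂ) * S C)
  have hex : ∀ C : ClassGroup (𝓞 K), ∃ l : ℂ, C ∈ G0 → Tendsto (fun s : ℝ => rayClassSum χ C s -
      ((Units.torsionOrder K : ℂ) * χ (J C : Ideal (𝓞 K)))⁻¹ *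
        ((((Ideal.absNorm (J C : Ideal (𝓞 K)) : ℝ) ^ s : ℝ) : ℂ) * S C) *
        (transSum K N 0 s : ℂ)) (𝓝[>] 1) (𝓝 l) := by
    intro C
    by_cases hC : C ∈ G0
    · obtain ⟨l, hl⟩ := exists_tendsto_rayClassSum_sub h (hJ C hC).1 (hJ C hC).2 hN (hNJ C) hNf
      exact ⟨l, fun _ => hl⟩
    · exact ⟨0, fun h' => absurd h' hC⟩
  choose l hl using hex
  -- the main coefficient vanishes at `1`
  set u0 : ℂ := ∑ u : 𝓞 K ⧸ f, elemVal f χ (Quotient.out u) with hu0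
  have hcard : (Fintype.card (𝓞 K ⧸ f) : ℂ) ≠ 0 := Nat.cast_ne_zero.2 Fintype.card_ne_zero
  have hS : ∀ C ∈ G0, (Ideal.absNorm (J C : Ideal (𝓞 K)) : ℂ) * S C =
      (Fintype.card (𝓞 K ⧸ Ideal.span {(N : 𝓞 K)}) : ℂ) *
        (Fintype.card (𝓞 K ⧸ f) : ℂ)⁻¹ * u0 := by
    intro C hC
    have hcop : (J C : Ideal (𝓞 K)) ⊔ f = ⊤ :=
      (h.ne_zero_iff _ (nonZeroDivisors.coe_ne_zero _)).1 (hJ C hC).2
    have e := sum_rayWeight_residues h hcop (hNJ C) hNf
    rw [mul_right_comm _ (Fintype.card (𝓞 K ⧸ f) : ℂ)⁻¹ u0, eq_mul_inv_iff_mul_eq₀ hcard]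
    linear_combination e
  have hvanish : u0 * ∑ C ∈ G0, (χ (J C : Ideal (𝓞 K)))⁻¹ = 0 := by
    by_cases hpr : ∀ x : 𝓞 K, elemVal f χ x ≠ 0 → elemVal f χ x = 1
    · refine mul_eq_zero_of_right _ ?_
      have hwd : ∀ I I' : (Ideal (𝓞 K))⁰, ClassGroup.mk0 I = ClassGroup.mk0 I' →
          χ (I : Ideal (𝓞 K)) ≠ 0 → χ (I' : Ideal (𝓞 K)) ≠ 0 →
          χ (I : Ideal (𝓞 K)) = χ (I' : Ideal (𝓞 K)) := by
        intro I I' hII hI hI'
        obtain ⟨J₀, hJ₀, hJ₀χ⟩ := exists_coprime_rep rfl hI'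
        have key : ∀ I₁ : (Ideal (𝓞 K))⁰, ClassGroup.mk0 I₁ = ClassGroup.mk0 I' →
            χ (I₁ : Ideal (𝓞 K)) ≠ 0 →
            χ (I₁ : Ideal (𝓞 K)) * χ (J₀ : Ideal (𝓞 K)) = 1 := by
          intro I₁ hI₁ hI₁χ
          have h1 : ClassGroup.mk0 (I₁ * J₀) = 1 := by
            rw [map_mul, hI₁, hJ₀, mul_inv_cancel]
          obtain ⟨x, hx⟩ := ((ClassGroup.mk0_eq_one_iff (I₁ * J₀).2).1 h1).principal
          have hx' : ((I₁ * J₀ : (Ideal (𝓞 K))⁰) : Ideal (𝓞 K)) = Ideal.span {x} := hx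
          have hx0 : x ≠ 0 := fun e => nonZeroDivisors.coe_ne_zero (I₁ * J₀) (by
            rw [hx', e, Ideal.span_singleton_eq_bot.2 rfl]
            rfl)
          have hev : elemVal f χ x = χ (I₁ : Ideal (𝓞 K)) * χ (J₀ : Ideal (𝓞 K)) := by
            rw [elemVal, if_neg hx0, ← hx', Submonoid.coe_mul, map_mul]
          rw [← hev]
          exact hpr x (hev ▸ mul_ne_zero hI₁χ hJ₀χ)
        exact mul_right_cancel₀ hJ₀χ ((key I hII hI).trans (key I' rfl hI').symm)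
      obtain ⟨I₁, hI₁0, hI₁χ, hI₁ne⟩ := hne
      set I₁' : (Ideal (𝓞 K))⁰ := ⟨I₁, mem_nonZeroDivisors_iff_ne_zero.2 hI₁0⟩
      set D := ClassGroup.mk0 I₁' with hD
      have hmapsto : ∀ C ∈ G0, D * C ∈ G0 := fun C hC => by
        obtain ⟨I, hI, hIχ⟩ := (Finset.mem_filter.1 hC).2
        refine Finset.mem_filter.2 ⟨Finset.mem_univ _, I₁' * I, by rw [map_mul, hI], ?_⟩
        rw [Submonoid.coe_mul, map_mul]
        exact mul_ne_zero hI₁χ hIχ
      have himg : G0.image (D * ·) = G0 := Finset.eq_of_subset_of_card_le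
        (fun C hC => by obtain ⟨C', hC', rfl⟩ := Finset.mem_image.1 hC; exact hmapsto C' hC')
        (Finset.card_image_of_injective _ (mul_right_injective D)).ge
      have hmul : ∀ C ∈ G0, (χ (J (D * C) : Ideal (𝓞 K)))⁻¹ =
          χ I₁ * (χ (J C : Ideal (𝓞 K)))⁻¹ := by
        intro C hC
        have h1 := hJ C hC
        have h2 := hJ (D * C) (hmapsto C hC)
        have h3 := hwd (I₁' * J (D * C)) (J C)
          (by rw [map_mul, h2.1, h1.1, mul_inv, ← hD, mul_inv_cancel_left])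
          (by rw [Submonoid.coe_mul, map_mul]; exact mul_ne_zero hI₁χ h2.2) h1.2
        rw [Submonoid.coe_mul, map_mul] at h3
        rw [← h3, mul_inv, mul_inv_cancel_left₀ hI₁χ]
      have e : ∑ C ∈ G0, (χ (J C : Ideal (𝓞 K)))⁻¹ =
          χ I₁ * ∑ C ∈ G0, (χ (J C : Ideal (𝓞 K)))⁻¹ := by
        conv_lhs => rw [← himg, Finset.sum_image fun _ _ _ _ e => mul_left_cancel e]
        rw [Finset.mul_sum]
        exact Finset.sum_congr rfl hmul
      exact mul_left_eq_self₀.1 e.symm |>.resolve_left hI₁ne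
    · push Not at hpr
      obtain ⟨x, hx0, hx1⟩ := hpr
      refine mul_eq_zero_of_left ?_ _
      have hx : Ideal.span {x} ⊔ f = ⊤ := by
        unfold elemVal at hx0
        split_ifs at hx0 with hxz hft
        · rw [hft, sup_top_eq]
        · exact absurd rfl hx0
        · exact (h.ne_zero_iff _ (by simpa using hxz)).1 hx0
      obtain ⟨a, ha, b, hb, hab⟩ := Submodule.mem_sup.1 (hx ▸ Submodule.mem_top : (1 : 𝓞 K) ∈ _)
      obtain ⟨y, rfl⟩ := Ideal.mem_span_singleton.1 ha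
      have hxy : Ideal.Quotient.mk f x * Ideal.Quotient.mk f y = 1 := by
        rw [← map_mul, ← map_one (Ideal.Quotient.mk f), Ideal.Quotient.eq,
          show x * y - 1 = -b by linear_combination hab]
        exact f.neg_mem hb
      have e : u0 = elemVal f χ x * u0 := by
        conv_lhs => rw [hu0]
        rw [hu0, Finset.mul_sum]
        refine (Fintype.sum_equiv
          (Units.mulLeft (Units.mkOfMulEqOne _ _ hxy)) _ _ fun u => ?_).symm
        rw [← h.elemVal_mul]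
        refine h.elemVal_congr ?_
        rw [← Ideal.Quotient.eq, map_mul, Ideal.Quotient.mk_out, Ideal.Quotient.mk_out]
        rfl
      exact mul_left_eq_self₀.1 e.symm |>.resolve_left hx1
  have hc1 : c 1 = 0 := by
    simp only [c, Real.rpow_one, Complex.ofReal_natCast]
    rw [Finset.sum_congr rfl fun C hC => by rw [hS C hC]]
    simp only [mul_inv, mul_assoc, ← Finset.mul_sum]
    rw [← Finset.sum_mul]
    linear_combination (((Units.torsionOrder K : ℂ))⁻¹ *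
      ((Fintype.card (𝓞 K ⧸ Ideal.span {(N : 𝓞 K)}) : ℂ) *
        (Fintype.card (𝓞 K ⧸ f) : ℂ)⁻¹)) * hvanish
  have hcd : Differentiable ℝ c := by
    refine Differentiable.fun_sum fun C _ => ?_
    refine (Differentiable.mul_const ?_ _).const_mul _
    exact Complex.ofRealCLM.differentiable.comp fun x => (Real.hasStrictDerivAt_const_rpow
      (Nat.cast_pos.mpr (Ideal.absNorm_pos_of_nonZeroDivisors _)) x).hasDerivAt.differentiableAt
  obtain ⟨κ, -, hT⟩ := exists_tendsto_transSum (K := K) hM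
  have hslope : Tendsto (slope c 1) (𝓝[>] 1) (𝓝 (deriv c 1)) :=
    ((hasDerivAt_iff_tendsto_slope.mp (hcd 1).hasDerivAt)).mono_left
      (nhdsWithin_mono _ fun x hx => ne_of_gt hx)
  refine ⟨∑ C ∈ G0, l C + deriv c 1 * (κ : ℂ),
    ((tendsto_finsetSum G0 fun C hC => hl C hC).add (hslope.mul hT)).congr' ?_⟩
  filter_upwards [self_mem_nhdsWithin] with s hs
  have hs' : (1 : ℝ) < s := hs
  have hsplit : ∑' I : (Ideal (𝓞 K))⁰, dirichletTerm (onNonzero χ) s I =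
      ∑ C ∈ G0, rayClassSum χ C s := by
    let e := Equiv.sigmaFiberEquiv fun I : (Ideal (𝓞 K))⁰ => ClassGroup.mk0 I
    have hsum : Summable fun I : (Ideal (𝓞 K))⁰ => dirichletTerm (onNonzero χ) s I :=
      Summable.of_norm_bounded (Density.summable_absNorm_rpow (K := K) hs') fun I =>
        norm_dirichletTerm_le (fun J => h.norm_le _) s I
    rw [← e.tsum_eq]
    refine (Summable.tsum_sigma (e.summable_iff.2 hsum)).trans ?_
    rw [tsum_fintype]
    refine (Finset.sum_subset_zero_on_sdiff (Finset.subset_univ G0) (fun C hC => ?_)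
      fun C _ => ?_).symm
    · refine (tsum_congr fun I => ?_).trans tsum_zero
      have hI : χ ((I.1 : (Ideal (𝓞 K))⁰) : Ideal (𝓞 K)) = 0 := by
        by_contra hne'
        exact (Finset.mem_sdiff.1 hC).2
          (Finset.mem_filter.2 ⟨Finset.mem_univ _, I.1, I.2, hne'⟩)
      show χ ((I.1 : (Ideal (𝓞 K))⁰) : Ideal (𝓞 K)) * _ = 0
      rw [hI, zero_mul]
    · rfl
  rw [hsplit, slope_def_module, hc1, sub_zero, Complex.real_smul, Complex.ofReal_inv]
  have hne' : ((s - 1 : ℝ) : ℂ) ≠ 0 := Complex.ofReal_ne_zero.mpr (sub_ne_zero.mpr (ne_of_gt hs'))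
  simp only [c, Finset.sum_sub_distrib, ← Finset.sum_mul]
  field_simp
  ring

end FLTAgent.LanglandsTunnell.CFT
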