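import Fermat.Agent.LanglandsTunnell.CFT.Artin4
import Fermat.Agent.LanglandsTunnell.Interfaces

/-!
# Reciprocity for characters of order two, three and four

`reciprocity_of_artin` passes from the Artin map of the image of a character to ray class data;
`reciprocitySpec` is the resulting proof of `ReciprocitySpec` over totally complex fields.
-/

set_option autoImplicit false

noncomputable section

open NumberField IsDedekindDomain
open scoped Pointwise Classical

namespace FLTAgent.LanglandsTunnell.CFT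

open FLTAgent.Density FLTAgent.LanglandsTunnell

/-- A ray homomorphism takes equal values on congruent elements prime to the modulus. -/
theorem IsRayHom.map_span_congr {K : Type*} [Field K] [NumberField K] {f : Ideal (𝓞 K)} {A : Type*}
    [CommGroup A] {π : Ideal (𝓞 K) → A} (h : IsRayHom f π) {a b : 𝓞 K} (ha : a ≠ 0) (hb : b ≠ 0)
    (hcop : Ideal.span {a} ⊔ f = ⊤) (hab : a - b ∈ f) :
    π (Ideal.span {a}) = π (Ideal.span {b}) := by
  have hspan : ∀ {x : 𝓞 K}, x ≠ 0 → Ideal.span {x} ≠ ⊥ := fun hx h =>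
    hx (Ideal.span_singleton_eq_bot.1 h)
  obtain ⟨c, hc0, hc⟩ : ∃ c : 𝓞 K, c ≠ 0 ∧ a * c - 1 ∈ f := by
    by_cases hf : f = ⊤
    · exact ⟨1, one_ne_zero, hf ▸ Submodule.mem_top⟩
    obtain ⟨y, hy, z, hz, e⟩ := Submodule.mem_sup.1 ((Ideal.eq_top_iff_one _).1 hcop)
    obtain ⟨c, rfl⟩ := Ideal.mem_span_singleton'.1 hy
    refine ⟨c, ?_, ?_⟩
    · rintro rfl
      rw [zero_mul, zero_add] at e
      exact hf ((Ideal.eq_top_iff_one _).2 (e ▸ hz))
    · rw [show a * c - 1 = -z by linear_combination e]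
      exact neg_mem hz
  have hbc : b * c - 1 ∈ f := by
    rw [show b * c - 1 = a * c - 1 - c * (a - b) by ring]
    exact sub_mem hc (Ideal.mul_mem_left _ _ hab)
  have key : ∀ x : 𝓞 K, x ≠ 0 → x * c - 1 ∈ f →
      π (Ideal.span {x}) * π (Ideal.span {c}) = 1 := by
    intro x hx hxc
    obtain ⟨h1, h2⟩ : Ideal.span {x} ⊔ f = ⊤ ∧ Ideal.span {c} ⊔ f = ⊤ := by
      rw [← mul_sup_eq_top_iff, Ideal.span_singleton_mul_span_singleton, Ideal.eq_top_iff_one]
      rw [show (1 : 𝓞 K) = x * c + -(x * c - 1) by ring]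
      exact Submodule.add_mem_sup (Ideal.mem_span_singleton_self _) (neg_mem hxc)
    rw [← h.map_mul _ _ (hspan hx) (hspan hc0) h1 h2, Ideal.span_singleton_mul_span_singleton]
    exact h.map_span _ (mul_ne_zero hx hc0) hxc
  exact mul_right_cancel ((key a ha hc).trans (key b hb hbc).symm)

/-- From the Artin map of the range of a character. -/
theorem reciprocity_of_artin {L : IntermediateField ℚ Qbar} [NumberField L]
    (χ : L.fixingSubgroup →* ℂˣ) {f : Ideal (𝓞 L)} {π : Ideal (𝓞 L) → χ.range}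
    (hπ : IsRayHom f π)
    (hram : ∀ P : Ideal (𝓞 L), P.IsPrime → P ∣ f → ¬ IsUnramifiedChar χ.rangeRestrict P)
    (hval : ∀ P : Ideal (𝓞 L), P.IsPrime → P ≠ ⊥ → P ⊔ f = ⊤ →
      IsUnramifiedChar χ.rangeRestrict P ∧ π P = frobVal χ.rangeRestrict P) :
    ∃ (f : Ideal (𝓞 L)) (ψ : Ideal (𝓞 L) → ℂ), f ≠ ⊥ ∧
        (∀ P : Ideal (𝓞 L), P.IsPrime → P ∣ f → ∃ A : ValuationSubring Qbar,
          (∀ x : 𝓞 L, x ∈ P ↔ ((x : L) : Qbar) ∈ A.nonunits) ∧
          ∃ (σ : Qbar ≃ₐ[ℚ] Qbar) (hσ : σ ∈ L.fixingSubgroup), σ ∈ A.inertiaSubgroupIn ℚ ∧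
            χ ⟨σ, hσ⟩ ≠ 1) ∧
        (∀ I J, ψ (I * J) = ψ I * ψ J) ∧
        (∀ P : Ideal (𝓞 L), P.IsPrime → P ≠ ⊥ → ¬ P ∣ f →
          ∀ (g : Qbar ≃ₐ[ℚ] Qbar) (hg : g ∈ L.fixingSubgroup),
            IsFrobOver L P g → ψ P = (χ ⟨g, hg⟩ : ℂ)) ∧
        ∀ a b : 𝓞 L, a ≠ 0 → b ≠ 0 → Ideal.span {a} ⊔ f = ⊤ → a - b ∈ f →
          ψ (Ideal.span {a}) = ψ (Ideal.span {b}) := by
  refine ⟨f, hπ.char χ.range.subtype, hπ.ne_bot, fun P hP hPf => ?_,
    fun I J => map_mul _ I J, fun P hP hP0 hPf g hg hfr => ?_, fun a b ha hb hcop hab => ?_⟩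
  · have h := hram P hP hPf
    simp only [IsUnramifiedChar, not_forall] at h
    obtain ⟨A, hA, σ, hσ, hne⟩ := h
    exact ⟨A, hA, σ, σ.2, hσ, fun e => hne (Subtype.ext e)⟩
  · have htop : P ⊔ f = ⊤ := by
      by_contra hne
      exact hPf (Ideal.dvd_iff_le.2 (_root_.le_sup_right.trans
        ((hP.isMaximal hP0).eq_of_le hne _root_.le_sup_left).ge))
    obtain ⟨hu, e⟩ := hval P hP hP0 htop
    have := hP
    rw [hπ.char_apply _ hP0 htop, e, frobVal_eq hP0 hu hfr]
    rfl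
  · have hb' : Ideal.span {b} ⊔ f = ⊤ := (span_sup_eq_top_congr hab).1 hcop
    rw [hπ.char_apply _ (fun h => ha (Ideal.span_singleton_eq_bot.1 h)) hcop,
      hπ.char_apply _ (fun h => hb (Ideal.span_singleton_eq_bot.1 h)) hb',
      hπ.map_span_congr ha hb hcop hab]

/-- **Reciprocity** for characters of order dividing two, three or four. -/
theorem reciprocitySpec : ReciprocitySpec := by
  intro L _ hTC m hm χ hχm hlev
  have := hTC
  have hmem : m = 2 ∨ m = 3 ∨ m = 4 := by simpa using hm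
  have : NeZero m := ⟨by omega⟩
  have hle : χ.range ≤ rootsOfUnity m ℂ := by
    rintro _ ⟨g, rfl⟩
    exact (mem_rootsOfUnity m _).2 (hχm g)
  have : Finite χ.range := Finite.of_injective _ (Subgroup.inclusion_injective hle)
  have hcard : Nat.card χ.range ∣ m := by
    have h := Subgroup.card_dvd_of_le hle
    rwa [HasEnoughRootsOfUnity.natCard_rootsOfUnity] at h
  have : IsCyclic (rootsOfUnity m ℂ) := HasEnoughRootsOfUnity.cyc
  have : IsCyclic χ.range :=
    isCyclic_of_injective (Subgroup.inclusion hle) (Subgroup.inclusion_injective hle)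
  have hsurj := χ.rangeRestrict_surjective
  have hlev' : ∃ L' : IntermediateField ℚ Qbar, FiniteDimensional ℚ L' ∧
      ∀ σ : L.fixingSubgroup, (∀ x ∈ L', (σ : GalQ) x = x) → χ.rangeRestrict σ = 1 :=
    let ⟨L', h1, h2⟩ := hlev
    ⟨L', h1, fun σ hσ => Subtype.ext (h2 σ hσ)⟩
  have hpos : 0 < Nat.card χ.range := Nat.card_pos
  have hle4 : Nat.card χ.range ≤ 4 := by
    have := Nat.le_of_dvd (by omega) hcard
    omega
  obtain h1 | h2 | h3 | h4 : Nat.card χ.range = 1 ∨ Nat.card χ.range = 2 ∨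
      Nat.card χ.range = 3 ∨ Nat.card χ.range = 4 := by omega
  · have : Subsingleton χ.range := (Nat.card_eq_one_iff_unique.1 h1).1
    refine reciprocity_of_artin χ (f := ⊤) (π := fun _ => 1)
      ⟨top_ne_bot, fun _ _ _ _ _ _ => Subsingleton.elim _ _, fun _ _ _ => rfl⟩
      (fun P hP hPf => absurd (eq_top_iff.2 (Ideal.le_of_dvd hPf)) hP.ne_top)
      fun P _ _ _ => ⟨fun _ _ _ _ => Subsingleton.elim _ _, Subsingleton.elim _ _⟩
  · have : Fact (Nat.Prime 2) := ⟨Nat.prime_two⟩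
    obtain ⟨f, π, ha, hb, hc⟩ :=
      exists_artin_prime h2 (Or.inl hTC) χ.rangeRestrict hsurj hlev'
    exact reciprocity_of_artin χ ha hb hc
  · have : Fact (Nat.Prime 3) := ⟨Nat.prime_three⟩
    obtain ⟨f, π, ha, hb, hc⟩ :=
      exists_artin_prime h3 (Or.inl hTC) χ.rangeRestrict hsurj hlev'
    exact reciprocity_of_artin χ ha hb hc
  · obtain ⟨τ, hτ⟩ := IsCyclic.exists_generator (α := χ.range)
    obtain ⟨f, π, ha, hb, hc⟩ := exists_artin_four h4 hτ χ.rangeRestrict hsurj hlev'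
    exact reciprocity_of_artin χ ha hb hc

end FLTAgent.LanglandsTunnell.CFT
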